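import Fermat.Agent.S24.A564.RHAssembly

/-!
# S27 (route of helper9506), package A1

In a function field of one variable `F/K` (characteristic zero, `x` transcendental,
`F` finite over `K(x)`), every valuation subring `O ≠ ⊤` of `F` containing `K` is the
valuation ring of a `Place K F`.
-/

set_option autoImplicit false

namespace Fermat.Agent.S27.A1h326

open AlgebraicCurve IsDedekindDomain WithZero IntermediateField
open scoped IntermediateField.algebraAdjoinAdjoin

section Abstract

variable {F : Type*} [Field F]
variable {B : Type*} [CommRing B] [IsDedekindDomain B] [Algebra B F] [IsFractionRing B F]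

/-- A valuation subring `O ≠ ⊤` of `Frac B` containing the Dedekind domain `B` is the valuation
ring of a height-one prime of `B`. -/
theorem exists_heightOneSpectrum_of_le (O : ValuationSubring F) (hO : O ≠ ⊤)
    (h : ∀ b : B, algebraMap B F b ∈ O) :
    ∃ w : HeightOneSpectrum B, (w.valuation F).valuationSubring = O := by
  classical
  let φ : B →+* O := (algebraMap B F).codRestrict O.toSubring h
  have hφ : ∀ b : B, ((φ b : O) : F) = algebraMap B F b := fun b => rfl
  let P : Ideal B := (IsLocalRing.maximalIdeal O).comap φ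
  have hP : P.IsPrime := Ideal.comap_isPrime φ _
  have hunit : ∀ b : B, b ∉ P → (algebraMap B F b)⁻¹ ∈ O := by
    intro b hb
    have hu : IsUnit (φ b) := by
      by_contra hnu
      exact hb ((IsLocalRing.mem_maximalIdeal _).mpr hnu)
    obtain ⟨u, hu⟩ := hu
    have h1 : ((u : O) : F) * ((u⁻¹ : Oˣ) : O) = 1 := by
      have h2 : ((u : O) * ((u⁻¹ : Oˣ) : O) : O) = 1 := u.mul_inv
      have h3 := congrArg (Subtype.val) h2
      rwa [MulMemClass.coe_mul, OneMemClass.coe_one] at h3
    have : ((u⁻¹ : Oˣ) : F) = (algebraMap B F b)⁻¹ := by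
      rw [← hφ b, ← hu]
      exact eq_inv_of_mul_eq_one_right h1
    rw [← this]
    exact ((u⁻¹ : Oˣ) : O).2
  have hP0 : P ≠ ⊥ := by
    intro hbot
    apply hO
    refine SetLike.ext fun f => ⟨fun _ => ValuationSubring.mem_top f, fun _ => ?_⟩
    obtain ⟨n, d, hd, rfl⟩ := IsFractionRing.div_surjective (A := B) f
    have hd0 : d ≠ 0 := nonZeroDivisors.ne_zero hd
    have hdP : d ∉ P := by
      rw [hbot]
      simpa using hd0
    rw [div_eq_mul_inv]
    exact mul_mem (h n) (hunit d hdP)
  refine ⟨⟨P, hP, hP0⟩, ?_⟩
  rw [← HeightOneSpectrum.valuationSubringAtPrime_eq_valuationSubring]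
  refine ValuationSubring.eq_of_le_of_ne_top _ ?_ hO
  intro x hx
  rw [HeightOneSpectrum.valuationSubringAtPrime_eq_valuationSubring,
    Valuation.mem_valuationSubring_iff] at hx
  obtain ⟨n, d, hnd⟩ := HeightOneSpectrum.exists_primeCompl_mul_eq_of_integer _ x hx
  have hd := hunit d.1 d.2
  have hd0 : algebraMap B F d.1 ≠ 0 := by
    intro h0
    have : d.1 = 0 := (IsFractionRing.injective B F) (by rw [h0, map_zero])
    exact d.2 (by rw [this]; exact Ideal.zero_mem _)
  have hx' : x = algebraMap B F n * (algebraMap B F d.1)⁻¹ := by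
    rw [← hnd]
    field_simp
  rw [hx']
  exact mul_mem (h n) hd

end Abstract

variable {K F : Type*} [Field K] [Field F] [Algebra K F]

/-- A valuation subring containing `K`, as a `K`-subalgebra. -/
def valSubalgebra (O : ValuationSubring F) (hK : ∀ a : K, algebraMap K F a ∈ O) :
    Subalgebra K F :=
  { O.toSubring with algebraMap_mem' := hK }

theorem mem_valSubalgebra (O : ValuationSubring F) (hK : ∀ a : K, algebraMap K F a ∈ O) (f : F) :
    f ∈ valSubalgebra O hK ↔ f ∈ O := Iff.rfl

/-- A valuation subring is integrally closed in its field: elements integral over a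
subalgebra contained in it belong to it. -/
theorem mem_of_isIntegral (O : ValuationSubring F) (hK : ∀ a : K, algebraMap K F a ∈ O)
    {R : Subalgebra K F} (hR : R ≤ valSubalgebra O hK) {b : F} (hb : IsIntegral R b) : b ∈ O := by
  obtain ⟨p, hp, hpb⟩ := hb
  let g : R →+* O := (algebraMap R F).codRestrict O.toSubring (fun r => hR r.2)
  have hg : (algebraMap O F).comp g = algebraMap R F := rfl
  have hint : IsIntegral O b := by
    refine ⟨p.map g, hp.map g, ?_⟩
    rw [Polynomial.eval₂_map, hg]
    exact hpb
  obtain ⟨y, hy⟩ := (IsIntegrallyClosed.isIntegral_iff (R := O) (K := F)).mp hint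
  rw [← hy]
  exact y.2

/-- An element of `F` algebraic over `K` lies in every valuation subring containing `K`. -/
theorem mem_of_isAlgebraic (O : ValuationSubring F) (hK : ∀ a : K, algebraMap K F a ∈ O)
    {b : F} (hb : IsAlgebraic K b) : b ∈ O := by
  have hint : IsIntegral K b := hb.isIntegral
  have hR : (⊥ : Subalgebra K F) ≤ valSubalgebra O hK := bot_le
  refine mem_of_isIntegral O hK hR ?_
  obtain ⟨p, hp, hpb⟩ := hint
  refine ⟨p.map (algebraMap K (⊥ : Subalgebra K F)), hp.map _, ?_⟩
  rw [Polynomial.eval₂_map]
  have : (algebraMap (⊥ : Subalgebra K F) F).comp (algebraMap K (⊥ : Subalgebra K F))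
      = algebraMap K F := rfl
  rw [this]
  exact hpb

/-- **A1.** In a function field of one variable over a field `K` of characteristic zero,
every valuation subring `O ≠ ⊤` containing `K` is the valuation ring of a place. -/
theorem exists_place_of_valuationSubring [CharZero K] (x : F) (hx : Transcendental K x)
    [FiniteDimensional K⟮x⟯ F] (O : ValuationSubring F)
    (hK : ∀ a : K, algebraMap K F a ∈ O) (hO : O ≠ ⊤) :
    ∃ v : Place K F, v.toValuationSubring = O := by
  classical
  obtain ⟨z, hz⟩ : ∃ z : F, z ∉ O := by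
    by_contra hcon
    push Not at hcon
    exact hO (SetLike.ext fun f => ⟨fun _ => ValuationSubring.mem_top f, fun _ => hcon f⟩)
  have htO : z⁻¹ ∈ O := (O.mem_or_inv_mem z).resolve_left hz
  have htr : Transcendental K z⁻¹ := by
    intro halg
    have hzalg : IsAlgebraic K z := by simpa using halg.inv
    exact hz (mem_of_isAlgebraic O hK hzalg)
  set t : F := z⁻¹ with ht
  have : FiniteDimensional K⟮t⟯ F :=
    Fermat.Agent.S24.A564.finiteDimensional_adjoin_of_transcendental x t hx htr
  let R := Algebra.adjoin K {t}
  let B := integralClosure R F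
  have : IsPrincipalIdealRing R := Fermat.Agent.S24.A564.SO.adjoin_isPrincipalIdealRing t
  have : IsDedekindDomain B := IsIntegralClosure.isDedekindDomain R K⟮t⟯ F B
  have : IsFractionRing B F := IsIntegralClosure.isFractionRing_of_finite_extension R K⟮t⟯ F B
  have hR : R ≤ valSubalgebra O hK :=
    Algebra.adjoin_le (Set.singleton_subset_iff.mpr htO)
  have hB : ∀ b : B, algebraMap B F b ∈ O := fun b => mem_of_isIntegral O hK hR b.2
  obtain ⟨w, hw⟩ := exists_heightOneSpectrum_of_le (B := B) O hO hB
  exact ⟨Place.ofHeightOneSpectrum (K := K) w, by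
    rw [Place.ofHeightOneSpectrum_toValuationSubring, hw]⟩

end Fermat.Agent.S27.A1h326
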