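import Mathlib

/-!
# S27, package E: counting torsion in a compact connected abelian group with an almost additive chart

`Fermat.Agent.S27.CGC.card_torsion_eq_pow`:
a compact Hausdorff connected abelian topological group `G` which has a chart
`ψ : (Fin m → ℝ) → G` around `0` in which the group law `a` is "almost additive"
(`‖a x y - x - y‖ ≤ ε ‖y‖` near `(0,0)` for every `ε > 0`; true for every `C¹` group law)
has exactly `n ^ m` points killed by `n`.
-/

set_option autoImplicit false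

namespace Fermat.Agent.S27.CGC

open MeasureTheory Set Metric Topology

section Core

set_option linter.unusedSectionVars false

variable {G : Type*} [AddCommGroup G]
variable {E : Type*} [NormedAddCommGroup E] [NormedSpace ℝ E]

/-- iterated chart addition: `nmul a k x` represents `k • x` in the chart. -/
def nmul (a : E → E → E) : ℕ → E → E
  | 0, _ => 0
  | (k + 1), x => a (nmul a k x) x

@[simp] theorem nmul_zero (a : E → E → E) (x : E) : nmul a 0 x = 0 := rfl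

theorem nmul_succ (a : E → E → E) (k : ℕ) (x : E) : nmul a (k + 1) x = a (nmul a k x) x := rfl

/-- a chart `ψ` with an almost additive group law `a` (constant `1/20`) on the `δ`-ball. -/
structure AlmostAdd (ψ : E → G) (a : E → E → E) (ρ δ : ℝ) : Prop where
  δ_pos : 0 < δ
  δ_le : δ ≤ ρ
  map_zero : ψ 0 = 0
  inj : Set.InjOn ψ (ball 0 ρ)
  lt : ∀ x y, ‖x‖ < δ → ‖y‖ < δ → ‖a x y‖ < ρ
  map_add : ∀ x y, ‖x‖ < δ → ‖y‖ < δ → ψ (a x y) = ψ x + ψ y
  est : ∀ x y, ‖x‖ < δ → ‖y‖ < δ → ‖a x y - x - y‖ ≤ (1 / 20) * ‖y‖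

variable {ψ : E → G} {a : E → E → E} {ρ δ : ℝ}

theorem AlmostAdd.eq_of_map_eq (h : AlmostAdd ψ a ρ δ) {x y : E} (hx : ‖x‖ < ρ) (hy : ‖y‖ < ρ)
    (hxy : ψ x = ψ y) : x = y :=
  h.inj (by simpa using hx) (by simpa using hy) hxy

theorem nmul_spec (h : AlmostAdd ψ a ρ δ) (n : ℕ) (x : E) (hx : (n : ℝ) * ‖x‖ ≤ δ / 2)
    (hx' : ‖x‖ < δ) :
    ∀ k ≤ n, ‖nmul a k x - (k : ℝ) • x‖ ≤ (1 / 20) * k * ‖x‖ ∧ ψ (nmul a k x) = k • ψ x ∧
      ‖nmul a k x‖ < δ := by
  have hδ := h.δ_pos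
  intro k
  induction k with
  | zero =>
    intro _
    refine ⟨by simp, by simp [h.map_zero], by simpa using hδ⟩
  | succ k ih =>
    intro hk
    obtain ⟨h1, h2, h3⟩ := ih (Nat.le_of_succ_le hk)
    have hest := h.est (nmul a k x) x h3 hx'
    have hkn : ((k : ℝ) + 1) * ‖x‖ ≤ δ / 2 := by
      have : ((k + 1 : ℕ) : ℝ) ≤ n := by exact_mod_cast hk
      push_cast at this
      nlinarith [norm_nonneg x]
    have e1 : ‖nmul a (k + 1) x - ((k + 1 : ℕ) : ℝ) • x‖ ≤ (1 / 20) * ((k + 1 : ℕ) : ℝ) * ‖x‖ := by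
      rw [nmul_succ]
      have : a (nmul a k x) x - ((k + 1 : ℕ) : ℝ) • x
          = (a (nmul a k x) x - nmul a k x - x) + (nmul a k x - (k : ℝ) • x) := by
        push_cast
        rw [add_smul, one_smul]
        abel
      rw [this]
      refine (norm_add_le _ _).trans ?_
      push_cast
      linarith
    refine ⟨e1, ?_, ?_⟩
    · rw [nmul_succ, h.map_add _ _ h3 hx', h2, succ_nsmul]
    · have : ‖nmul a (k + 1) x‖ ≤ ‖nmul a (k + 1) x - ((k + 1 : ℕ) : ℝ) • x‖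
          + ‖((k + 1 : ℕ) : ℝ) • x‖ := by
        simpa using norm_add_le (nmul a (k + 1) x - ((k + 1 : ℕ) : ℝ) • x) (((k + 1 : ℕ) : ℝ) • x)
      have h5 : ‖((k + 1 : ℕ) : ℝ) • x‖ = ((k : ℝ) + 1) * ‖x‖ := by
        rw [norm_smul, Real.norm_of_nonneg (by positivity)]
        push_cast; ring
      push_cast at e1 this h5
      rw [h5] at this
      nlinarith [norm_nonneg x]

theorem nmul_self_zero (h : AlmostAdd ψ a ρ δ) (n : ℕ) : nmul a n (0 : E) = 0 := by
  have := (nmul_spec h n 0 (by simpa using (half_pos h.δ_pos).le) (by simpa using h.δ_pos) n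
    le_rfl).1
  simpa using this

/-- chart subtraction with its estimate. -/
theorem exists_sub (h : AlmostAdd ψ a ρ δ) {δ₁ : ℝ} (hδ₁ : δ₁ ≤ δ)
    (hsub : ∀ x x' : E, ‖x‖ < δ₁ → ‖x'‖ < δ₁ → ∃ z, ‖z‖ < δ ∧ ψ z = ψ x - ψ x')
    {x x' : E} (hx : ‖x‖ < δ₁) (hx' : ‖x'‖ < δ₁) :
    ∃ z, ‖z‖ < δ ∧ ψ z = ψ x - ψ x' ∧ ‖x - x' - z‖ ≤ (1 / 20) * ‖z‖ ∧
      ‖z‖ ≤ (20 / 19) * ‖x - x'‖ := by
  obtain ⟨z, hz, hψz⟩ := hsub x x' hx hx'
  have hx'δ : ‖x'‖ < δ := lt_of_lt_of_le hx' hδ₁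
  have hxρ : ‖x‖ < ρ := lt_of_lt_of_le hx (hδ₁.trans h.δ_le)
  have e : a x' z = x := by
    apply h.eq_of_map_eq (h.lt _ _ hx'δ hz) hxρ
    rw [h.map_add _ _ hx'δ hz, hψz]; abel
  have hest := h.est x' z hx'δ hz
  rw [e] at hest
  refine ⟨z, hz, hψz, hest, ?_⟩
  have : ‖z‖ ≤ ‖x - x'‖ + ‖x - x' - z‖ := by
    have := norm_sub_le (x - x') (x - x' - z)
    simpa using this
  linarith

/-- multiplication by `n` is injective on the chart image of a ball of radius `δ₁/(10 n)`. -/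
theorem nsmul_injOn (h : AlmostAdd ψ a ρ δ) {δ₁ : ℝ} (hδ₁0 : 0 < δ₁) (hδ₁ : δ₁ ≤ δ)
    (hsub : ∀ x x' : E, ‖x‖ < δ₁ → ‖x'‖ < δ₁ → ∃ z, ‖z‖ < δ ∧ ψ z = ψ x - ψ x')
    {n : ℕ} (hn : 0 < n) {x x' : E} (hx : ‖x‖ < δ₁ / (10 * n)) (hx' : ‖x'‖ < δ₁ / (10 * n))
    (hxx' : n • ψ x = n • ψ x') : x = x' := by
  have hn' : (0 : ℝ) < n := by exact_mod_cast hn
  have hn1 : (1 : ℝ) ≤ n := by exact_mod_cast hn
  have hle : δ₁ / (10 * n) ≤ δ₁ / 10 := by
    apply div_le_div_of_nonneg_left hδ₁0.le (by norm_num) (by linarith)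
  obtain ⟨z, hz, hψz, hz1, hz2⟩ := exists_sub h hδ₁ hsub (x := x) (x' := x')
    (by linarith) (by linarith)
  have hxx : ‖x - x'‖ ≤ 2 * (δ₁ / (10 * n)) := by
    have := norm_sub_le x x'; linarith
  have hnz : (n : ℝ) * ‖z‖ ≤ δ / 2 := by
    have : (n : ℝ) * (δ₁ / (10 * n)) = δ₁ / 10 := by field_simp
    nlinarith [norm_nonneg z]
  obtain ⟨s1, s2, s3⟩ := nmul_spec h n z hnz hz n le_rfl
  have hzero : nmul a n z = 0 := by
    apply h.eq_of_map_eq (lt_of_lt_of_le s3 h.δ_le) (by simpa using lt_of_lt_of_le h.δ_pos h.δ_le)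
    rw [s2, hψz, h.map_zero, nsmul_sub, hxx', sub_self]
  rw [hzero, zero_sub, norm_neg, norm_smul, Real.norm_of_nonneg hn'.le] at s1
  have hz0 : ‖z‖ = 0 := by
    have : (n : ℝ) * ‖z‖ ≤ 0 := by nlinarith [norm_nonneg z]
    have := nonneg_of_mul_nonneg_right (by nlinarith [norm_nonneg z] : 0 ≤ (n : ℝ) * (-‖z‖)) hn'
    linarith [norm_nonneg z]
  rw [hz0, mul_zero] at hz1
  have : x - x' - z = 0 := norm_le_zero_iff.mp hz1
  rw [norm_eq_zero.mp hz0, sub_zero] at this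
  exact sub_eq_zero.mp this

/-- the chart expression of `n •` is close to the linear map `n • id` on a small closed ball. -/
theorem approximatesLinearOn_nmul (h : AlmostAdd ψ a ρ δ) {δ₁ : ℝ} (hδ₁0 : 0 < δ₁) (hδ₁ : δ₁ ≤ δ)
    (hsub : ∀ x x' : E, ‖x‖ < δ₁ → ‖x'‖ < δ₁ → ∃ z, ‖z‖ < δ ∧ ψ z = ψ x - ψ x')
    {n : ℕ} (hn : 0 < n) :
    ApproximatesLinearOn (nmul a n) ((n : ℝ) • ContinuousLinearMap.id ℝ E)
      (closedBall 0 (δ₁ / (20 * n))) ((n : NNReal) / 5) := by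
  have hn' : (0 : ℝ) < n := by exact_mod_cast hn
  have hn1 : (1 : ℝ) ≤ n := by exact_mod_cast hn
  have hδ := h.δ_pos
  have hr : (n : ℝ) * (δ₁ / (20 * n)) = δ₁ / 20 := by field_simp
  have hle : δ₁ / (20 * n) ≤ δ₁ / 20 := by
    apply div_le_div_of_nonneg_left hδ₁0.le (by norm_num) (by linarith)
  intro x hx x' hx'
  rw [mem_closedBall, dist_zero_right] at hx hx'
  obtain ⟨z, hz, hψz, hz1, hz2⟩ := exists_sub h hδ₁ hsub (x := x) (x' := x')
    (by linarith) (by linarith)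
  have hxx : ‖x - x'‖ ≤ 2 * (δ₁ / (20 * n)) := by
    have := norm_sub_le x x'; linarith
  have hnz : (n : ℝ) * ‖z‖ ≤ δ / 2 := by nlinarith [norm_nonneg z]
  have hnx : (n : ℝ) * ‖x‖ ≤ δ / 2 := by nlinarith [norm_nonneg x]
  have hnx' : (n : ℝ) * ‖x'‖ ≤ δ / 2 := by nlinarith [norm_nonneg x']
  obtain ⟨A1, A2, A3⟩ := nmul_spec h n x hnx (by linarith) n le_rfl
  obtain ⟨B1, B2, B3⟩ := nmul_spec h n x' hnx' (by linarith) n le_rfl
  obtain ⟨Z1, Z2, Z3⟩ := nmul_spec h n z hnz hz n le_rfl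
  have e : nmul a n x = a (nmul a n x') (nmul a n z) := by
    apply h.eq_of_map_eq (lt_of_lt_of_le A3 h.δ_le) (h.lt _ _ B3 Z3)
    rw [h.map_add _ _ B3 Z3, A2, B2, Z2, hψz, nsmul_sub]; abel
  have hest := h.est (nmul a n x') (nmul a n z) B3 Z3
  rw [← e] at hest
  have hZ : ‖nmul a n z‖ ≤ (21 / 20) * n * ‖z‖ := by
    have h1 : ‖nmul a n z‖ ≤ ‖nmul a n z - (n : ℝ) • z‖ + ‖(n : ℝ) • z‖ := by
      simpa using norm_add_le (nmul a n z - (n : ℝ) • z) ((n : ℝ) • z)
    rw [norm_smul, Real.norm_of_nonneg hn'.le] at h1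
    linarith
  have key : nmul a n x - nmul a n x' - ((n : ℝ) • ContinuousLinearMap.id ℝ E) (x - x')
      = (nmul a n x - nmul a n x' - nmul a n z) + (nmul a n z - (n : ℝ) • z)
        - (n : ℝ) • (x - x' - z) := by
    have hlin : ((n : ℝ) • ContinuousLinearMap.id ℝ E) (x - x') = (n : ℝ) • (x - x') := rfl
    rw [hlin]
    simp only [smul_sub]
    abel
  rw [key]
  have h3 : ‖(n : ℝ) • (x - x' - z)‖ = n * ‖x - x' - z‖ := by
    rw [norm_smul, Real.norm_of_nonneg hn'.le]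
  have hfin : ‖(nmul a n x - nmul a n x' - nmul a n z) + (nmul a n z - (n : ℝ) • z)
        - (n : ℝ) • (x - x' - z)‖ ≤ (61 / 400) * n * ‖z‖ := by
    refine (norm_sub_le _ _).trans ?_
    refine (add_le_add_left (norm_add_le _ _) _).trans ?_
    rw [h3]
    nlinarith [norm_nonneg z, norm_nonneg (x - x' - z)]
  refine hfin.trans ?_
  have hc : (((n : NNReal) / 5 : NNReal) : ℝ) = n / 5 := by push_cast; ring
  rw [hc]
  nlinarith [norm_nonneg z, norm_nonneg (x - x')]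

/-- a nonlinear right inverse of `n • id` with the obvious norm. -/
noncomputable def nri (n : ℕ) (hn : 0 < n) :
    ((n : ℝ) • ContinuousLinearMap.id ℝ E).NonlinearRightInverse where
  toFun y := ((n : ℝ)⁻¹) • y
  nnnorm := (n : NNReal)⁻¹
  bound' y := by
    rw [norm_smul]
    simp
  right_inv' y := by
    have hn' : (n : ℝ) ≠ 0 := by exact_mod_cast hn.ne'
    simp [smul_smul, hn']

/-- division by `n` inside the chart. -/
theorem exists_nmul_eq [CompleteSpace E] (h : AlmostAdd ψ a ρ δ) {δ₁ : ℝ} (hδ₁0 : 0 < δ₁)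
    (hδ₁ : δ₁ ≤ δ)
    (hsub : ∀ x x' : E, ‖x‖ < δ₁ → ‖x'‖ < δ₁ → ∃ z, ‖z‖ < δ ∧ ψ z = ψ x - ψ x')
    {n : ℕ} (hn : 0 < n) {w : E} (hw : ‖w‖ ≤ δ₁ / 25) :
    ∃ x, ‖x‖ ≤ δ₁ / (20 * n) ∧ nmul a n x = w := by
  have hn' : (0 : ℝ) < n := by exact_mod_cast hn
  have happ := approximatesLinearOn_nmul h hδ₁0 hδ₁ hsub hn
  have hsurj := happ.surjOn_closedBall_of_nonlinearRightInverse (nri (E := E) n hn)
    (ε := δ₁ / (20 * n)) (b := 0) (by positivity) subset_rfl
  rw [nmul_self_zero h] at hsurj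
  have hrad : (((nri (E := E) n hn).nnnorm : ℝ)⁻¹ - (((n : NNReal) / 5 : NNReal) : ℝ))
      * (δ₁ / (20 * n)) = δ₁ / 25 := by
    show ((((n : NNReal)⁻¹ : NNReal) : ℝ)⁻¹ - (((n : NNReal) / 5 : NNReal) : ℝ))
      * (δ₁ / (20 * n)) = δ₁ / 25
    push_cast
    field_simp
    ring
  rw [hrad] at hsurj
  obtain ⟨x, hx, hxw⟩ := hsurj (by simpa using hw : w ∈ closedBall (0 : E) (δ₁ / 25))
  exact ⟨x, by simpa using hx, hxw⟩

/-- `n • ψ x` in terms of `nmul`, for `x` in the small closed ball. -/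
theorem nsmul_map_eq (h : AlmostAdd ψ a ρ δ) {δ₁ : ℝ} (hδ₁0 : 0 < δ₁) (hδ₁ : δ₁ ≤ δ)
    {n : ℕ} (hn : 0 < n) {x : E} (hx : ‖x‖ ≤ δ₁ / (20 * n)) :
    ψ (nmul a n x) = n • ψ x := by
  have hn' : (0 : ℝ) < n := by exact_mod_cast hn
  have hn1 : (1 : ℝ) ≤ n := by exact_mod_cast hn
  have hδ := h.δ_pos
  have hr : (n : ℝ) * (δ₁ / (20 * n)) = δ₁ / 20 := by field_simp
  have hle : δ₁ / (20 * n) ≤ δ₁ / 20 := by
    apply div_le_div_of_nonneg_left hδ₁0.le (by norm_num) (by linarith)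
  have hnx : (n : ℝ) * ‖x‖ ≤ δ / 2 := by nlinarith [norm_nonneg x]
  exact (nmul_spec h n x hnx (by linarith) n le_rfl).2.1

end Core

section Measure

variable {G : Type*} [AddCommGroup G] [TopologicalSpace G] [IsTopologicalAddGroup G]
  [MeasurableSpace G] [BorelSpace G]
variable {m : ℕ} {ψ : (Fin m → ℝ) → G} {a : (Fin m → ℝ) → (Fin m → ℝ) → (Fin m → ℝ)} {ρ δ : ℝ}

/-- packing: `J ^ m` disjoint translates of the chart image of a ball of radius `r`. -/
theorem packing (h : AlmostAdd ψ a ρ δ) (μ : Measure G) [μ.IsAddLeftInvariant]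
    (hopen : ∀ r, 0 < r → r ≤ ρ → IsOpen (ψ '' ball 0 r))
    {r : ℝ} (hr : 0 < r) (hrδ : r ≤ δ) (J : ℕ) (hJ : 6 * r * J ≤ δ) :
    (J : ENNReal) ^ m * μ (ψ '' ball 0 r) ≤ μ univ := by
  classical
  have hδ := h.δ_pos
  set x : (Fin m → Fin J) → (Fin m → ℝ) := fun k i => 3 * r * ((k i : ℕ) : ℝ) with hxdef
  set S : (Fin m → Fin J) → Set G := fun k => (fun g => -ψ (x k) + g) ⁻¹' (ψ '' ball 0 r) with hS
  have hxnorm : ∀ k, ‖x k‖ < δ := by
    intro k
    rw [pi_norm_lt_iff hδ]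
    intro i
    have hki : ((k i : ℕ) : ℝ) < J := by exact_mod_cast (k i).2
    rw [hxdef, Real.norm_of_nonneg (by positivity)]
    nlinarith
  have hdisj : (↑(Finset.univ : Finset (Fin m → Fin J)) : Set (Fin m → Fin J)).PairwiseDisjoint S := by
    intro k _ k' _ hkk'
    rw [Function.onFun, Set.disjoint_left]
    rintro g ⟨y, hy, hgy⟩ ⟨y', hy', hgy'⟩
    rw [mem_ball, dist_zero_right] at hy hy'
    have hyδ : ‖y‖ < δ := lt_of_lt_of_le hy hrδ
    have hy'δ : ‖y'‖ < δ := lt_of_lt_of_le hy' hrδ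
    have e : a (x k) y = a (x k') y' := by
      apply h.eq_of_map_eq (h.lt _ _ (hxnorm k) hyδ) (h.lt _ _ (hxnorm k') hy'δ)
      have hgy1 : ψ y = -ψ (x k) + g := hgy
      have hgy1' : ψ y' = -ψ (x k') + g := hgy'
      rw [h.map_add _ _ (hxnorm k) hyδ, h.map_add _ _ (hxnorm k') hy'δ, hgy1, hgy1']
      abel
    have e1 := h.est (x k) y (hxnorm k) hyδ
    have e2 := h.est (x k') y' (hxnorm k') hy'δ
    have hdiff : x k - x k' = (a (x k') y' - x k' - y') - (a (x k) y - x k - y) + (y' - y) := by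
      rw [e]; abel
    have hnorm : ‖x k - x k'‖ < 3 * r := by
      rw [hdiff]
      have t1 := norm_add_le ((a (x k') y' - x k' - y') - (a (x k) y - x k - y)) (y' - y)
      have t2 := norm_sub_le (a (x k') y' - x k' - y') (a (x k) y - x k - y)
      have t3 := norm_sub_le y' y
      linarith
    obtain ⟨i, hi⟩ : ∃ i, k i ≠ k' i := by
      by_contra hall
      push Not at hall
      exact hkk' (funext hall)
    have hcoord : ‖(x k - x k') i‖ ≤ ‖x k - x k'‖ := norm_le_pi_norm _ i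
    have hint : (1 : ℝ) ≤ |((k i : ℕ) : ℝ) - ((k' i : ℕ) : ℝ)| := by
      have hne : ((k i : ℕ) : ℤ) - ((k' i : ℕ) : ℤ) ≠ 0 := by
        intro h0
        apply hi
        apply Fin.ext
        have : ((k i : ℕ) : ℤ) = ((k' i : ℕ) : ℤ) := by linarith
        exact_mod_cast this
      have := Int.one_le_abs hne
      have h2 : ((|((k i : ℕ) : ℤ) - ((k' i : ℕ) : ℤ)| : ℤ) : ℝ) = |((k i : ℕ) : ℝ) - ((k' i : ℕ) : ℝ)| := by
        push_cast; rfl
      rw [← h2]
      exact_mod_cast this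
    have hval : ‖(x k - x k') i‖ = 3 * r * |((k i : ℕ) : ℝ) - ((k' i : ℕ) : ℝ)| := by
      rw [Pi.sub_apply, hxdef, Real.norm_eq_abs]
      show |3 * r * ((k i : ℕ) : ℝ) - 3 * r * ((k' i : ℕ) : ℝ)| = _
      rw [← mul_sub, abs_mul, abs_of_pos (by positivity : (0 : ℝ) < 3 * r)]
    rw [hval] at hcoord
    nlinarith
  have hmeas : ∀ k ∈ (Finset.univ : Finset (Fin m → Fin J)), MeasurableSet (S k) := by
    intro k _
    apply IsOpen.measurableSet
    exact (hopen r hr (hrδ.trans h.δ_le)).preimage (by fun_prop)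
  have hsum := measure_biUnion_finset (μ := μ) hdisj hmeas
  have hSk : ∀ k, μ (S k) = μ (ψ '' ball 0 r) := fun k => measure_preimage_add μ _ _
  simp only [hSk, Finset.sum_const, Finset.card_univ, Fintype.card_fun, Fintype.card_fin,
    nsmul_eq_mul] at hsum
  calc (J : ENNReal) ^ m * μ (ψ '' ball 0 r) = μ (⋃ k ∈ (Finset.univ : Finset (Fin m → Fin J)), S k) := by
        rw [hsum]; push_cast; rfl
    _ ≤ μ univ := measure_mono (subset_univ _)

/-- covering: the chart image of a ball of radius `R` is covered by `J ^ m` translates of the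
chart image of a ball of radius `2 r`. -/
theorem covering (h : AlmostAdd ψ a ρ δ) (μ : Measure G) [μ.IsAddLeftInvariant]
    {δ₁ : ℝ} (hδ₁ : δ₁ ≤ δ)
    (hsub : ∀ x x' : Fin m → ℝ, ‖x‖ < δ₁ → ‖x'‖ < δ₁ → ∃ z, ‖z‖ < δ ∧ ψ z = ψ x - ψ x')
    {r R : ℝ} (hr : 0 < r) (hRr : R + r ≤ δ₁) (J : ℕ) (hJ : 2 * R ≤ r * J) :
    μ (ψ '' ball 0 R) ≤ (J : ENNReal) ^ m * μ (ψ '' ball 0 (2 * r)) := by
  classical
  set x : (Fin m → Fin J) → (Fin m → ℝ) := fun k i => r * ((k i : ℕ) : ℝ) - R with hxdef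
  set S : (Fin m → Fin J) → Set G :=
    fun k => (fun g => -ψ (x k) + g) ⁻¹' (ψ '' ball 0 (2 * r)) with hS
  have hcov : ψ '' ball 0 R ⊆ ⋃ k ∈ (Finset.univ : Finset (Fin m → Fin J)), S k := by
    rintro g ⟨y, hy, rfl⟩
    rw [mem_ball, dist_zero_right] at hy
    have hyi : ∀ i, |y i| < R := fun i => lt_of_le_of_lt (norm_le_pi_norm y i) hy
    have hpos : ∀ i, 0 ≤ (y i + R) / r := fun i => by
      have := abs_lt.mp (hyi i)
      exact div_nonneg (by linarith) hr.le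
    have hlt : ∀ i, ⌊(y i + R) / r⌋₊ < J := fun i => by
      rw [Nat.floor_lt (hpos i)]
      have := abs_lt.mp (hyi i)
      rw [div_lt_iff₀ hr]
      nlinarith
    set k : Fin m → Fin J := fun i => ⟨⌊(y i + R) / r⌋₊, hlt i⟩ with hk
    have hcoord : ∀ i, 0 ≤ y i - x k i ∧ y i - x k i ≤ r := fun i => by
      have h1 := Nat.floor_le (hpos i)
      have h2 := Nat.lt_floor_add_one ((y i + R) / r)
      rw [le_div_iff₀ hr] at h1
      rw [div_lt_iff₀ hr] at h2
      show 0 ≤ y i - (r * ((⌊(y i + R) / r⌋₊ : ℕ) : ℝ) - R) ∧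
        y i - (r * ((⌊(y i + R) / r⌋₊ : ℕ) : ℝ) - R) ≤ r
      constructor <;> nlinarith
    have hyx : ‖y - x k‖ ≤ r := by
      rw [pi_norm_le_iff_of_nonneg hr.le]
      intro i
      rw [Pi.sub_apply, Real.norm_eq_abs, abs_le]
      exact ⟨by linarith [(hcoord i).1], (hcoord i).2⟩
    have hxk : ‖x k‖ < δ₁ := by
      have : x k = y - (y - x k) := by abel
      rw [this]
      exact lt_of_le_of_lt (norm_sub_le _ _) (by linarith)
    obtain ⟨z, hz, hψz, -, hz2⟩ := exists_sub h hδ₁ hsub (x := y) (x' := x k) (by linarith) hxk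
    simp only [Finset.mem_univ, iUnion_true, mem_iUnion]
    refine ⟨k, z, ?_, ?_⟩
    · rw [mem_ball, dist_zero_right]
      nlinarith [norm_nonneg z]
    · show ψ z = -ψ (x k) + ψ y
      rw [hψz]; abel
  have hSk : ∀ k, μ (S k) = μ (ψ '' ball 0 (2 * r)) := fun k => measure_preimage_add μ _ _
  calc μ (ψ '' ball 0 R) ≤ μ (⋃ k ∈ (Finset.univ : Finset (Fin m → Fin J)), S k) :=
        measure_mono hcov
    _ ≤ ∑ k ∈ (Finset.univ : Finset (Fin m → Fin J)), μ (S k) := measure_biUnion_finset_le _ _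
    _ = (J : ENNReal) ^ m * μ (ψ '' ball 0 (2 * r)) := by
        simp only [hSk, Finset.sum_const, Finset.card_univ, Fintype.card_fun, Fintype.card_fin,
          nsmul_eq_mul]
        push_cast; rfl

end Measure

section Arith

/-- a multiplicative counting function squeezed between two multiples of `n ^ m` equals `n ^ m`. -/
theorem eq_pow_of_mul_of_bounds (N : ℕ → ℕ) (m K : ℕ) (q : ℝ) (hq : 0 < q)
    (hmul : ∀ a b, 0 < a → 0 < b → N (a * b) = N a * N b)
    (hlow : ∀ n, 0 < n → n ^ m ≤ N n * K)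
    (hup : ∀ n, 0 < n → q * (N n : ℝ) ≤ ((20 * n : ℕ) : ℝ) ^ m)
    (n : ℕ) (hn : 0 < n) : N n = n ^ m := by
  have hpow : ∀ k : ℕ, N (n ^ k) = N n ^ k ∧ 0 < n ^ k := by
    intro k
    induction k with
    | zero =>
      refine ⟨?_, by simp⟩
      have h1 := hmul 1 1 one_pos one_pos
      have h2 := hlow 1 one_pos
      simp only [mul_one, one_pow] at h1 h2
      have hpos : 0 < N 1 := by
        rcases Nat.eq_zero_or_pos (N 1) with h0 | h0
        · rw [h0] at h2; simp at h2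
        · exact h0
      have : N 1 = 1 := by
        have h3 : N 1 * 1 = N 1 * N 1 := by rw [mul_one]; exact h1
        exact (Nat.eq_of_mul_eq_mul_left hpos h3).symm
      simpa using this
    | succ k ih =>
      obtain ⟨ih1, ih2⟩ := ih
      refine ⟨?_, by positivity⟩
      rw [pow_succ, hmul _ _ ih2 hn, ih1, pow_succ]
  set u := N n with hu
  set v := n ^ m with hv
  have hv1 : 1 ≤ v := Nat.one_le_pow _ _ hn
  -- from the lower bound: v ^ k ≤ u ^ k * K
  have hL : ∀ k : ℕ, v ^ k ≤ u ^ k * K := by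
    intro k
    have := hlow (n ^ k) (hpow k).2
    rw [(hpow k).1, ← pow_mul, mul_comm k m, pow_mul] at this
    exact this
  have hU : ∀ k : ℕ, q * (u : ℝ) ^ k ≤ (20 : ℝ) ^ m * (v : ℝ) ^ k := by
    intro k
    have := hup (n ^ k) (hpow k).2
    rw [(hpow k).1] at this
    push_cast at this
    rw [mul_pow, ← pow_mul, mul_comm k m, pow_mul] at this
    rw [hv]; push_cast
    exact this
  rcases lt_trichotomy u v with hlt | heq | hgt
  · exfalso
    have hu0 : 0 < u := by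
      rcases Nat.eq_zero_or_pos u with h0 | h0
      · have := hL 1
        rw [h0] at this
        simp at this
        omega
      · exact h0
    have hK0 : 0 < K := by
      rcases Nat.eq_zero_or_pos K with h0 | h0
      · have := hL 1
        rw [h0] at this
        simp at this
        omega
      · exact h0
    have hx : (1 : ℝ) < (v : ℝ) / u := by
      rw [one_lt_div (by exact_mod_cast hu0)]
      exact_mod_cast hlt
    obtain ⟨k, hk⟩ := pow_unbounded_of_one_lt (K : ℝ) hx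
    have h1 : ((v : ℝ)) ^ k ≤ (u : ℝ) ^ k * K := by exact_mod_cast hL k
    rw [div_pow, lt_div_iff₀ (by positivity)] at hk
    nlinarith
  · exact heq
  · exfalso
    have hx : (1 : ℝ) < (u : ℝ) / v := by
      rw [one_lt_div (by exact_mod_cast hv1)]
      exact_mod_cast hgt
    obtain ⟨k, hk⟩ := pow_unbounded_of_one_lt ((20 : ℝ) ^ m / q) hx
    have h1 := hU k
    rw [div_pow, div_lt_div_iff₀ hq (by positivity)] at hk
    nlinarith

end Arith

section Final

set_option linter.unusedSectionVars false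

variable {G : Type*} [AddCommGroup G] [TopologicalSpace G] [IsTopologicalAddGroup G]
variable {m : ℕ} {ψ : (Fin m → ℝ) → G} {a : (Fin m → ℝ) → (Fin m → ℝ) → (Fin m → ℝ)} {ρ δ δ₁ : ℝ}

/-- every point of the chart image of the `δ₁/25`-ball is divisible by `n`, with a small quotient. -/
theorem exists_nsmul_eq (h : AlmostAdd ψ a ρ δ) (hδ₁0 : 0 < δ₁) (hδ₁ : δ₁ ≤ δ)
    (hsub : ∀ x x' : Fin m → ℝ, ‖x‖ < δ₁ → ‖x'‖ < δ₁ → ∃ z, ‖z‖ < δ ∧ ψ z = ψ x - ψ x')
    {n : ℕ} (hn : 0 < n) {w : Fin m → ℝ} (hw : ‖w‖ < δ₁ / 25) :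
    ∃ x, ‖x‖ ≤ δ₁ / (20 * n) ∧ n • ψ x = ψ w := by
  obtain ⟨x, hx, hxw⟩ := exists_nmul_eq h hδ₁0 hδ₁ hsub hn hw.le
  exact ⟨x, hx, by rw [← nsmul_map_eq h hδ₁0 hδ₁ hn hx, hxw]⟩

theorem nsmul_surjective [ConnectedSpace G] (h : AlmostAdd ψ a ρ δ) (hδ₁0 : 0 < δ₁) (hδ₁ : δ₁ ≤ δ)
    (hsub : ∀ x x' : Fin m → ℝ, ‖x‖ < δ₁ → ‖x'‖ < δ₁ → ∃ z, ‖z‖ < δ ∧ ψ z = ψ x - ψ x')
    (hopen : ∀ r, 0 < r → r ≤ ρ → IsOpen (ψ '' ball 0 r))
    {n : ℕ} (hn : 0 < n) : Function.Surjective (fun x : G => n • x) := by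
  set H : AddSubgroup G := (nsmulAddMonoidHom n : G →+ G).range with hH
  have hsubset : ψ '' ball 0 (δ₁ / 25) ⊆ (H : Set G) := by
    rintro _ ⟨w, hw, rfl⟩
    rw [mem_ball, dist_zero_right] at hw
    obtain ⟨x, -, hx⟩ := exists_nsmul_eq h hδ₁0 hδ₁ hsub hn hw
    exact ⟨ψ x, hx⟩
  have hr : δ₁ / 25 ≤ ρ := by linarith [h.δ_le]
  have hnhds : (H : Set G) ∈ 𝓝 (0 : G) := by
    apply Filter.mem_of_superset _ hsubset
    apply (hopen _ (by positivity) hr).mem_nhds
    exact ⟨0, by simpa using (by positivity : 0 < δ₁ / 25), h.map_zero⟩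
  have hHopen : IsOpen (H : Set G) := H.isOpen_of_mem_nhds hnhds
  have hHclosed : IsClosed (H : Set G) := H.isClosed_of_isOpen hHopen
  have huniv : (H : Set G) = univ := IsClopen.eq_univ ⟨hHclosed, hHopen⟩ ⟨0, H.zero_mem⟩
  intro y
  have : y ∈ (H : Set G) := by rw [huniv]; trivial
  obtain ⟨x, hx⟩ := this
  exact ⟨x, hx⟩

variable [MeasurableSpace G] [BorelSpace G]

/-- upper bound: translates of a small chart ball by distinct `n`-torsion points are disjoint. -/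
theorem card_mul_measure_le (h : AlmostAdd ψ a ρ δ) (hδ₁0 : 0 < δ₁) (hδ₁ : δ₁ ≤ δ)
    (hsub : ∀ x x' : Fin m → ℝ, ‖x‖ < δ₁ → ‖x'‖ < δ₁ → ∃ z, ‖z‖ < δ ∧ ψ z = ψ x - ψ x')
    (hopen : ∀ r, 0 < r → r ≤ ρ → IsOpen (ψ '' ball 0 r))
    (μ : Measure G) [μ.IsAddLeftInvariant] {n : ℕ} (hn : 0 < n) (T : Finset G)
    (hT : ∀ t ∈ T, n • t = 0) :
    (T.card : ENNReal) * μ (ψ '' ball 0 (δ₁ / (10 * n))) ≤ μ univ := by
  classical
  have hn' : (0 : ℝ) < n := by exact_mod_cast hn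
  have hn1 : (1 : ℝ) ≤ n := by exact_mod_cast hn
  have hle : δ₁ / (10 * n) ≤ δ₁ / 10 := by
    apply div_le_div_of_nonneg_left hδ₁0.le (by norm_num) (by linarith)
  set U := ψ '' ball 0 (δ₁ / (10 * n)) with hU
  set S : G → Set G := fun t => (fun g => -t + g) ⁻¹' U with hS
  have hdisj : (↑T : Set G).PairwiseDisjoint S := by
    intro t ht t' ht' htt'
    rw [Function.onFun, Set.disjoint_left]
    rintro g ⟨x, hx, hgx⟩ ⟨x', hx', hgx'⟩
    rw [mem_ball, dist_zero_right] at hx hx'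
    have hgx1 : ψ x = -t + g := hgx
    have hgx1' : ψ x' = -t' + g := hgx'
    have hnn : n • ψ x = n • ψ x' := by
      have e1 : n • ψ x = n • g := by
        rw [hgx1, nsmul_add, smul_neg, hT t ht, neg_zero, zero_add]
      have e2 : n • ψ x' = n • g := by
        rw [hgx1', nsmul_add, smul_neg, hT t' ht', neg_zero, zero_add]
      rw [e1, e2]
    have hxx' := nsmul_injOn h hδ₁0 hδ₁ hsub hn hx hx' hnn
    apply htt'
    rw [hxx'] at hgx1
    have : -t + g = -t' + g := by rw [← hgx1, ← hgx1']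
    have := add_right_cancel this
    exact neg_injective this
  have hUopen : IsOpen U := hopen _ (by positivity) (by linarith [h.δ_le])
  have hmeas : ∀ t ∈ T, MeasurableSet (S t) := by
    intro t _
    apply IsOpen.measurableSet
    exact hUopen.preimage (by fun_prop)
  have hsum := measure_biUnion_finset (μ := μ) hdisj hmeas
  have hSk : ∀ t, μ (S t) = μ U := fun t => measure_preimage_add μ _ _
  simp only [hSk, Finset.sum_const, nsmul_eq_mul] at hsum
  calc (T.card : ENNReal) * μ U = μ (⋃ t ∈ T, S t) := hsum.symm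
    _ ≤ μ univ := measure_mono (subset_univ _)

/-- lower bound: `G` is covered by `#G[n] * #t` translates of a small chart ball. -/
theorem measure_univ_le [ConnectedSpace G] (h : AlmostAdd ψ a ρ δ) (hδ₁0 : 0 < δ₁) (hδ₁ : δ₁ ≤ δ)
    (hsub : ∀ x x' : Fin m → ℝ, ‖x‖ < δ₁ → ‖x'‖ < δ₁ → ∃ z, ‖z‖ < δ ∧ ψ z = ψ x - ψ x')
    (hopen : ∀ r, 0 < r → r ≤ ρ → IsOpen (ψ '' ball 0 r))
    (μ : Measure G) [μ.IsAddLeftInvariant] (t : Finset G)
    (ht : (univ : Set G) ⊆ ⋃ g ∈ t, (fun x => g + x) ⁻¹' (ψ '' ball 0 (δ₁ / 25)))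
    {n : ℕ} (hn : 0 < n) (T : Finset G) (hT : ∀ x, n • x = 0 → x ∈ T) :
    μ univ ≤ (T.card : ENNReal) * (t.card * μ (ψ '' ball 0 (δ₁ / (10 * n)))) := by
  classical
  have hn' : (0 : ℝ) < n := by exact_mod_cast hn
  have hsurj := nsmul_surjective h hδ₁0 hδ₁ hsub hopen hn
  choose d hd using hsurj
  set U := ψ '' ball 0 (δ₁ / (10 * n)) with hU
  have hcov : (univ : Set G) ⊆ ⋃ τ ∈ T, ⋃ g ∈ t, (fun y => (d g - τ) + y) ⁻¹' U := by
    intro y _
    have hy := ht (mem_univ (n • y))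
    simp only [mem_iUnion, mem_preimage, exists_prop] at hy
    obtain ⟨g, hg, w, hw, hgw⟩ := hy
    rw [mem_ball, dist_zero_right] at hw
    obtain ⟨x, hx, hxw⟩ := exists_nsmul_eq h hδ₁0 hδ₁ hsub hn hw
    have hdg : n • d g = g := hd g
    have hτ : n • (d g + y - ψ x) = 0 := by
      rw [nsmul_sub, nsmul_add, hdg, hxw, hgw, sub_self]
    simp only [mem_iUnion, mem_preimage, exists_prop]
    refine ⟨d g + y - ψ x, hT _ hτ, g, hg, x, ?_, ?_⟩
    · rw [mem_ball, dist_zero_right]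
      have : δ₁ / (20 * n) < δ₁ / (10 * n) := by
        apply div_lt_div_of_pos_left hδ₁0 (by positivity) (by linarith)
      linarith
    · abel
  have hSk : ∀ c : G, μ ((fun y => c + y) ⁻¹' U) = μ U := fun c => measure_preimage_add μ _ _
  calc μ univ ≤ μ (⋃ τ ∈ T, ⋃ g ∈ t, (fun y => (d g - τ) + y) ⁻¹' U) := measure_mono hcov
    _ ≤ ∑ τ ∈ T, μ (⋃ g ∈ t, (fun y => (d g - τ) + y) ⁻¹' U) := measure_biUnion_finset_le _ _
    _ ≤ ∑ τ ∈ T, ∑ g ∈ t, μ ((fun y => (d g - τ) + y) ⁻¹' U) :=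
        Finset.sum_le_sum fun τ _ => measure_biUnion_finset_le _ _
    _ = (T.card : ENNReal) * (t.card * μ U) := by
        simp only [hSk, Finset.sum_const, nsmul_eq_mul]

end Final

section Main

/-- multiplicativity of the number of torsion points when multiplication is surjective. -/
theorem card_torsion_mul {G : Type*} [AddCommGroup G] (a b : ℕ)
    (hsurj : Function.Surjective (fun x : G => a • x)) :
    Nat.card {x : G // (a * b) • x = 0}
      = Nat.card {x : G // a • x = 0} * Nat.card {x : G // b • x = 0} := by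
  choose d hd using hsurj
  have hd' : ∀ y : G, a • d y = y := hd
  have key : ∀ x : G, (a * b) • x = b • (a • x) := fun x => by
    rw [mul_comm, mul_nsmul']
  let e : {x : G // (a * b) • x = 0} ≃ {x : G // a • x = 0} × {x : G // b • x = 0} :=
    { toFun := fun x => (⟨x.1 - d (a • x.1), by rw [nsmul_sub, hd', sub_self]⟩,
        ⟨a • x.1, by rw [← key]; exact x.2⟩)
      invFun := fun p => ⟨d p.2.1 + p.1.1, by
        rw [key, nsmul_add, hd', p.1.2, add_zero, p.2.2]⟩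
      left_inv := fun x => by
        apply Subtype.ext
        show d (a • x.1) + (x.1 - d (a • x.1)) = x.1
        abel
      right_inv := fun p => by
        have h1 : a • (d p.2.1 + p.1.1) = p.2.1 := by
          rw [nsmul_add, hd', p.1.2, add_zero]
        apply Prod.ext
        · apply Subtype.ext
          show d p.2.1 + p.1.1 - d (a • (d p.2.1 + p.1.1)) = p.1.1
          rw [h1]; abel
        · apply Subtype.ext
          exact h1 }
  rw [Nat.card_congr e, Nat.card_prod]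

/-- **Package E.** A compact Hausdorff connected abelian topological group with an
`m`-dimensional chart at `0` in which the group law is almost additive has exactly `n ^ m`
points killed by `n`. -/
theorem card_torsion_eq_pow {G : Type*} [AddCommGroup G] [TopologicalSpace G]
    [IsTopologicalAddGroup G] [CompactSpace G] [T2Space G] [ConnectedSpace G] {m : ℕ}
    (ψ : (Fin m → ℝ) → G) (a : (Fin m → ℝ) → (Fin m → ℝ) → (Fin m → ℝ)) (ρ : ℝ) (hρ : 0 < ρ)
    (hψ0 : ψ 0 = 0) (hcont : ContinuousOn ψ (ball 0 ρ)) (hinj : InjOn ψ (ball 0 ρ))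
    (hopen : ∀ r, 0 < r → r ≤ ρ → IsOpen (ψ '' ball 0 r))
    (hadd : ∃ δ > 0, ∀ x y, ‖x‖ < δ → ‖y‖ < δ → ‖a x y‖ < ρ ∧ ψ (a x y) = ψ x + ψ y)
    (hest : ∀ ε > 0, ∃ δ > 0, ∀ x y, ‖x‖ < δ → ‖y‖ < δ → ‖a x y - x - y‖ ≤ ε * ‖y‖)
    (n : ℕ) (hn : 0 < n) :
    Nat.card {x : G // n • x = 0} = n ^ m := by
  classical
  -- the almost additive structure
  obtain ⟨δa, hδa, hadd'⟩ := hadd
  obtain ⟨δe, hδe, hest'⟩ := hest (1 / 20) (by norm_num)
  set δ := min (min δa δe) ρ with hδdef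
  have hδ : 0 < δ := lt_min (lt_min hδa hδe) hρ
  have hδa' : δ ≤ δa := (min_le_left _ _).trans (min_le_left _ _)
  have hδe' : δ ≤ δe := (min_le_left _ _).trans (min_le_right _ _)
  have hδρ : δ ≤ ρ := min_le_right _ _
  have h : AlmostAdd ψ a ρ δ :=
    { δ_pos := hδ
      δ_le := hδρ
      map_zero := hψ0
      inj := hinj
      lt := fun x y hx hy => (hadd' x y (by linarith) (by linarith)).1
      map_add := fun x y hx hy => (hadd' x y (by linarith) (by linarith)).2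
      est := fun x y hx hy => hest' x y (by linarith) (by linarith) }
  -- chart subtraction
  obtain ⟨δ₁, hδ₁0, hδ₁, hsub⟩ : ∃ δ₁ > 0, δ₁ ≤ δ ∧
      ∀ x x' : Fin m → ℝ, ‖x‖ < δ₁ → ‖x'‖ < δ₁ → ∃ z, ‖z‖ < δ ∧ ψ z = ψ x - ψ x' := by
    have hW : ψ '' ball 0 δ ∈ 𝓝 (0 : G) :=
      (hopen δ hδ hδρ).mem_nhds ⟨0, by simpa using hδ, hψ0⟩
    have hc0 : ContinuousAt ψ 0 :=
      hcont.continuousAt (isOpen_ball.mem_nhds (by simpa using hρ))
    have hF : ContinuousAt (fun p : (Fin m → ℝ) × (Fin m → ℝ) => ψ p.1 - ψ p.2) (0, 0) := by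
      have h1 : ContinuousAt (fun p : (Fin m → ℝ) × (Fin m → ℝ) => ψ p.1) (0, 0) :=
        ContinuousAt.comp (g := ψ) (f := Prod.fst) hc0 continuousAt_fst
      have h2 : ContinuousAt (fun p : (Fin m → ℝ) × (Fin m → ℝ) => ψ p.2) (0, 0) :=
        ContinuousAt.comp (g := ψ) (f := Prod.snd) hc0 continuousAt_snd
      exact h1.sub h2
    have hpre : (fun p : (Fin m → ℝ) × (Fin m → ℝ) => ψ p.1 - ψ p.2) ⁻¹' (ψ '' ball 0 δ)
        ∈ 𝓝 ((0 : Fin m → ℝ), (0 : Fin m → ℝ)) := by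
      apply hF.preimage_mem_nhds
      simpa [hψ0] using hW
    obtain ⟨ε, hε, hball⟩ := Metric.mem_nhds_iff.mp hpre
    refine ⟨min ε δ, lt_min hε hδ, min_le_right _ _, fun x x' hx hx' => ?_⟩
    have hmem : (x, x') ∈ ball ((0 : Fin m → ℝ), (0 : Fin m → ℝ)) ε := by
      rw [mem_ball, Prod.dist_eq, dist_zero_right, dist_zero_right]
      exact max_lt (lt_of_lt_of_le hx (min_le_left _ _)) (lt_of_lt_of_le hx' (min_le_left _ _))
    obtain ⟨z, hz, hzz⟩ := hball hmem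
    exact ⟨z, by simpa using hz, hzz⟩
  -- Haar measure
  let _ : MeasurableSpace G := borel G
  have _ : BorelSpace G := ⟨rfl⟩
  set μ : Measure G := Measure.addHaarMeasure (⊤ : TopologicalSpace.PositiveCompacts G) with hμ
  have hμuniv : μ univ = 1 := by
    have := Measure.addHaarMeasure_self (K₀ := (⊤ : TopologicalSpace.PositiveCompacts G))
    simpa using this
  have hδ₁ρ : δ₁ ≤ ρ := hδ₁.trans hδρ
  -- the fixed covering of G
  have hVopen : IsOpen (ψ '' ball 0 (δ₁ / 25)) := hopen _ (by positivity) (by linarith)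
  have hVne : (ψ '' ball 0 (δ₁ / 25)).Nonempty :=
    ⟨ψ 0, 0, by simpa using (by positivity : 0 < δ₁ / 25), rfl⟩
  obtain ⟨t, ht⟩ := compact_covered_by_add_left_translates (isCompact_univ (X := G))
    (V := ψ '' ball 0 (δ₁ / 25)) (by rwa [hVopen.interior_eq])
  -- positivity of small chart balls
  have hPpos : ∀ r, 0 < r → r ≤ ρ → 0 < μ (ψ '' ball 0 r) := fun r hr hrρ =>
    (hopen r hr hrρ).measure_pos μ ⟨ψ 0, 0, by simpa using hr, rfl⟩
  have hk10 : ∀ k : ℕ, 0 < k → 0 < δ₁ / (10 * k) ∧ δ₁ / (10 * k) ≤ δ₁ / 10 := by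
    intro k hk
    have hk' : (0 : ℝ) < k := by exact_mod_cast hk
    have hk1 : (1 : ℝ) ≤ k := by exact_mod_cast hk
    exact ⟨by positivity, div_le_div_of_nonneg_left hδ₁0.le (by norm_num) (by linarith)⟩
  -- finiteness of torsion
  have hfin : ∀ k : ℕ, 0 < k → Set.Finite {x : G | k • x = 0} := by
    intro k hk
    by_contra hinf
    have hinf' : Set.Infinite {x : G | k • x = 0} := hinf
    obtain ⟨h1, h2⟩ := hk10 k hk
    have hP := hPpos (δ₁ / (10 * k)) h1 (by linarith)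
    obtain ⟨j, hj⟩ := ENNReal.exists_nat_mul_gt hP.ne' (ENNReal.one_ne_top)
    obtain ⟨T, hTsub, hTcard⟩ := hinf'.exists_subset_card_eq j
    have := card_mul_measure_le h hδ₁0 hδ₁ hsub hopen μ hk T (fun t ht => hTsub ht)
    rw [hTcard, hμuniv] at this
    exact absurd this (not_le.mpr hj)
  -- the counting function
  set N : ℕ → ℕ := fun k => Nat.card {x : G // k • x = 0} with hN
  have hNcard : ∀ k (hk : 0 < k), N k = (hfin k hk).toFinset.card := by
    intro k hk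
    show Nat.card ↥{x : G | k • x = 0} = _
    rw [Nat.card_coe_set_eq, Set.ncard_eq_toFinset_card _ (hfin k hk)]
  set Q := μ (ψ '' ball 0 (δ₁ / 2)) with hQ
  have hQpos : 0 < Q := hPpos _ (by positivity) (by linarith)
  have hQle : Q ≤ 1 := by rw [← hμuniv]; exact measure_mono (subset_univ _)
  have hQtop : Q ≠ ⊤ := ne_top_of_le_ne_top ENNReal.one_ne_top hQle
  have hmul : ∀ a' b', 0 < a' → 0 < b' → N (a' * b') = N a' * N b' := fun a' b' ha' _ =>
    card_torsion_mul a' b' (nsmul_surjective h hδ₁0 hδ₁ hsub hopen ha')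
  have hlow : ∀ k, 0 < k → k ^ m ≤ N k * t.card := by
    intro k hk
    have hk' : (0 : ℝ) < k := by exact_mod_cast hk
    obtain ⟨h1, h2⟩ := hk10 k hk
    set T := (hfin k hk).toFinset with hT
    set P := μ (ψ '' ball 0 (δ₁ / (10 * k))) with hP
    have e1 : (k : ENNReal) ^ m * P ≤ 1 := by
      have := packing h μ hopen (r := δ₁ / (10 * k)) h1 (by linarith) k (by
        have : 6 * (δ₁ / (10 * k)) * k = 6 * δ₁ / 10 := by field_simp
        rw [this]; linarith)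
      rwa [hμuniv] at this
    have e4 : (1 : ENNReal) ≤ (T.card : ENNReal) * (t.card * P) := by
      have := measure_univ_le h hδ₁0 hδ₁ hsub hopen μ t ht hk T (fun x hx => by
        rw [hT, Set.Finite.mem_toFinset]; exact hx)
      rwa [hμuniv] at this
    have e5 : ((k ^ m : ℕ) : ENNReal) ≤ ((N k * t.card : ℕ) : ENNReal) := by
      rw [hNcard k hk]
      push_cast
      calc (k : ENNReal) ^ m = (k : ENNReal) ^ m * 1 := (mul_one _).symm
        _ ≤ (k : ENNReal) ^ m * ((T.card : ENNReal) * (t.card * P)) := by gcongr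
        _ = (T.card : ENNReal) * t.card * ((k : ENNReal) ^ m * P) := by ring
        _ ≤ (T.card : ENNReal) * t.card * 1 := by gcongr
        _ = (T.card : ENNReal) * t.card := mul_one _
    exact_mod_cast e5
  have hup : ∀ k, 0 < k → Q.toReal * (N k : ℝ) ≤ ((20 * k : ℕ) : ℝ) ^ m := by
    intro k hk
    have hk' : (0 : ℝ) < k := by exact_mod_cast hk
    have hk1 : (1 : ℝ) ≤ k := by exact_mod_cast hk
    obtain ⟨h1, h2⟩ := hk10 k hk
    set T := (hfin k hk).toFinset with hT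
    set P := μ (ψ '' ball 0 (δ₁ / (10 * k))) with hP
    have e2 : Q ≤ ((20 * k : ℕ) : ENNReal) ^ m * P := by
      have hle : δ₁ / (20 * k) ≤ δ₁ / 20 :=
        div_le_div_of_nonneg_left hδ₁0.le (by norm_num) (by linarith)
      have := covering h μ hδ₁ hsub (r := δ₁ / (20 * k)) (R := δ₁ / 2) (by positivity)
        (by linarith) (20 * k) (by
          push_cast
          have : δ₁ / (20 * k) * (20 * k) = δ₁ := by field_simp
          rw [this]; linarith)
      have hrr : 2 * (δ₁ / (20 * k)) = δ₁ / (10 * k) := by field_simp; ring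
      rwa [hrr] at this
    have e3 : (T.card : ENNReal) * P ≤ 1 := by
      have := card_mul_measure_le h hδ₁0 hδ₁ hsub hopen μ hk T (fun t ht => by
        rw [hT, Set.Finite.mem_toFinset] at ht; exact ht)
      rwa [hμuniv] at this
    have e6 : Q * (T.card : ENNReal) ≤ ((20 * k : ℕ) : ENNReal) ^ m := by
      calc Q * (T.card : ENNReal) ≤ ((20 * k : ℕ) : ENNReal) ^ m * P * T.card := by gcongr
        _ = ((20 * k : ℕ) : ENNReal) ^ m * ((T.card : ENNReal) * P) := by ring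
        _ ≤ ((20 * k : ℕ) : ENNReal) ^ m * 1 := by gcongr
        _ = ((20 * k : ℕ) : ENNReal) ^ m := mul_one _
    have e7 := ENNReal.toReal_mono (ENNReal.pow_ne_top (ENNReal.natCast_ne_top _)) e6
    rw [ENNReal.toReal_mul, ENNReal.toReal_pow] at e7
    rw [hNcard k hk]
    simpa using e7
  exact eq_pow_of_mul_of_bounds N m t.card Q.toReal (ENNReal.toReal_pos hQpos.ne' hQtop)
    hmul hlow hup n hn

end Main

end Fermat.Agent.S27.CGC
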