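/-
S27, helper9506 route, package C5 (helper1106): skeleton-independent core of
"the chart map of a non-special reduced divisor is an open embedding into Pic0".

* `ord_algebraMap`              : nonzero constants have order `0` at every place;
* `eq_of_sub_mem_principal`     : `D, E ≥ 0`, `l(E) = 1`, `D ∼ E`  ⟹  `D = E`;
* `exists_perm_of_sum_single_eq`: `∑ [Q i] = ∑ [R i]`, `R` injective ⟹ `Q = R ∘ σ`;
* `isOpen_image_of_isOpen_image_ball` : a continuous injective map of a disc into a Hausdorff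
  space mapping centred discs to open sets is open;
* `chart_core`                  : the abstract chart theorem for a quotient map `π : X^g → G`
  whose fibres over an open set `N` of injective tuples are `S_g`-orbits.

Mathlib + Prelude only.
-/
import Mathlib
import Fermat.Prelude.Def_AlgebraicCurve_Repartitions

set_option autoImplicit false

open AlgebraicCurve

namespace Fermat.Agent.S27.C5Core1106

section Algebra

variable {K F : Type*} [Field K] [Field F] [Algebra K F]

/-- Nonzero constants have order `0` at every place. -/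
theorem ord_algebraMap (v : Place K F) {c : K} (hc : c ≠ 0) :
    v.ord (algebraMap K F c) = 0 := by
  have h1 : 0 ≤ v.ord (algebraMap K F c) := by
    rcases v.adicValuation_le_one_iff.1 (v.adicValuation_algebraMap_le_one c) with h | h
    · exact absurd h (by simpa using hc)
    · exact h
  have h2 : 0 ≤ v.ord (algebraMap K F c⁻¹) := by
    rcases v.adicValuation_le_one_iff.1 (v.adicValuation_algebraMap_le_one c⁻¹) with h | h
    · exact absurd h (by simpa using hc)
    · exact h
  rw [map_inv₀, v.ord_inv] at h2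
  omega

/-- The value of a sum of point masses at a point is a cardinality. -/
theorem sum_single_apply {X : Type*} [DecidableEq X] {n : ℕ} (Q : Fin n → X) (v : X) :
    (∑ i, Finsupp.single (Q i) (1 : ℤ)) v = ((Finset.univ.filter fun i => Q i = v).card : ℤ) := by
  rw [Finsupp.finsetSum_apply]
  simp [Finsupp.single_apply, Finset.sum_boole]

/-- A sum of point masses is an effective divisor. -/
theorem sum_single_nonneg {X : Type*} {n : ℕ} (Q : Fin n → X) :
    (0 : X →₀ ℤ) ≤ ∑ i, Finsupp.single (Q i) (1 : ℤ) := by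
  classical
  rw [Finsupp.le_def]
  intro v
  rw [sum_single_apply]
  simp

/-- A sum of point masses does not depend on the order of the points. -/
theorem sum_single_comp_perm {X : Type*} {n : ℕ} (Q : Fin n → X) (σ : Equiv.Perm (Fin n)) :
    ∑ i, Finsupp.single ((Q ∘ σ) i) (1 : ℤ) = ∑ i, Finsupp.single (Q i) (1 : ℤ) :=
  Equiv.sum_comp σ (fun i => Finsupp.single (Q i) (1 : ℤ))

/-- If `∑ [Q i] = ∑ [R i]` and the `R i` are pairwise distinct, then `Q` is a permutation of
`R`. -/
theorem exists_perm_of_sum_single_eq {X : Type*} {n : ℕ} (Q R : Fin n → X)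
    (hR : Function.Injective R)
    (h : ∑ i, Finsupp.single (Q i) (1 : ℤ) = ∑ i, Finsupp.single (R i) (1 : ℤ)) :
    ∃ σ : Equiv.Perm (Fin n), Q = R ∘ σ := by
  classical
  have hcount : ∀ v, ((Finset.univ.filter fun i => Q i = v).card : ℤ) =
      ((Finset.univ.filter fun i => R i = v).card : ℤ) := by
    intro v
    have h1 := sum_single_apply Q v
    have h2 := sum_single_apply R v
    rw [h] at h1
    exact h1.symm.trans h2
  have hRle : ∀ v, (Finset.univ.filter fun i => R i = v).card ≤ 1 := by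
    intro v
    rw [Finset.card_le_one]
    intro a ha b hb
    simp only [Finset.mem_filter, Finset.mem_univ, true_and] at ha hb
    exact hR (ha.trans hb.symm)
  have hex : ∀ i, ∃ j, R j = Q i := by
    intro i
    have h1 : 0 < (Finset.univ.filter fun k => Q k = Q i).card :=
      Finset.card_pos.2 ⟨i, by simp⟩
    have h2 : 0 < (Finset.univ.filter fun k => R k = Q i).card := by
      have := hcount (Q i)
      omega
    obtain ⟨j, hj⟩ := Finset.card_pos.1 h2
    exact ⟨j, by simpa using hj⟩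
  choose σ hσ using hex
  have hσinj : Function.Injective σ := by
    intro i i' hii
    by_contra hne
    have hQ : Q i = Q i' := by rw [← hσ i, ← hσ i', hii]
    have h2 : 1 < (Finset.univ.filter fun k => Q k = Q i).card := by
      rw [Finset.one_lt_card]
      exact ⟨i, by simp, i', by simp [hQ], hne⟩
    have h3 := hcount (Q i)
    have h4 := hRle (Q i)
    omega
  refine ⟨Equiv.ofBijective σ (Finite.injective_iff_bijective.1 hσinj), ?_⟩
  funext i
  simp [hσ i]

/-- Two linearly equivalent effective divisors `D ∼ E` with `l(E) = 1` are equal. -/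
theorem eq_of_sub_mem_principal {D E : Divisor K F} (hD : 0 ≤ D) (hE : 0 ≤ E)
    (h1 : Module.finrank K (riemannRochSpace E) = 1)
    (h : D - E ∈ Divisor.principal (K := K) (F := F)) : D = E := by
  obtain ⟨f, hf0, hf⟩ := h
  have hD' : ∀ v, 0 ≤ D v := fun v => by
    have := Finsupp.le_def.1 hD v
    simpa using this
  have hE' : ∀ v, 0 ≤ E v := fun v => by
    have := Finsupp.le_def.1 hE v
    simpa using this
  have hfE : f ∈ riemannRochSpace E := by
    rw [mem_riemannRochSpace_iff]
    intro v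
    right
    have h2 := hf v
    rw [Finsupp.sub_apply] at h2
    have h3 := hD' v
    omega
  have h1E : (1 : F) ∈ riemannRochSpace E := by
    rw [mem_riemannRochSpace_iff]
    intro v
    right
    rw [v.ord_one]
    have h3 := hE' v
    omega
  obtain ⟨c, hc⟩ := (finrank_eq_one_iff_of_nonzero' (⟨1, h1E⟩ : riemannRochSpace E) (by
      intro h0
      exact one_ne_zero (congrArg Subtype.val h0))).1 h1 ⟨f, hfE⟩
  have hfc : f = algebraMap K F c := by
    have h2 := congrArg Subtype.val hc
    simp only [Submodule.coe_smul, Algebra.smul_def, mul_one] at h2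
    exact h2.symm
  have hc0 : c ≠ 0 := by
    rintro rfl
    exact hf0 (by simpa using hfc)
  ext v
  have h2 := hf v
  rw [hfc, ord_algebraMap v hc0, Finsupp.sub_apply] at h2
  omega

end Algebra

section Topology

/-- A continuous injective map from a disc to a Hausdorff space which maps the centred discs to
open sets maps every open subset of the disc to an open set. -/
theorem isOpen_image_of_isOpen_image_ball {X : Type*} [TopologicalSpace X] [T2Space X]
    (κ : ℂ → X) (ε : ℝ)
    (hinj : Set.InjOn κ (Metric.ball 0 ε)) (hcont : ContinuousOn κ (Metric.ball 0 ε))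
    (hopen : ∀ r : ℝ, 0 < r → r ≤ ε → IsOpen (κ '' Metric.ball 0 r))
    (U : Set ℂ) (hU : U ⊆ Metric.ball 0 ε) (hUo : IsOpen U) : IsOpen (κ '' U) := by
  rw [isOpen_iff_mem_nhds]
  rintro y ⟨τ, hτU, rfl⟩
  have hτε : ‖τ‖ < ε := mem_ball_zero_iff.1 (hU hτU)
  set r : ℝ := (‖τ‖ + ε) / 2 with hr
  have hr1 : ‖τ‖ < r := by rw [hr]; linarith
  have hr2 : r < ε := by rw [hr]; linarith
  have hr0 : 0 < r := lt_of_le_of_lt (norm_nonneg τ) hr1
  have hsub : Metric.closedBall (0 : ℂ) r ⊆ Metric.ball 0 ε := Metric.closedBall_subset_ball hr2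
  have hCc : IsCompact (Metric.closedBall (0 : ℂ) r \ U) :=
    (isCompact_closedBall 0 r).diff hUo
  have hCi : IsClosed (κ '' (Metric.closedBall (0 : ℂ) r \ U)) :=
    (hCc.image_of_continuousOn (hcont.mono (Set.sdiff_subset.trans hsub))).isClosed
  have hS : IsOpen (κ '' Metric.ball 0 r ∩ (κ '' (Metric.closedBall (0 : ℂ) r \ U))ᶜ) :=
    (hopen r hr0 hr2.le).inter hCi.isOpen_compl
  refine Filter.mem_of_superset (hS.mem_nhds ⟨⟨τ, mem_ball_zero_iff.2 hr1, rfl⟩, ?_⟩) ?_
  · rintro ⟨τ', hτ', hττ'⟩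
    have : τ' = τ := hinj (hsub hτ'.1) (hU hτU) hττ'
    exact hτ'.2 (this ▸ hτU)
  · rintro y ⟨⟨τ', hτ', rfl⟩, hy⟩
    by_cases hτ'U : τ' ∈ U
    · exact ⟨τ', hτ'U, rfl⟩
    · exact absurd ⟨τ', ⟨Metric.ball_subset_closedBall hτ', hτ'U⟩, rfl⟩ hy

/-- **Abstract C5.**  Let `π : X^g → G` be a quotient map which is invariant under permutations
of the coordinates and whose fibre through every injective tuple `R` of an open set `N` is the
`S_g`-orbit of `R`.  Let `P ∈ N` be injective and let `κ i` be charts of `X` at the `P i`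
(injective, continuous and open on discs).  Then `z ↦ π (κ_i (z_i))_i` is injective, continuous
and open on a small polydisc. -/
theorem chart_core {X G : Type*} [TopologicalSpace X] [T2Space X] [TopologicalSpace G] {g : ℕ}
    (π : (Fin g → X) → G) (hπ : Topology.IsQuotientMap π)
    (hperm : ∀ (Q : Fin g → X) (σ : Equiv.Perm (Fin g)), π (Q ∘ σ) = π Q)
    (N : Set (Fin g → X)) (hN : IsOpen N)
    (hfib : ∀ R ∈ N, Function.Injective R → ∀ Q, π Q = π R →
      ∃ σ : Equiv.Perm (Fin g), Q = R ∘ σ)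
    (P : Fin g → X) (hP : Function.Injective P) (hPN : P ∈ N)
    (κ : Fin g → ℂ → X) (ε : Fin g → ℝ) (hε : ∀ i, 0 < ε i)
    (hinj : ∀ i, Set.InjOn (κ i) (Metric.ball 0 (ε i)))
    (hcont : ∀ i, ContinuousOn (κ i) (Metric.ball 0 (ε i)))
    (hopen : ∀ i, ∀ U : Set ℂ, U ⊆ Metric.ball 0 (ε i) → IsOpen U → IsOpen (κ i '' U))
    (h0 : ∀ i, κ i 0 = P i) :
    ∃ ρ : ℝ, 0 < ρ ∧ (∀ i, ρ ≤ ε i) ∧
      Set.InjOn (fun z : Fin g → ℂ => π (fun i => κ i (z i))) (Metric.ball 0 ρ) ∧
      ContinuousOn (fun z : Fin g → ℂ => π (fun i => κ i (z i))) (Metric.ball 0 ρ) ∧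
      ∀ U : Set (Fin g → ℂ), U ⊆ Metric.ball 0 ρ → IsOpen U →
        IsOpen ((fun z : Fin g → ℂ => π (fun i => κ i (z i))) '' U) := by
  classical
  -- pairwise disjoint neighbourhoods of the `P i`
  obtain ⟨V, hV, hVd⟩ := (Set.finite_range P).t2_separation
  have hdisj : ∀ i j, i ≠ j → Disjoint (V (P i)) (V (P j)) := fun i j hij =>
    hVd (Set.mem_range_self i) (Set.mem_range_self j) (fun h => hij (hP h))
  have hcat : ∀ i, ContinuousAt (κ i) 0 := fun i =>
    (hcont i).continuousAt (Metric.ball_mem_nhds 0 (hε i))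
  have hr : ∀ i, ∃ r > 0, Metric.ball 0 r ⊆ κ i ⁻¹' V (P i) := fun i =>
    Metric.mem_nhds_iff.1 ((hcat i).preimage_mem_nhds (by
      rw [h0 i]
      exact (hV (P i)).2.mem_nhds (hV (P i)).1))
  choose r hr0 hrV using hr
  set K : (Fin g → ℂ) → (Fin g → X) := fun z i => κ i (z i) with hK
  have hKat : ContinuousAt K 0 := by
    rw [continuousAt_pi]
    intro i
    exact ContinuousAt.comp (f := fun z : Fin g → ℂ => z i) (g := κ i) (hcat i)
      (continuous_apply i).continuousAt
  have hK0 : K 0 = P := funext fun i => h0 i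
  obtain ⟨r', hr'0, hr'N⟩ := Metric.mem_nhds_iff.1 (hKat.preimage_mem_nhds (by
    rw [hK0]
    exact hN.mem_nhds hPN))
  obtain ⟨ρ, hρ0, hρr', hρε, hρr⟩ :
      ∃ ρ : ℝ, 0 < ρ ∧ ρ ≤ r' ∧ (∀ i, ρ ≤ ε i) ∧ (∀ i, ρ ≤ r i) := by
    have h1 : ∀ᶠ ρ in nhdsWithin (0 : ℝ) (Set.Ioi 0), 0 < ρ := self_mem_nhdsWithin
    have h2 : ∀ᶠ ρ in nhdsWithin (0 : ℝ) (Set.Ioi 0), ρ ≤ r' :=
      nhdsWithin_le_nhds (Iic_mem_nhds hr'0)
    have h3 : ∀ᶠ ρ in nhdsWithin (0 : ℝ) (Set.Ioi 0), ∀ i, ρ ≤ ε i :=
      Filter.eventually_all.2 fun i => nhdsWithin_le_nhds (Iic_mem_nhds (hε i))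
    have h4 : ∀ᶠ ρ in nhdsWithin (0 : ℝ) (Set.Ioi 0), ∀ i, ρ ≤ r i :=
      Filter.eventually_all.2 fun i => nhdsWithin_le_nhds (Iic_mem_nhds (hr0 i))
    exact (h1.and (h2.and (h3.and h4))).exists
  -- basic facts on the polydisc
  have hzi : ∀ z ∈ Metric.ball (0 : Fin g → ℂ) ρ, ∀ i, z i ∈ Metric.ball (0 : ℂ) ρ := by
    intro z hz i
    rw [mem_ball_zero_iff] at hz ⊢
    exact (pi_norm_lt_iff hρ0).1 hz i
  have hKV : ∀ z ∈ Metric.ball (0 : Fin g → ℂ) ρ, ∀ i, K z i ∈ V (P i) := fun z hz i =>
    hrV i (Metric.ball_subset_ball (hρr i) (hzi z hz i))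
  have hKN : ∀ z ∈ Metric.ball (0 : Fin g → ℂ) ρ, K z ∈ N := fun z hz =>
    hr'N (Metric.ball_subset_ball hρr' hz)
  have hKinj : ∀ z ∈ Metric.ball (0 : Fin g → ℂ) ρ, Function.Injective (K z) := by
    intro z hz i j hij
    by_contra hne
    exact Set.disjoint_left.1 (hdisj i j hne) (hKV z hz i) (hij ▸ hKV z hz j)
  have hKcont : ContinuousOn K (Metric.ball 0 ρ) := by
    rw [continuousOn_pi]
    intro i
    exact ContinuousOn.comp (g := κ i) (f := fun z : Fin g → ℂ => z i) (hcont i)
      (continuous_apply i).continuousOn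
      (fun z hz => Metric.ball_subset_ball (hρε i) (hzi z hz i))
  refine ⟨ρ, hρ0, hρε, ?_, hπ.continuous.comp_continuousOn hKcont, ?_⟩
  · -- injectivity
    intro z hz w hw hzw
    obtain ⟨σ, hσ⟩ := hfib (K w) (hKN w hw) (hKinj w hw) (K z) hzw
    funext i
    have hi : σ i = i := by
      by_contra hne
      have h1 : K z i ∈ V (P (σ i)) := by
        rw [hσ]
        exact hKV w hw (σ i)
      exact Set.disjoint_left.1 (hdisj i (σ i) (fun h => hne h.symm)) (hKV z hz i) h1
    have h2 : κ i (z i) = κ i (w i) := by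
      have h3 := congrFun hσ i
      rw [Function.comp_apply, hi] at h3
      exact h3
    exact hinj i (Metric.ball_subset_ball (hρε i) (hzi z hz i))
      (Metric.ball_subset_ball (hρε i) (hzi w hw i)) h2
  · -- openness
    intro U hU hUo
    have hKU : IsOpen (K '' U) := by
      rw [isOpen_iff_mem_nhds]
      rintro y ⟨z, hzU, rfl⟩
      obtain ⟨δ, hδ0, hδ⟩ := Metric.isOpen_iff.1 hUo z hzU
      have hSo : IsOpen (Set.pi Set.univ
          (fun i => κ i '' (Metric.ball (z i) δ ∩ Metric.ball 0 ρ))) :=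
        isOpen_set_pi Set.finite_univ (fun i _ => hopen i _
          (Set.inter_subset_right.trans (Metric.ball_subset_ball (hρε i)))
          (Metric.isOpen_ball.inter Metric.isOpen_ball))
      refine Filter.mem_of_superset (hSo.mem_nhds ?_) ?_
      · intro i _
        exact ⟨z i, ⟨Metric.mem_ball_self hδ0, hzi z (hU hzU) i⟩, rfl⟩
      · intro y hy
        choose τ hτW hτ using fun i => hy i (Set.mem_univ i)
        refine ⟨τ, hδ ?_, funext hτ⟩
        rw [Metric.mem_ball, dist_pi_lt_iff hδ0]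
        intro i
        exact (hτW i).1
    have himg : (fun z : Fin g → ℂ => π (fun i => κ i (z i))) '' U = π '' (K '' U) := by
      rw [Set.image_image]
    rw [himg, ← hπ.isOpen_preimage]
    have hsat : π ⁻¹' (π '' (K '' U)) =
        ⋃ σ : Equiv.Perm (Fin g), (fun R : Fin g → X => R ∘ σ) ⁻¹' (K '' U) := by
      ext Q
      simp only [Set.mem_preimage, Set.mem_iUnion]
      constructor
      · rintro ⟨_, ⟨z, hzU, rfl⟩, hQ⟩
        obtain ⟨σ, hσ⟩ := hfib (K z) (hKN z (hU hzU)) (hKinj z (hU hzU)) Q hQ.symm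
        refine ⟨σ⁻¹, z, hzU, ?_⟩
        rw [hσ]
        funext i
        simp
      · rintro ⟨σ, z, hzU, hz⟩
        exact ⟨K z, ⟨z, hzU, rfl⟩, by rw [hz, hperm]⟩
    rw [hsat]
    exact isOpen_iUnion fun σ => hKU.preimage (continuous_pi fun i => continuous_apply (σ i))

end Topology

end Fermat.Agent.S27.C5Core1106
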