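import Mathlib

/-!
# S27 (route of helper9506), abstract part of package C3

`Fermat.Agent.S27.QG.topGroup_of_isClosed_rel`:
let `Y` be a compact Hausdorff space, `G` an abelian group and `π : Y → G` a surjection such that
the relation `{(y₁, y₂, y₃) | π y₁ + π y₂ = π y₃}` is closed in `Y × Y × Y`.  Then `G`, with the
topology coinduced by `π`, is a compact Hausdorff topological group, and `π` is a closed
quotient map.  (Connectedness of `G` follows from connectedness of `Y`:
`connectedSpace_coinduced`.)
-/

set_option autoImplicit false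

namespace Fermat.Agent.S27.QG

open Set Topology

variable {Y G : Type*} [TopologicalSpace Y] [AddCommGroup G]

/-- The equivalence relation of `π` is closed when the addition relation is closed. -/
theorem isClosed_eqRel (π : Y → G) (hπ : Function.Surjective π)
    (hR : IsClosed {y : Y × Y × Y | π y.1 + π y.2.1 = π y.2.2}) :
    IsClosed {p : Y × Y | π p.1 = π p.2} := by
  obtain ⟨y0, hy0⟩ := hπ 0
  have hc : Continuous fun p : Y × Y => ((y0, p.1, p.2) : Y × Y × Y) := by fun_prop
  have := hR.preimage hc
  convert this using 1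
  ext p
  simp [hy0]

/-- `π` is a closed map for the coinduced topology. -/
theorem isClosedMap_coinduced [CompactSpace Y] (π : Y → G) (hπ : Function.Surjective π)
    (hR : IsClosed {y : Y × Y × Y | π y.1 + π y.2.1 = π y.2.2}) :
    letI : TopologicalSpace G := TopologicalSpace.coinduced π inferInstance
    IsClosedMap π := by
  let _ : TopologicalSpace G := TopologicalSpace.coinduced π inferInstance
  have hq : IsQuotientMap π := ⟨⟨rfl⟩, hπ⟩
  intro C hC
  rw [← hq.isClosed_preimage]
  have hE := isClosed_eqRel π hπ hR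
  have h1 : IsClosed ({p : Y × Y | π p.1 = π p.2} ∩ (C ×ˢ (univ : Set Y))) :=
    hE.inter (hC.prod isClosed_univ)
  have h2 := isClosedMap_snd_of_compactSpace (X := Y) (Y := Y) _ h1
  convert h2 using 1
  ext y
  constructor
  · rintro ⟨c, hc, hcy⟩
    exact ⟨(c, y), ⟨hcy, ⟨hc, mem_univ _⟩⟩, rfl⟩
  · rintro ⟨⟨c, y'⟩, ⟨hcy, ⟨hc, _⟩⟩, rfl⟩
    exact ⟨c, hc, hcy⟩

/-- **Abstract C3.** A surjection from a compact Hausdorff space onto an abelian group whose
addition relation is closed makes the group, with the coinduced topology, a compact Hausdorff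
topological group. -/
theorem topGroup_of_isClosed_rel [CompactSpace Y] [T2Space Y] (π : Y → G)
    (hπ : Function.Surjective π)
    (hR : IsClosed {y : Y × Y × Y | π y.1 + π y.2.1 = π y.2.2}) :
    letI : TopologicalSpace G := TopologicalSpace.coinduced π inferInstance
    IsTopologicalAddGroup G ∧ CompactSpace G ∧ T2Space G ∧ IsQuotientMap π ∧ IsClosedMap π := by
  let _ : TopologicalSpace G := TopologicalSpace.coinduced π inferInstance
  have hq : IsQuotientMap π := ⟨⟨rfl⟩, hπ⟩
  have hcont : Continuous π := hq.continuous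
  have hcl : IsClosedMap π := isClosedMap_coinduced π hπ hR
  have hcomp : CompactSpace G := hπ.compactSpace hcont
  obtain ⟨y0, hy0⟩ := hπ 0
  -- singletons are closed
  have hsing : ∀ g : G, IsClosed ({g} : Set G) := by
    intro g
    obtain ⟨y, rfl⟩ := hπ g
    have := hcl {y} isClosed_singleton
    simpa using this
  -- Hausdorff
  have ht2 : T2Space G := by
    refine ⟨fun g1 g2 hne => ?_⟩
    have hF1 : IsClosed (π ⁻¹' {g1}) := (hsing g1).preimage hcont
    have hF2 : IsClosed (π ⁻¹' {g2}) := (hsing g2).preimage hcont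
    have hdisj : Disjoint (π ⁻¹' {g1}) (π ⁻¹' {g2}) := by
      rw [Set.disjoint_left]
      intro y h1 h2
      exact hne (h1.symm.trans h2)
    obtain ⟨U, V, hU, hV, hFU, hFV, hUV⟩ := normal_separation hF1 hF2 hdisj
    refine ⟨(π '' Uᶜ)ᶜ, (π '' Vᶜ)ᶜ, (hcl _ hU.isClosed_compl).isOpen_compl,
      (hcl _ hV.isClosed_compl).isOpen_compl, ?_, ?_, ?_⟩
    · rintro ⟨y, hy, rfl⟩
      exact hy (hFU rfl)
    · rintro ⟨y, hy, rfl⟩
      exact hy (hFV rfl)
    · rw [Set.disjoint_left]
      intro g hg1 hg2
      obtain ⟨y, rfl⟩ := hπ g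
      have hyU : y ∈ U := by
        by_contra h
        exact hg1 ⟨y, h, rfl⟩
      have hyV : y ∈ V := by
        by_contra h
        exact hg2 ⟨y, h, rfl⟩
      exact Set.disjoint_left.mp hUV hyU hyV
  -- the product map is a quotient map
  have hq2 : IsQuotientMap (Prod.map π π) :=
    IsQuotientMap.of_surjective_continuous (hπ.prodMap hπ) (hcont.prodMap hcont)
  refine ⟨?_, hcomp, ht2, hq, hcl⟩
  refine @IsTopologicalAddGroup.mk G _ _ ⟨?_⟩ ⟨?_⟩
  · -- continuity of addition
    rw [continuous_iff_isClosed]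
    intro C hC
    rw [← hq2.isClosed_preimage]
    have h1 : IsClosed ({y : Y × Y × Y | π y.1 + π y.2.1 = π y.2.2} ∩
        {y : Y × Y × Y | y.2.2 ∈ π ⁻¹' C}) :=
      hR.inter ((hC.preimage hcont).preimage (continuous_snd.comp continuous_snd))
    let e : Y × Y × Y → (Y × Y) × Y := fun y => ((y.1, y.2.1), y.2.2)
    have he : IsClosedMap e := by
      have : e = (Homeomorph.prodAssoc Y Y Y).symm := rfl
      rw [this]
      exact (Homeomorph.prodAssoc Y Y Y).symm.isClosedMap
    have h2 := isClosedMap_fst_of_compactSpace (X := Y × Y) (Y := Y) _ (he _ h1)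
    convert h2 using 1
    ext p
    constructor
    · intro hp
      obtain ⟨y3, hy3⟩ := hπ (π p.1 + π p.2)
      refine ⟨(p, y3), ⟨(p.1, p.2, y3), ⟨?_, ?_⟩, rfl⟩, rfl⟩
      · exact hy3.symm
      · show π y3 ∈ C
        rw [hy3]
        exact hp
    · rintro ⟨q, ⟨y, ⟨hy1, hy2⟩, rfl⟩, rfl⟩
      show π y.1 + π y.2.1 ∈ C
      rw [hy1]
      exact hy2
  · -- continuity of negation
    rw [continuous_iff_isClosed]
    intro C hC
    rw [← hq.isClosed_preimage]
    have hc : Continuous fun p : Y × Y => ((p.1, p.2, y0) : Y × Y × Y) := by fun_prop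
    have h1 : IsClosed ({p : Y × Y | π p.1 + π p.2 = 0} ∩ {p : Y × Y | p.2 ∈ π ⁻¹' C}) := by
      refine IsClosed.inter ?_ ((hC.preimage hcont).preimage continuous_snd)
      have := hR.preimage hc
      convert this using 1
      ext p
      simp [hy0]
    have h2 := isClosedMap_fst_of_compactSpace (X := Y) (Y := Y) _ h1
    convert h2 using 1
    ext y
    constructor
    · intro hy
      obtain ⟨y3, hy3⟩ := hπ (-π y)
      refine ⟨(y, y3), ⟨?_, ?_⟩, rfl⟩
      · show π y + π y3 = 0
        rw [hy3]; abel
      · show π y3 ∈ C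
        rw [hy3]; exact hy
    · rintro ⟨p, ⟨hp1, hp2⟩, rfl⟩
      show -π p.1 ∈ C
      have : -π p.1 = π p.2 := by
        rw [neg_eq_iff_add_eq_zero]; exact hp1
      rw [this]; exact hp2

omit [AddCommGroup G] in
/-- Connectedness passes to the coinduced topology. -/
theorem connectedSpace_coinduced [ConnectedSpace Y] (π : Y → G) (hπ : Function.Surjective π) :
    letI : TopologicalSpace G := TopologicalSpace.coinduced π inferInstance
    ConnectedSpace G := by
  let _ : TopologicalSpace G := TopologicalSpace.coinduced π inferInstance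
  have hq : IsQuotientMap π := ⟨⟨rfl⟩, hπ⟩
  exact hπ.connectedSpace hq.continuous

end Fermat.Agent.S27.QG
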