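/-
S27, package B6 of the compact-group route (helper9506): a Hurwitz-type lemma proved with the
maximum modulus principle only.

If `h` is analytic near the closed disc `closedBall 0 r` and has a zero of exact order `k` at `0`,
then every analytic `h'` that is uniformly close to `h` on the closed disc has at most `k` zeros,
counted with multiplicity, in a smaller disc `ball 0 ρ`.

Pure Mathlib.  helper6362.
-/
import Mathlib

set_option autoImplicit false

open Complex Metric Set Filter Topology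

namespace Fermat.Agent.S27.Hurwitz6362

/-- Division of an analytic function by `(z - a)^n` when it vanishes to order `≥ n` at `a`. -/
theorem exists_div_pow {D : Set ℂ} {f : ℂ → ℂ} (hf : AnalyticOnNhd ℂ f D) {a : ℂ} (ha : a ∈ D)
    {n : ℕ} (hn : (n : ℕ∞) ≤ analyticOrderAt f a) :
    ∃ q : ℂ → ℂ, AnalyticOnNhd ℂ q D ∧ (∀ z, f z = (z - a) ^ n * q z) ∧
      ∀ b ∈ D, b ≠ a → analyticOrderAt q b = analyticOrderAt f b := by
  classical
  obtain ⟨g, hg, hfg⟩ := (natCast_le_analyticOrderAt (hf a ha)).1 hn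
  have hfa : f a = (a - a) ^ n * g a := by
    have := hfg.self_of_nhds
    simpa [smul_eq_mul] using this
  let q : ℂ → ℂ := fun z => if z = a then g a else f z / (z - a) ^ n
  have hqg : q =ᶠ[𝓝 a] g := by
    filter_upwards [hfg] with z hz
    by_cases hza : z = a
    · simp [q, hza]
    · have : (z - a) ^ n ≠ 0 := pow_ne_zero _ (sub_ne_zero.2 hza)
      simp only [q, hza, if_false]
      rw [hz, smul_eq_mul, mul_div_cancel_left₀ _ this]
  have hmul : ∀ z, f z = (z - a) ^ n * q z := by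
    intro z
    by_cases hza : z = a
    · subst hza
      simpa [q] using hfa
    · have : (z - a) ^ n ≠ 0 := pow_ne_zero _ (sub_ne_zero.2 hza)
      simp only [q, hza, if_false]
      rw [mul_div_cancel₀ _ this]
  have hqan : AnalyticOnNhd ℂ q D := by
    intro z hz
    by_cases hza : z = a
    · subst hza
      exact hg.congr hqg.symm
    · have hev : q =ᶠ[𝓝 z] fun w => f w / (w - a) ^ n := by
        have : ∀ᶠ w in 𝓝 z, w ≠ a := eventually_ne_nhds hza
        filter_upwards [this] with w hw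
        simp [q, hw]
      have han : AnalyticAt ℂ (fun w => f w / (w - a) ^ n) z := by
        refine (hf z hz).div ?_ (pow_ne_zero _ (sub_ne_zero.2 hza))
        exact (analyticAt_id.sub analyticAt_const).pow n
      exact han.congr hev.symm
  refine ⟨q, hqan, hmul, ?_⟩
  intro b hb hba
  have hpow : AnalyticAt ℂ (fun z : ℂ => (z - a) ^ n) b :=
    (analyticAt_id.sub analyticAt_const).pow n
  have hpow0 : analyticOrderAt (fun z : ℂ => (z - a) ^ n) b = 0 := by
    rw [hpow.analyticOrderAt_eq_zero]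
    exact pow_ne_zero _ (sub_ne_zero.2 hba)
  have hfeq : f = (fun z : ℂ => (z - a) ^ n) * q := by
    funext z
    simpa using hmul z
  rw [hfeq, analyticOrderAt_mul hpow (hqan b hb), hpow0, zero_add]

/-- Division of an analytic function by a product `∏ (z - a)^(n a)` of linear factors with
multiplicities bounded by the orders of vanishing. -/
theorem exists_div_prod {D : Set ℂ} (S : Finset ℂ) (n : ℂ → ℕ) :
    ∀ {f : ℂ → ℂ}, AnalyticOnNhd ℂ f D → (∀ a ∈ S, a ∈ D) →
      (∀ a ∈ S, (n a : ℕ∞) ≤ analyticOrderAt f a) →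
      ∃ q : ℂ → ℂ, AnalyticOnNhd ℂ q D ∧ ∀ z, f z = (∏ a ∈ S, (z - a) ^ n a) * q z := by
  classical
  induction S using Finset.induction_on with
  | empty =>
    intro f hf _ _
    exact ⟨f, hf, fun z => by simp⟩
  | insert a S haS ih =>
    intro f hf hD hn
    obtain ⟨q₁, hq₁, hmul₁, hord₁⟩ :=
      exists_div_pow hf (hD a (Finset.mem_insert_self a S)) (hn a (Finset.mem_insert_self a S))
    have hD' : ∀ b ∈ S, b ∈ D := fun b hb => hD b (Finset.mem_insert_of_mem hb)
    have hn' : ∀ b ∈ S, (n b : ℕ∞) ≤ analyticOrderAt q₁ b := by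
      intro b hb
      have hba : b ≠ a := fun h => haS (h ▸ hb)
      rw [hord₁ b (hD' b hb) hba]
      exact hn b (Finset.mem_insert_of_mem hb)
    obtain ⟨q, hq, hmul⟩ := ih hq₁ hD' hn'
    refine ⟨q, hq, fun z => ?_⟩
    rw [Finset.prod_insert haS, hmul₁ z, hmul z]
    ring

/-- Lower bound near `0` for a function with a zero of exact order `k` at `0`. -/
theorem exists_lower_bound {h : ℂ → ℂ} (hh : AnalyticAt ℂ h 0) {k : ℕ}
    (hk : analyticOrderAt h 0 = k) :
    ∃ c ε : ℝ, 0 < c ∧ 0 < ε ∧ ∀ z : ℂ, ‖z‖ < ε → c * ‖z‖ ^ k ≤ ‖h z‖ := by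
  obtain ⟨g, hg, hg0, hfg⟩ := hh.analyticOrderAt_eq_natCast.1 hk
  have hgc : ContinuousAt g 0 := hg.continuousAt
  have hpos : 0 < ‖g 0‖ / 2 := by positivity
  have h1 : ∀ᶠ z in 𝓝 (0 : ℂ), ‖g 0‖ / 2 < ‖g z‖ := by
    have : Tendsto (fun z => ‖g z‖) (𝓝 0) (𝓝 ‖g 0‖) := hgc.norm
    exact this.eventually (lt_mem_nhds (by linarith [norm_pos_iff.2 hg0]))
  obtain ⟨ε, hε, hball⟩ := Metric.eventually_nhds_iff.1 (hfg.and h1)
  refine ⟨‖g 0‖ / 2, ε, hpos, hε, fun z hz => ?_⟩
  have hz' : dist z 0 < ε := by simpa using hz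
  obtain ⟨e1, e2⟩ := hball hz'
  rw [e1, sub_zero, smul_eq_mul, norm_mul, norm_pow, mul_comm]
  exact mul_le_mul_of_nonneg_left e2.le (by positivity)

/-- **Hurwitz-type lemma (maximum modulus only).**  Let `h` be analytic near `closedBall 0 r`
with a zero of exact order `k` at `0`.  There are `ρ ∈ (0, r)` and `δ > 0` such that every `h'`,
analytic near `closedBall 0 r` and `δ`-close to `h` on it, has at most `k` zeros with
multiplicity in `ball 0 ρ`: for every finite set `S ⊆ ball 0 ρ` and multiplicities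
`n a ≤ analyticOrderAt h' a` (`a ∈ S`) one has `∑ a ∈ S, n a ≤ k`. -/
theorem zeros_le_of_close {h : ℂ → ℂ} {r : ℝ} (hr : 0 < r)
    (hh : AnalyticOnNhd ℂ h (closedBall 0 r)) {k : ℕ} (hk : analyticOrderAt h 0 = k) :
    ∃ ρ δ : ℝ, 0 < ρ ∧ ρ < r ∧ 0 < δ ∧
      ∀ h' : ℂ → ℂ, AnalyticOnNhd ℂ h' (closedBall 0 r) →
        (∀ z ∈ closedBall (0 : ℂ) r, ‖h' z - h z‖ ≤ δ) →
        ∀ (S : Finset ℂ) (n : ℂ → ℕ), (∀ a ∈ S, ‖a‖ < ρ) →
          (∀ a ∈ S, (n a : ℕ∞) ≤ analyticOrderAt h' a) → ∑ a ∈ S, n a ≤ k := by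
  classical
  have h0mem : (0 : ℂ) ∈ closedBall (0 : ℂ) r := mem_closedBall_self hr.le
  obtain ⟨c, ε, hc, hε, hlow⟩ := exists_lower_bound (hh 0 h0mem) hk
  -- upper bound for `h` on the closed ball
  obtain ⟨M, hM⟩ := (isCompact_closedBall (0 : ℂ) r).exists_bound_of_continuousOn
    hh.continuousOn
  have hM0 : 0 ≤ M := (norm_nonneg _).trans (hM 0 h0mem)
  -- the constants
  set L : ℝ := (M + 1) * 4 ^ (k + 1) / r ^ (k + 1) with hL
  have hLpos : 0 < L := by positivity
  set σ : ℝ := min (min (r / 4) (ε / 2)) (c / (4 * L)) with hσ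
  have hσpos : 0 < σ := by
    refine lt_min (lt_min (by positivity) (by positivity)) (by positivity)
  have hσr : σ ≤ r / 4 := (min_le_left _ _).trans (min_le_left _ _)
  have hσε : σ < ε := lt_of_le_of_lt ((min_le_left _ _).trans (min_le_right _ _)) (by linarith)
  have hσL : σ * L ≤ c / 4 := by
    have : σ ≤ c / (4 * L) := min_le_right _ _
    calc σ * L ≤ c / (4 * L) * L := mul_le_mul_of_nonneg_right this hLpos.le
      _ = c / 4 := by field_simp
  set δ : ℝ := min 1 (c * σ ^ k / 2) with hδ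
  have hδpos : 0 < δ := lt_min one_pos (by positivity)
  refine ⟨σ, δ, hσpos, by linarith, hδpos, ?_⟩
  intro h' hh' hclose S n hS hn
  by_contra hcon
  rw [not_le] at hcon
  set m : ℕ := ∑ a ∈ S, n a with hm
  have hSD : ∀ a ∈ S, a ∈ closedBall (0 : ℂ) r := by
    intro a ha
    rw [mem_closedBall_zero_iff]
    linarith [hS a ha]
  obtain ⟨q, hq, hmul⟩ := exists_div_prod S n hh' hSD hn
  -- bound of `q` on the sphere
  have hBlow : ∀ w : ℂ, ‖w‖ = r → (r / 2) ^ m ≤ ‖∏ a ∈ S, (w - a) ^ n a‖ := by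
    intro w hw
    rw [norm_prod, hm, ← Finset.prod_pow_eq_pow_sum]
    refine Finset.prod_le_prod (fun a _ => by positivity) (fun a ha => ?_)
    rw [norm_pow]
    refine pow_le_pow_left₀ (by positivity) ?_ _
    have := norm_sub_norm_le w a
    linarith [hS a ha]
  have hqsphere : ∀ w ∈ frontier (ball (0 : ℂ) r), ‖q w‖ ≤ (M + δ) / (r / 2) ^ m := by
    intro w hw
    rw [frontier_ball _ hr.ne', mem_sphere_zero_iff_norm] at hw
    have hwD : w ∈ closedBall (0 : ℂ) r := by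
      rw [mem_closedBall_zero_iff]; exact hw.le
    have hB := hBlow w hw
    have hBpos : 0 < (r / 2) ^ m := by positivity
    have hh'w : ‖h' w‖ ≤ M + δ := by
      have h1 := hclose w hwD
      have h2 := hM w hwD
      calc ‖h' w‖ = ‖(h' w - h w) + h w‖ := by ring_nf
        _ ≤ ‖h' w - h w‖ + ‖h w‖ := norm_add_le _ _
        _ ≤ δ + M := add_le_add h1 h2
        _ = M + δ := by ring
    have hprodpos : 0 < ‖∏ a ∈ S, (w - a) ^ n a‖ := lt_of_lt_of_le hBpos hB
    have hqw : ‖q w‖ = ‖h' w‖ / ‖∏ a ∈ S, (w - a) ^ n a‖ := by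
      rw [hmul w, norm_mul, mul_div_cancel_left₀ _ hprodpos.ne']
    rw [hqw]
    calc ‖h' w‖ / ‖∏ a ∈ S, (w - a) ^ n a‖ ≤ (M + δ) / ‖∏ a ∈ S, (w - a) ^ n a‖ :=
          div_le_div_of_nonneg_right hh'w hprodpos.le
      _ ≤ (M + δ) / (r / 2) ^ m :=
          div_le_div_of_nonneg_left (by positivity) hBpos hB
  have hqdiff : DiffContOnCl ℂ q (ball (0 : ℂ) r) :=
    (hq.differentiableOn).diffContOnCl_ball subset_rfl
  -- evaluate at the point `σ`
  have hσmem : (σ : ℂ) ∈ closure (ball (0 : ℂ) r) := by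
    rw [closure_ball _ hr.ne', mem_closedBall_zero_iff, Complex.norm_real, Real.norm_eq_abs,
      abs_of_pos hσpos]
    linarith
  have hσD : (σ : ℂ) ∈ closedBall (0 : ℂ) r := by
    rwa [closure_ball _ hr.ne'] at hσmem
  have hqσ := Complex.norm_le_of_forall_mem_frontier_norm_le isBounded_ball hqdiff hqsphere hσmem
  have hnormσ : ‖(σ : ℂ)‖ = σ := by
    rw [Complex.norm_real, Real.norm_eq_abs, abs_of_pos hσpos]
  have hBup : ‖∏ a ∈ S, ((σ : ℂ) - a) ^ n a‖ ≤ (2 * σ) ^ m := by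
    rw [norm_prod, hm, ← Finset.prod_pow_eq_pow_sum]
    refine Finset.prod_le_prod (fun a _ => by positivity) (fun a ha => ?_)
    rw [norm_pow]
    refine pow_le_pow_left₀ (norm_nonneg _) ?_ _
    calc ‖(σ : ℂ) - a‖ ≤ ‖(σ : ℂ)‖ + ‖a‖ := norm_sub_le _ _
      _ ≤ 2 * σ := by rw [hnormσ]; linarith [hS a ha]
  have hup : ‖h' σ‖ ≤ (2 * σ) ^ m * ((M + δ) / (r / 2) ^ m) := by
    rw [hmul σ, norm_mul]
    exact mul_le_mul hBup hqσ (norm_nonneg _) (by positivity)
  have hlowσ : c * σ ^ k - δ ≤ ‖h' σ‖ := by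
    have h1 := hlow σ (by rw [hnormσ]; exact hσε)
    rw [hnormσ] at h1
    have h2 := hclose σ hσD
    have h3 : ‖h (σ : ℂ)‖ ≤ ‖h' σ‖ + ‖h' σ - h σ‖ := by
      calc ‖h (σ : ℂ)‖ = ‖h' σ - (h' σ - h σ)‖ := by ring_nf
        _ ≤ ‖h' σ‖ + ‖h' σ - h σ‖ := norm_sub_le _ _
    linarith
  -- rewrite the upper bound
  have hratio : (2 * σ) ^ m * ((M + δ) / (r / 2) ^ m) = (M + δ) * (4 * σ / r) ^ m := by
    have hr2 : (r / 2) ^ m ≠ 0 := by positivity
    rw [div_pow (4 * σ) r, div_pow r 2]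
    have hrm : r ^ m ≠ 0 := by positivity
    field_simp
    rw [← mul_pow]
    ring_nf
  have hq1 : 4 * σ / r ≤ 1 := by
    rw [div_le_one hr]; linarith
  have hq0 : 0 ≤ 4 * σ / r := by positivity
  have hpowle : (4 * σ / r) ^ m ≤ (4 * σ / r) ^ (k + 1) :=
    pow_le_pow_of_le_one hq0 hq1 hcon
  have hδ1 : δ ≤ 1 := min_le_left _ _
  have hδ2 : δ ≤ c * σ ^ k / 2 := min_le_right _ _
  have hfinal : c * σ ^ k / 2 ≤ (M + 1) * (4 * σ / r) ^ (k + 1) := by
    calc c * σ ^ k / 2 ≤ c * σ ^ k - δ := by linarith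
      _ ≤ ‖h' σ‖ := hlowσ
      _ ≤ (M + δ) * (4 * σ / r) ^ m := by rw [← hratio]; exact hup
      _ ≤ (M + 1) * (4 * σ / r) ^ (k + 1) := by
          apply mul_le_mul (by linarith) hpowle (by positivity) (by linarith)
  have hexp : (M + 1) * (4 * σ / r) ^ (k + 1) = σ ^ k * (σ * L) := by
    rw [hL, div_pow, mul_pow, pow_succ σ k]
    field_simp
  rw [hexp] at hfinal
  have hσk : 0 < σ ^ k := by positivity
  have : σ ^ k * (σ * L) ≤ σ ^ k * (c / 4) := mul_le_mul_of_nonneg_left hσL hσk.le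
  nlinarith

end Fermat.Agent.S27.Hurwitz6362

namespace Fermat.Agent.S27.Hurwitz6362

/-- Family version of `zeros_le_of_close`: for a finite family `b i` of functions analytic near
`closedBall 0 r` and coefficients `c` such that `∑ i, c i * b i` has a zero of exact order `k`
at `0`, all linear combinations with nearby coefficients `c'` have at most `k` zeros with
multiplicity in a smaller disc. -/
theorem zeros_le_of_close_family {ι : Type*} [Fintype ι] {b : ι → ℂ → ℂ} {r : ℝ} (hr : 0 < r)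
    (hb : ∀ i, AnalyticOnNhd ℂ (b i) (closedBall 0 r)) (c : ι → ℂ) {k : ℕ}
    (hk : analyticOrderAt (fun z => ∑ i, c i * b i z) 0 = k) :
    ∃ ρ δ : ℝ, 0 < ρ ∧ ρ < r ∧ 0 < δ ∧
      ∀ c' : ι → ℂ, (∀ i, ‖c' i - c i‖ ≤ δ) →
        ∀ (S : Finset ℂ) (n : ℂ → ℕ), (∀ a ∈ S, ‖a‖ < ρ) →
          (∀ a ∈ S, (n a : ℕ∞) ≤ analyticOrderAt (fun z => ∑ i, c' i * b i z) a) →
          ∑ a ∈ S, n a ≤ k := by
  classical
  have han : ∀ c' : ι → ℂ, AnalyticOnNhd ℂ (fun z => ∑ i, c' i * b i z) (closedBall 0 r) := by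
    intro c' z hz
    have : AnalyticAt ℂ (fun z => ∑ i ∈ Finset.univ, c' i * b i z) z :=
      Finset.analyticAt_fun_sum _ (fun i _ => analyticAt_const.mul (hb i z hz))
    exact this
  obtain ⟨ρ, δ, hρ, hρr, hδ, H⟩ := zeros_le_of_close hr (han c) hk
  -- uniform bounds for the `b i`
  have hbd : ∀ i, ∃ Bi : ℝ, ∀ z ∈ closedBall (0 : ℂ) r, ‖b i z‖ ≤ Bi := fun i =>
    (isCompact_closedBall (0 : ℂ) r).exists_bound_of_continuousOn (hb i).continuousOn
  choose B hB using hbd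
  have h0mem : (0 : ℂ) ∈ closedBall (0 : ℂ) r := mem_closedBall_self hr.le
  have hB0 : ∀ i, 0 ≤ B i := fun i => (norm_nonneg _).trans (hB i 0 h0mem)
  set T : ℝ := ∑ i, B i with hT
  have hT0 : 0 ≤ T := Finset.sum_nonneg (fun i _ => hB0 i)
  refine ⟨ρ, δ / (T + 1), hρ, hρr, by positivity, ?_⟩
  intro c' hc' S n hS hn
  refine H _ (han c') ?_ S n hS hn
  intro z hz
  have : (∑ i, c' i * b i z) - ∑ i, c i * b i z = ∑ i, (c' i - c i) * b i z := by
    rw [← Finset.sum_sub_distrib]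
    exact Finset.sum_congr rfl (fun i _ => by ring)
  rw [this]
  calc ‖∑ i, (c' i - c i) * b i z‖ ≤ ∑ i, ‖(c' i - c i) * b i z‖ := norm_sum_le _ _
    _ ≤ ∑ i, δ / (T + 1) * B i := by
        refine Finset.sum_le_sum (fun i _ => ?_)
        rw [norm_mul]
        exact mul_le_mul (hc' i) (hB i z hz) (norm_nonneg _) (by positivity)
    _ = δ / (T + 1) * T := by rw [← Finset.mul_sum]
    _ ≤ δ := by
        rw [div_mul_eq_mul_div, div_le_iff₀ (by positivity)]
        nlinarith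

end Fermat.Agent.S27.Hurwitz6362
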