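/-
S27 glue (helper5054): the REVERSE bridge  "function field in the `IsFF` sense ==> `IsCurveOver`".

For an algebraically closed field `K` of characteristic zero and a field `F ⊇ K` with a
transcendental `x` such that `F` is finite over `K(x)`:

* `RevBridge5054.hasPrincipalDivisors x hx : HasPrincipalDivisors K F`
* `RevBridge5054.finite_residueField x hx v : Module.Finite K v.ResidueField`
* `RevBridge5054.isCurveOver x hx : IsCurveOver K F`
* `RevBridge5054.essFiniteType x : Algebra.EssFiniteType K F`
* `RevBridge5054.isCurveOver_of_exists`, `essFiniteType_of_exists` : existential forms.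

Purpose: package F (Lefschetz transfer) constructs its models (`F_ℂ = Frac (ℂ ⊗ F₀)`, subfields
`F₀ ⊆ F`) as fields that are finite over a rational function field, while T1 and the frozen S27
statement are phrased with `[IsCurveOver K F] [Algebra.EssFiniteType K F]`.  This file converts the
former into the latter.  Imports only Mathlib, the Prelude and the landed S24 library.
-/
import Mathlib
import Fermat.Prelude.Def_AlgebraicCurve_IsCurveOver
import Fermat.Agent.S24.A564.RHAssembly

set_option autoImplicit false

open AlgebraicCurve IntermediateField

namespace Fermat.Agent.S27.RevBridge5054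

variable {K F : Type*} [Field K] [Field F] [Algebra K F]

/-- Residue fields of places are finite over `K` (they are equal to `K`). -/
theorem finite_residueField [IsAlgClosed K] [CharZero K] (x : F) (hx : Transcendental K x)
    [FiniteDimensional K⟮x⟯ F] (v : Place K F) : Module.Finite K v.ResidueField := by
  obtain ⟨_, hres⟩ := Fermat.Agent.S24.A564.local_facts x hx v
  exact Module.Finite.of_surjective (Algebra.linearMap K v.ResidueField) hres

/-- Every nonzero function has a divisor, of degree zero. -/
theorem hasPrincipalDivisors [IsAlgClosed K] [CharZero K] (x : F) (hx : Transcendental K x)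
    [FiniteDimensional K⟮x⟯ F] : HasPrincipalDivisors K F := by
  classical
  refine ⟨fun f _ => ?_⟩
  obtain ⟨T, hT, hsum⟩ := Fermat.Agent.S24.A564.exists_finset_sum_ord_eq_zero x hx f
  let D : Divisor K F := Finsupp.onFinset T (fun v => v.ord f) (fun v hv => by
    by_contra hvT
    exact hv (hT v hvT))
  have hD : ∀ v : Place K F, D v = v.ord f := fun v => rfl
  refine ⟨D, hD, ?_⟩
  have hdeg : Divisor.degree D = ∑ v ∈ T, v.ord f := by
    have hsupp : D.support ⊆ T := Finsupp.support_onFinset_subset
    have h1 : Divisor.degree D = D.sum fun v n => n * (v.deg : ℤ) := by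
      simp [Divisor.degree, Finsupp.liftAddHom_apply]
    rw [h1, Finsupp.sum_of_support_subset D hsupp _ (fun v _ => by simp)]
    refine Finset.sum_congr rfl fun v _ => ?_
    rw [hD v, Fermat.Agent.S24.A564.deg_eq_one x hx v]
    simp
  rw [hdeg, hsum]

/-- The reverse bridge: a field finite over `K(x)`, `x` transcendental, is a curve over `K`. -/
theorem isCurveOver [IsAlgClosed K] [CharZero K] (x : F) (hx : Transcendental K x)
    [FiniteDimensional K⟮x⟯ F] : IsCurveOver K F :=
  { toHasPrincipalDivisors := hasPrincipalDivisors x hx
    finiteResidue := finite_residueField x hx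
    kaehler_free_rank_one :=
      ⟨Module.Free.of_divisionRing F _, Fermat.Agent.S24.A564.KR.finrank_kaehler x hx⟩ }

theorem essFiniteType (x : F) [FiniteDimensional K⟮x⟯ F] : Algebra.EssFiniteType K F :=
  Fermat.Agent.S24.A564.essFiniteType_of_finite x

theorem isCurveOver_of_exists [IsAlgClosed K] [CharZero K]
    (h : ∃ x : F, Transcendental K x ∧ FiniteDimensional K⟮x⟯ F) : IsCurveOver K F := by
  obtain ⟨x, hx, hfin⟩ := h
  exact isCurveOver x hx

theorem essFiniteType_of_exists
    (h : ∃ x : F, Transcendental K x ∧ FiniteDimensional K⟮x⟯ F) : Algebra.EssFiniteType K F := by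
  obtain ⟨x, _, hfin⟩ := h
  exact essFiniteType x

end Fermat.Agent.S27.RevBridge5054
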