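import Mathlib
import Fermat.Prelude.Def_AlgebraicCurve_IsCurveOver
import Fermat.Agent.S24.A564.PlaceBasic

/-!
# S27, package B4: the topology on the set of places of a function field

For a place `Q` of `F/K` and `f : F` we define the value `evPlace Q f : OnePoint K` of `f` at `Q`
(`∞` if `f` has a pole at `Q`, or if its residue is not `K`-rational), and we give `Place K F`
the topology induced by `Q ↦ (f ↦ evPlace Q f)`.

Main results (`K` a proper nontrivially normed field, e.g. `ℂ`; all places rational; every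
valuation subring `≠ ⊤` of `F` containing `K` is a principal ideal ring; `F ≠ K`):
the range of `ev` is the closed set of `K`-places (`IsKPlace`), hence `Place K F` is a compact
Hausdorff space.
-/

set_option autoImplicit false

namespace Fermat.Agent.S27.PlaceTop

open AlgebraicCurve OnePoint Topology Filter

section algebra

variable {K F : Type*} [Field K] [Field F] [Algebra K F]

/-- A place is rational if every element of its valuation ring is congruent to a constant
modulo the maximal ideal. -/
def IsRational (Q : Place K F) : Prop :=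
  ∀ f ∈ Q.toValuationSubring, ∃ c : K, f - algebraMap K F c ∈ Q.toValuationSubring.nonunits

/-- The value of `f` at the place `Q`: `↑c` if `f ≡ c` modulo the maximal ideal of `Q` for a
(unique) constant `c : K`, and `∞` otherwise. -/
noncomputable def evPlace (Q : Place K F) (f : F) : OnePoint K :=
  open Classical in
  if h : ∃ c : K, f - algebraMap K F c ∈ Q.toValuationSubring.nonunits then
    ((h.choose : K) : OnePoint K) else ∞

variable (Q : Place K F)

theorem algebraMap_notMem_nonunits {c : K} (hc : c ≠ 0) :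
    algebraMap K F c ∉ Q.toValuationSubring.nonunits := by
  rw [ValuationSubring.mem_nonunits_iff_or, not_or, not_not]
  refine ⟨by simpa using hc, ?_⟩
  rw [← map_inv₀]
  exact Q.algebraMap_mem' _

theorem const_unique {f : F} {c c' : K}
    (h : f - algebraMap K F c ∈ Q.toValuationSubring.nonunits)
    (h' : f - algebraMap K F c' ∈ Q.toValuationSubring.nonunits) : c = c' := by
  by_contra hne
  have h1 : algebraMap K F (c' - c) ∈ Q.toValuationSubring.nonunits := by
    have h2 := sub_mem h h'
    have h3 : f - algebraMap K F c - (f - algebraMap K F c') = algebraMap K F (c' - c) := by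
      rw [map_sub]
      ring
    rwa [h3] at h2
  exact algebraMap_notMem_nonunits Q (sub_ne_zero.mpr (Ne.symm hne)) h1

theorem evPlace_eq_coe_iff {f : F} {c : K} :
    evPlace Q f = (c : OnePoint K) ↔ f - algebraMap K F c ∈ Q.toValuationSubring.nonunits := by
  unfold evPlace
  constructor
  · intro h
    split_ifs at h with hex
    · rw [OnePoint.coe_eq_coe] at h
      rw [← h]
      exact hex.choose_spec
    · exact absurd h (OnePoint.infty_ne_coe c)
  · intro h
    have hex : ∃ c : K, f - algebraMap K F c ∈ Q.toValuationSubring.nonunits := ⟨c, h⟩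
    rw [dif_pos hex, OnePoint.coe_eq_coe]
    exact const_unique Q hex.choose_spec h

theorem evPlace_eq_infty_iff {f : F} :
    evPlace Q f = ∞ ↔ ¬ ∃ c : K, f - algebraMap K F c ∈ Q.toValuationSubring.nonunits := by
  unfold evPlace
  constructor
  · intro h hex
    rw [dif_pos hex] at h
    exact OnePoint.coe_ne_infty _ h
  · intro h
    rw [dif_neg h]

theorem mem_of_evPlace_eq_coe {f : F} {c : K} (h : evPlace Q f = (c : OnePoint K)) :
    f ∈ Q.toValuationSubring := by
  rw [evPlace_eq_coe_iff] at h
  have h1 : f - algebraMap K F c ∈ Q.toValuationSubring :=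
    (Q.toValuationSubring.valuation_le_one_iff _).mp
      (le_of_lt ((ValuationSubring.mem_nonunits_iff _).mp h))
  have h2 := add_mem h1 (Q.algebraMap_mem' c)
  rwa [sub_add_cancel] at h2

theorem evPlace_of_notMem {f : F} (hf : f ∉ Q.toValuationSubring) : evPlace Q f = ∞ := by
  by_contra h
  obtain ⟨c, hc⟩ := OnePoint.ne_infty_iff_exists.mp h
  exact hf (mem_of_evPlace_eq_coe Q hc.symm)

@[simp]
theorem evPlace_algebraMap (c : K) : evPlace Q (algebraMap K F c) = (c : OnePoint K) := by
  rw [evPlace_eq_coe_iff, sub_self]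
  exact zero_mem _

theorem evPlace_add {f g : F} {a b : K} (hf : evPlace Q f = (a : OnePoint K))
    (hg : evPlace Q g = (b : OnePoint K)) : evPlace Q (f + g) = ((a + b : K) : OnePoint K) := by
  rw [evPlace_eq_coe_iff] at hf hg ⊢
  have h := add_mem hf hg
  have h3 : f - algebraMap K F a + (g - algebraMap K F b) = f + g - algebraMap K F (a + b) := by
    rw [map_add]
    ring
  rwa [h3] at h

theorem nonunits_mul_mem {x y : F} (hx : x ∈ Q.toValuationSubring.nonunits)
    (hy : y ∈ Q.toValuationSubring) : x * y ∈ Q.toValuationSubring.nonunits := by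
  rw [ValuationSubring.mem_nonunits_iff] at hx ⊢
  rw [map_mul]
  have hy' := (Q.toValuationSubring.valuation_le_one_iff y).mpr hy
  calc Q.toValuationSubring.valuation x * Q.toValuationSubring.valuation y
      ≤ Q.toValuationSubring.valuation x * 1 := by gcongr
    _ = Q.toValuationSubring.valuation x := mul_one _
    _ < 1 := hx

theorem evPlace_mul {f g : F} {a b : K} (hf : evPlace Q f = (a : OnePoint K))
    (hg : evPlace Q g = (b : OnePoint K)) : evPlace Q (f * g) = ((a * b : K) : OnePoint K) := by
  have hgmem := mem_of_evPlace_eq_coe Q hg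
  rw [evPlace_eq_coe_iff] at hf hg ⊢
  have h1 := nonunits_mul_mem Q hf hgmem
  have h2 := nonunits_mul_mem Q hg (Q.algebraMap_mem' a)
  have h := add_mem h1 h2
  have h3 : (f - algebraMap K F a) * g + (g - algebraMap K F b) * algebraMap K F a =
      f * g - algebraMap K F (a * b) := by
    rw [map_mul]
    ring
  rwa [h3] at h

/-- Inversion on the "sphere" `OnePoint K`: `0 ↦ ∞`, `∞ ↦ 0`, `a ↦ a⁻¹`. -/
noncomputable def sphereInv (x : OnePoint K) : OnePoint K :=
  OnePoint.rec (↑(0 : K))
    (fun a : K => @ite _ (a = 0) (Classical.propDecidable _) ∞ ((a⁻¹ : K) : OnePoint K)) x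

@[simp] theorem sphereInv_infty : sphereInv (∞ : OnePoint K) = ((0 : K) : OnePoint K) := rfl

@[simp] theorem sphereInv_zero : sphereInv ((0 : K) : OnePoint K) = ∞ := by
  show @ite _ ((0 : K) = 0) (Classical.propDecidable _) ∞ (((0 : K)⁻¹ : K) : OnePoint K) = ∞
  rw [if_pos rfl]

theorem sphereInv_coe_of_ne_zero {a : K} (ha : a ≠ 0) :
    sphereInv (a : OnePoint K) = ((a⁻¹ : K) : OnePoint K) := by
  show @ite _ (a = 0) (Classical.propDecidable _) ∞ ((a⁻¹ : K) : OnePoint K) = _
  rw [if_neg ha]

theorem evPlace_zero : evPlace Q (0 : F) = ((0 : K) : OnePoint K) := by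
  have h := evPlace_algebraMap Q (0 : K)
  rwa [map_zero] at h

theorem evPlace_one : evPlace Q (1 : F) = ((1 : K) : OnePoint K) := by
  have h := evPlace_algebraMap Q (1 : K)
  rwa [map_one] at h

/-- On a rational place, `evPlace Q f = ∞` iff `f` is not in the valuation ring. -/
theorem evPlace_eq_infty_iff_notMem (hQ : IsRational Q) {f : F} :
    evPlace Q f = ∞ ↔ f ∉ Q.toValuationSubring := by
  constructor
  · intro h hf
    rw [evPlace_eq_infty_iff] at h
    exact h (hQ f hf)
  · exact evPlace_of_notMem Q

/-- Compatibility of `evPlace` with inversion, at a rational place. -/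
theorem evPlace_inv (hQ : IsRational Q) {f : F} (hf : f ≠ 0) :
    evPlace Q f⁻¹ = sphereInv (evPlace Q f) := by
  by_cases hmem : f ∈ Q.toValuationSubring
  · obtain ⟨a, ha⟩ := hQ f hmem
    have hfa : evPlace Q f = (a : OnePoint K) := (evPlace_eq_coe_iff Q).mpr ha
    rw [hfa]
    by_cases ha0 : a = 0
    · subst ha0
      rw [sphereInv_zero]
      apply evPlace_of_notMem
      rw [map_zero, sub_zero, ValuationSubring.mem_nonunits_iff_or] at ha
      exact ha.resolve_left hf
    · rw [sphereInv_coe_of_ne_zero ha0, evPlace_eq_coe_iff]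
      -- `f⁻¹ - a⁻¹ = -(f - a) * (f⁻¹ * a⁻¹)` and `f⁻¹ ∈ O`
      have hfinv : f⁻¹ ∈ Q.toValuationSubring := by
        -- `f` is a unit: otherwise `a = 0`
        by_contra hcon
        have h1 : f ∈ Q.toValuationSubring.nonunits := by
          rw [ValuationSubring.mem_nonunits_iff_or]
          exact Or.inr hcon
        have h2 : f - algebraMap K F 0 ∈ Q.toValuationSubring.nonunits := by
          rwa [map_zero, sub_zero]
        exact ha0 (const_unique Q ha h2)
      have h3 := nonunits_mul_mem Q ha (mul_mem hfinv (Q.algebraMap_mem' a⁻¹))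
      have h4 := neg_mem h3
      have hane : algebraMap K F a ≠ 0 := by simpa using ha0
      have h5 : -((f - algebraMap K F a) * (f⁻¹ * algebraMap K F a⁻¹)) =
          f⁻¹ - algebraMap K F a⁻¹ := by
        rw [map_inv₀]
        field_simp
        ring
      rwa [h5] at h4
  · rw [(evPlace_eq_infty_iff_notMem Q hQ).mpr hmem, sphereInv_infty, evPlace_eq_coe_iff,
      map_zero, sub_zero, ValuationSubring.mem_nonunits_iff_or, inv_inv]
    exact Or.inr hmem

/-- Over an algebraically closed field, a place with finite residue field is rational. -/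
theorem isRational_of_finite [IsAlgClosed K] [Module.Finite K Q.ResidueField] : IsRational Q := by
  intro f hf
  have : Algebra.IsIntegral K Q.ResidueField := Algebra.IsIntegral.of_finite K Q.ResidueField
  have hbij : Function.Bijective (algebraMap K Q.ResidueField) :=
    IsAlgClosed.algebraMap_bijective_of_isIntegral
  obtain ⟨c, hc⟩ := hbij.2 (IsLocalRing.residue Q.toValuationSubring ⟨f, hf⟩)
  refine ⟨c, ?_⟩
  have h1 : IsLocalRing.residue Q.toValuationSubring
      (⟨f, hf⟩ - algebraMap K Q.toValuationSubring c) = 0 := by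
    rw [map_sub, ← hc]
    exact sub_self _
  rw [IsLocalRing.residue_eq_zero_iff, ← ValuationSubring.coe_mem_nonunits_iff] at h1
  exact h1

/-- Over an algebraically closed field, every place of a curve is rational. -/
theorem isRational_of_isCurveOver [IsAlgClosed K] [IsCurveOver K F] (Q : Place K F) :
    IsRational Q :=
  haveI : Module.Finite K Q.ResidueField := IsCurveOver.finiteResidue Q
  isRational_of_finite Q

/-- Membership in the maximal ideal in terms of the order function of the Prelude. -/
theorem mem_nonunits_iff_ord {x : F} :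
    x ∈ Q.toValuationSubring.nonunits ↔ x = 0 ∨ 0 < Q.ord x := by
  rw [ValuationSubring.mem_nonunits_iff_or]
  by_cases hx : x = 0
  · simp [hx]
  · simp only [hx, false_or]
    rw [Fermat.Agent.S24.A564.SO.Place_mem_iff Q (inv_ne_zero hx), Place.ord_inv]
    omega

theorem evPlace_eq_coe_iff_ord {f : F} {c : K} :
    evPlace Q f = (c : OnePoint K) ↔
      f = algebraMap K F c ∨ 0 < Q.ord (f - algebraMap K F c) := by
  rw [evPlace_eq_coe_iff, mem_nonunits_iff_ord, sub_eq_zero]

theorem evPlace_eq_zero_iff_ord {f : F} :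
    evPlace Q f = ((0 : K) : OnePoint K) ↔ f = 0 ∨ 0 < Q.ord f := by
  rw [evPlace_eq_coe_iff_ord, map_zero, sub_zero]

/-- At a rational place, `f` takes the value `∞` iff it has a pole. -/
theorem evPlace_eq_infty_iff_ord (hQ : IsRational Q) {f : F} :
    evPlace Q f = ∞ ↔ Q.ord f < 0 := by
  rw [evPlace_eq_infty_iff_notMem Q hQ]
  by_cases hf : f = 0
  · subst hf
    simp
  · rw [Fermat.Agent.S24.A564.SO.Place_mem_iff Q hf]
    omega

end algebra

section kplace

variable {K F : Type*} [Field K] [Field F] [Algebra K F]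

/-- The evaluation map `Q ↦ (f ↦ evPlace Q f)`. -/
noncomputable def ev (Q : Place K F) : F → OnePoint K := fun f => evPlace Q f

@[simp] theorem ev_apply (Q : Place K F) (f : F) : ev Q f = evPlace Q f := rfl

/-- A `K`-place of `F`: a map `F → K ∪ {∞}` which is the identity on constants, additive and
multiplicative where finite, and compatible with inversion. -/
structure IsKPlace (φ : F → OnePoint K) : Prop where
  map_algebraMap : ∀ c : K, φ (algebraMap K F c) = (c : OnePoint K)
  map_add : ∀ (f g : F) (a b : K), φ f = (a : OnePoint K) → φ g = (b : OnePoint K) →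
    φ (f + g) = ((a + b : K) : OnePoint K)
  map_mul : ∀ (f g : F) (a b : K), φ f = (a : OnePoint K) → φ g = (b : OnePoint K) →
    φ (f * g) = ((a * b : K) : OnePoint K)
  map_inv : ∀ f : F, f ≠ 0 → φ f⁻¹ = sphereInv (φ f)

theorem isKPlace_ev (Q : Place K F) (hQ : IsRational Q) : IsKPlace (ev Q) where
  map_algebraMap c := evPlace_algebraMap Q c
  map_add _ _ _ _ hf hg := evPlace_add Q hf hg
  map_mul _ _ _ _ hf hg := evPlace_mul Q hf hg
  map_inv _ hf := evPlace_inv Q hQ hf

theorem ev_injective (hrat : ∀ Q : Place K F, IsRational Q) :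
    Function.Injective (ev : Place K F → F → OnePoint K) := by
  intro Q Q' h
  apply Place.ext
  ext f
  have hf : evPlace Q f = evPlace Q' f := congrFun h f
  rw [← not_iff_not, ← evPlace_eq_infty_iff_notMem Q (hrat Q),
    ← evPlace_eq_infty_iff_notMem Q' (hrat Q'), hf]

namespace IsKPlace

variable {φ : F → OnePoint K} (hφ : IsKPlace φ)

include hφ

theorem map_zero' : φ 0 = ((0 : K) : OnePoint K) := by
  have h := hφ.map_algebraMap 0
  rwa [_root_.map_zero] at h

theorem map_one' : φ 1 = ((1 : K) : OnePoint K) := by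
  have h := hφ.map_algebraMap 1
  rwa [_root_.map_one] at h

theorem map_neg' {f : F} {a : K} (hf : φ f = (a : OnePoint K)) :
    φ (-f) = ((-a : K) : OnePoint K) := by
  have h1 : φ (-1 : F) = ((-1 : K) : OnePoint K) := by
    have h := hφ.map_algebraMap (-1)
    rwa [_root_.map_neg, _root_.map_one] at h
  have h2 := hφ.map_mul (-1) f (-1) a h1 hf
  rwa [neg_one_mul, neg_one_mul] at h2

/-- The valuation subring `{f | φ f ≠ ∞}` of a `K`-place. -/
def valuationSubring : ValuationSubring F where
  carrier := {f | φ f ≠ ∞}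
  mul_mem' := by
    intro f g hf hg
    obtain ⟨a, ha⟩ := OnePoint.ne_infty_iff_exists.mp hf
    obtain ⟨b, hb⟩ := OnePoint.ne_infty_iff_exists.mp hg
    show φ (f * g) ≠ ∞
    rw [hφ.map_mul f g a b ha.symm hb.symm]
    exact OnePoint.coe_ne_infty _
  one_mem' := by
    show φ 1 ≠ ∞
    rw [hφ.map_one']
    exact OnePoint.coe_ne_infty _
  add_mem' := by
    intro f g hf hg
    obtain ⟨a, ha⟩ := OnePoint.ne_infty_iff_exists.mp hf
    obtain ⟨b, hb⟩ := OnePoint.ne_infty_iff_exists.mp hg
    show φ (f + g) ≠ ∞
    rw [hφ.map_add f g a b ha.symm hb.symm]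
    exact OnePoint.coe_ne_infty _
  zero_mem' := by
    show φ 0 ≠ ∞
    rw [hφ.map_zero']
    exact OnePoint.coe_ne_infty _
  neg_mem' := by
    intro f hf
    obtain ⟨a, ha⟩ := OnePoint.ne_infty_iff_exists.mp hf
    show φ (-f) ≠ ∞
    rw [hφ.map_neg' ha.symm]
    exact OnePoint.coe_ne_infty _
  mem_or_inv_mem' := by
    intro f
    by_cases hf : φ f = ∞
    · right
      have hf0 : f ≠ 0 := by
        rintro rfl
        rw [hφ.map_zero'] at hf
        exact OnePoint.coe_ne_infty _ hf
      show φ f⁻¹ ≠ ∞
      rw [hφ.map_inv f hf0, hf, sphereInv_infty]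
      exact OnePoint.coe_ne_infty _
    · left
      exact hf

theorem mem_valuationSubring {f : F} : f ∈ hφ.valuationSubring ↔ φ f ≠ ∞ := Iff.rfl

theorem algebraMap_mem_valuationSubring (c : K) : algebraMap K F c ∈ hφ.valuationSubring := by
  rw [mem_valuationSubring, hφ.map_algebraMap]
  exact OnePoint.coe_ne_infty _

theorem valuationSubring_ne_top (hFK : ¬ Function.Surjective (algebraMap K F)) :
    hφ.valuationSubring ≠ ⊤ := by
  intro htop
  apply hFK
  intro x
  by_contra hx
  have hxmem : x ∈ hφ.valuationSubring := by rw [htop]; exact ValuationSubring.mem_top x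
  obtain ⟨c, hc⟩ := OnePoint.ne_infty_iff_exists.mp hxmem
  have hy0 : x - algebraMap K F c ≠ 0 := by
    intro h
    exact hx ⟨c, (sub_eq_zero.mp h).symm⟩
  have hy : φ (x - algebraMap K F c) = ((0 : K) : OnePoint K) := by
    have h1 := hφ.map_neg' (hφ.map_algebraMap c)
    have h2 := hφ.map_add x (-algebraMap K F c) c (-c) hc.symm h1
    rwa [← sub_eq_add_neg, add_neg_cancel] at h2
  have hinv := hφ.map_inv _ hy0
  rw [hy, sphereInv_zero] at hinv
  have hmem : (x - algebraMap K F c)⁻¹ ∈ hφ.valuationSubring := by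
    rw [htop]
    exact ValuationSubring.mem_top _
  exact hmem hinv

/-- A `K`-place comes from a place, provided valuation subrings of `F` over `K` are discrete. -/
theorem exists_place
    (hA1 : ∀ O : ValuationSubring F, (∀ c : K, algebraMap K F c ∈ O) → O ≠ ⊤ →
      IsPrincipalIdealRing O)
    (hFK : ¬ Function.Surjective (algebraMap K F)) : ∃ Q : Place K F, ev Q = φ := by
  let Q : Place K F :=
    { toValuationSubring := hφ.valuationSubring
      algebraMap_mem' := hφ.algebraMap_mem_valuationSubring
      ne_top' := hφ.valuationSubring_ne_top hFK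
      isPrincipalIdealRing' := hA1 _ hφ.algebraMap_mem_valuationSubring
        (hφ.valuationSubring_ne_top hFK) }
  refine ⟨Q, ?_⟩
  funext f
  rw [ev_apply]
  by_cases hf : φ f = ∞
  · rw [hf]
    exact evPlace_of_notMem Q (fun hmem => hmem hf)
  · obtain ⟨a, ha⟩ := OnePoint.ne_infty_iff_exists.mp hf
    rw [← ha, evPlace_eq_coe_iff]
    have hy : φ (f - algebraMap K F a) = ((0 : K) : OnePoint K) := by
      have h1 := hφ.map_neg' (hφ.map_algebraMap a)
      have h2 := hφ.map_add f (-algebraMap K F a) a (-a) ha.symm h1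
      rwa [← sub_eq_add_neg, add_neg_cancel] at h2
    rw [ValuationSubring.mem_nonunits_iff_or]
    by_cases hy0 : f - algebraMap K F a = 0
    · exact Or.inl hy0
    · right
      intro hmem
      have hinv := hφ.map_inv _ hy0
      rw [hy, sphereInv_zero] at hinv
      exact hmem hinv

end IsKPlace

/-- The range of `ev` is the set of `K`-places. -/
theorem range_ev (hrat : ∀ Q : Place K F, IsRational Q)
    (hA1 : ∀ O : ValuationSubring F, (∀ c : K, algebraMap K F c ∈ O) → O ≠ ⊤ →
      IsPrincipalIdealRing O)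
    (hFK : ¬ Function.Surjective (algebraMap K F)) :
    Set.range (ev : Place K F → F → OnePoint K) = {φ | IsKPlace φ} := by
  ext φ
  constructor
  · rintro ⟨Q, rfl⟩
    exact isKPlace_ev Q (hrat Q)
  · intro hφ
    exact IsKPlace.exists_place hφ hA1 hFK

end kplace

section topology

variable {K F : Type*} [Field K] [Field F] [Algebra K F] [TopologicalSpace K]

/-- The topology on the set of places of `F/K`: the coarsest one making all evaluations
`Q ↦ evPlace Q f` continuous. -/
noncomputable instance instTopologicalSpacePlace : TopologicalSpace (Place K F) :=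
  TopologicalSpace.induced (ev : Place K F → F → OnePoint K) inferInstance

theorem isInducing_ev : IsInducing (ev : Place K F → F → OnePoint K) := ⟨rfl⟩

theorem continuous_ev : Continuous (ev : Place K F → F → OnePoint K) :=
  isInducing_ev.continuous

theorem continuous_evPlace (f : F) : Continuous (fun Q : Place K F => evPlace Q f) :=
  (continuous_apply f).comp continuous_ev

/-- A map into the space of places is continuous iff all its evaluations are. -/
theorem continuous_place_iff {X : Type*} [TopologicalSpace X] {g : X → Place K F} :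
    Continuous g ↔ ∀ f : F, Continuous (fun x => evPlace (g x) f) := by
  rw [isInducing_ev.continuous_iff, continuous_pi_iff]
  rfl

omit [Field K] in
/-- The relation "`z = op x y` whenever `x, y` are finite" is closed in `(OnePoint K)³`. -/
theorem isClosed_opRel [T2Space (OnePoint K)] (op : K → K → K)
    (hop : Continuous fun p : K × K => op p.1 p.2) :
    IsClosed {p : (OnePoint K × OnePoint K) × OnePoint K |
      ∀ a b : K, p.1.1 = (a : OnePoint K) → p.1.2 = (b : OnePoint K) →
        p.2 = ((op a b : K) : OnePoint K)} := by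
  rw [← isOpen_compl_iff]
  have hU : IsOpen {q : (K × K) × OnePoint K | q.2 ≠ ((op q.1.1 q.1.2 : K) : OnePoint K)} :=
    isOpen_ne_fun continuous_snd (OnePoint.continuous_coe.comp (hop.comp continuous_fst))
  have hmap : IsOpenMap (Prod.map (Prod.map ((↑) : K → OnePoint K) ((↑) : K → OnePoint K))
      (id : OnePoint K → OnePoint K)) :=
    (OnePoint.isOpenMap_coe.prodMap OnePoint.isOpenMap_coe).prodMap IsOpenMap.id
  convert hmap _ hU using 1
  ext p
  constructor
  · intro h
    have h' : ¬ ∀ a b : K, p.1.1 = (a : OnePoint K) → p.1.2 = (b : OnePoint K) →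
        p.2 = ((op a b : K) : OnePoint K) := h
    push Not at h'
    obtain ⟨a, b, ha, hb, hne⟩ := h'
    refine ⟨((a, b), p.2), hne, ?_⟩
    ext
    · exact ha.symm
    · exact hb.symm
    · rfl
  · rintro ⟨⟨⟨a, b⟩, z⟩, hne, rfl⟩ h
    exact hne (h a b rfl rfl)

omit [Field K] [Field F] [Algebra K F] in
/-- The condition "`φ (opF f g) = op (φ f) (φ g)` whenever `φ f`, `φ g` are finite" is closed. -/
theorem isClosed_opCond [T2Space (OnePoint K)] (op : K → K → K)
    (hop : Continuous fun p : K × K => op p.1 p.2) (opF : F → F → F) :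
    IsClosed {φ : F → OnePoint K | ∀ (f g : F) (a b : K), φ f = (a : OnePoint K) →
      φ g = (b : OnePoint K) → φ (opF f g) = ((op a b : K) : OnePoint K)} := by
  have key : {φ : F → OnePoint K | ∀ (f g : F) (a b : K), φ f = (a : OnePoint K) →
      φ g = (b : OnePoint K) → φ (opF f g) = ((op a b : K) : OnePoint K)} =
      ⋂ f : F, ⋂ g : F, (fun φ : F → OnePoint K => ((φ f, φ g), φ (opF f g))) ⁻¹'
        {p : (OnePoint K × OnePoint K) × OnePoint K |
          ∀ a b : K, p.1.1 = (a : OnePoint K) → p.1.2 = (b : OnePoint K) →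
            p.2 = ((op a b : K) : OnePoint K)} := by
    ext φ
    simp only [Set.mem_iInter, Set.mem_preimage]
    rfl
  rw [key]
  exact isClosed_iInter fun f => isClosed_iInter fun g =>
    (isClosed_opRel op hop).preimage
      (((continuous_apply f).prodMk (continuous_apply g)).prodMk (continuous_apply (opF f g)))

end topology

section normed

variable {𝕜 F : Type*} [NontriviallyNormedField 𝕜] [ProperSpace 𝕜] [Field F] [Algebra 𝕜 F]

/-- Inversion on the sphere `OnePoint 𝕜` is continuous. -/
theorem continuous_sphereInv : Continuous (sphereInv : OnePoint 𝕜 → OnePoint 𝕜) := by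
  rw [OnePoint.continuous_iff]
  constructor
  · -- at infinity
    rw [sphereInv_infty, Filter.coclosedCompact_eq_cocompact, ← Metric.cobounded_eq_cocompact]
    have h1 : Tendsto (fun a : 𝕜 => ((a⁻¹ : 𝕜) : OnePoint 𝕜)) (Bornology.cobounded 𝕜)
        (𝓝 ((0 : 𝕜) : OnePoint 𝕜)) :=
      (OnePoint.continuous_coe.tendsto (0 : 𝕜)).comp tendsto_inv₀_cobounded
    refine h1.congr' ?_
    filter_upwards [Bornology.eventually_ne_cobounded (0 : 𝕜)] with a ha
    rw [sphereInv_coe_of_ne_zero ha]
  · rw [continuous_iff_continuousAt]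
    intro a
    by_cases ha : a = 0
    · subst ha
      rw [ContinuousAt, sphereInv_zero]
      have h0 : (𝓝 (0 : 𝕜)) = 𝓝[≠] (0 : 𝕜) ⊔ pure 0 := by
        rw [← nhdsNE_sup_pure]
      rw [h0, tendsto_sup]
      constructor
      · have h1 : Tendsto (fun a : 𝕜 => ((a⁻¹ : 𝕜) : OnePoint 𝕜)) (𝓝[≠] (0 : 𝕜))
            (𝓝 (∞ : OnePoint 𝕜)) := by
          have h2 : Tendsto (fun a : 𝕜 => a⁻¹) (𝓝[≠] (0 : 𝕜)) (Filter.coclosedCompact 𝕜) := by
            rw [Filter.coclosedCompact_eq_cocompact, ← Metric.cobounded_eq_cocompact]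
            exact tendsto_inv₀_nhdsNE_zero
          exact OnePoint.tendsto_coe_infty.comp h2
        refine h1.congr' ?_
        filter_upwards [self_mem_nhdsWithin] with x hx
        rw [sphereInv_coe_of_ne_zero hx]
      · rw [tendsto_pure_left]
        intro s hs
        rw [sphereInv_zero]
        exact mem_of_mem_nhds hs
    · have h1 : ContinuousAt (fun x : 𝕜 => ((x⁻¹ : 𝕜) : OnePoint 𝕜)) a :=
        OnePoint.continuous_coe.continuousAt.comp (continuousAt_inv₀ ha)
      refine h1.congr ?_
      filter_upwards [isOpen_ne.mem_nhds ha] with x hx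
      rw [sphereInv_coe_of_ne_zero hx]

/-- The set of `𝕜`-places is closed in the product `F → OnePoint 𝕜`. -/
theorem isClosed_setOf_isKPlace : IsClosed {φ : F → OnePoint 𝕜 | IsKPlace φ} := by
  have h1 : IsClosed {φ : F → OnePoint 𝕜 | ∀ c : 𝕜, φ (algebraMap 𝕜 F c) = (c : OnePoint 𝕜)} := by
    have key : {φ : F → OnePoint 𝕜 | ∀ c : 𝕜, φ (algebraMap 𝕜 F c) = (c : OnePoint 𝕜)} =
        ⋂ c : 𝕜, {φ : F → OnePoint 𝕜 | φ (algebraMap 𝕜 F c) = (c : OnePoint 𝕜)} := by
      ext φ
      simp only [Set.mem_iInter]
      rfl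
    rw [key]
    exact isClosed_iInter fun c => isClosed_eq (continuous_apply _) continuous_const
  have h2 := isClosed_opCond (K := 𝕜) (F := F) (fun a b => a + b) continuous_add
    (fun f g => f + g)
  have h3 := isClosed_opCond (K := 𝕜) (F := F) (fun a b => a * b) continuous_mul
    (fun f g => f * g)
  have h4 : IsClosed {φ : F → OnePoint 𝕜 | ∀ f : F, f ≠ 0 → φ f⁻¹ = sphereInv (φ f)} := by
    have key : {φ : F → OnePoint 𝕜 | ∀ f : F, f ≠ 0 → φ f⁻¹ = sphereInv (φ f)} =
        ⋂ f : F, ⋂ _ : f ≠ 0, {φ : F → OnePoint 𝕜 | φ f⁻¹ = sphereInv (φ f)} := by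
      ext φ
      simp only [Set.mem_iInter]
      rfl
    rw [key]
    exact isClosed_iInter fun f => isClosed_iInter fun _ =>
      isClosed_eq (continuous_apply _) (continuous_sphereInv.comp (continuous_apply _))
  have hset : {φ : F → OnePoint 𝕜 | IsKPlace φ} =
      {φ | ∀ c : 𝕜, φ (algebraMap 𝕜 F c) = (c : OnePoint 𝕜)} ∩
      {φ | ∀ (f g : F) (a b : 𝕜), φ f = (a : OnePoint 𝕜) →
        φ g = (b : OnePoint 𝕜) → φ (f + g) = ((a + b : 𝕜) : OnePoint 𝕜)} ∩
      {φ | ∀ (f g : F) (a b : 𝕜), φ f = (a : OnePoint 𝕜) →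
        φ g = (b : OnePoint 𝕜) → φ (f * g) = ((a * b : 𝕜) : OnePoint 𝕜)} ∩
      {φ | ∀ f : F, f ≠ 0 → φ f⁻¹ = sphereInv (φ f)} := by
    ext φ
    exact ⟨fun h => ⟨⟨⟨h.map_algebraMap, h.map_add⟩, h.map_mul⟩, h.map_inv⟩,
      fun h => ⟨h.1.1.1, h.1.1.2, h.1.2, h.2⟩⟩
  rw [hset]
  exact ((h1.inter h2).inter h3).inter h4

/-- **B4, compactness.** The space of places of `F/𝕜` is compact. -/
theorem compactSpace_place (hrat : ∀ Q : Place 𝕜 F, IsRational Q)
    (hA1 : ∀ O : ValuationSubring F, (∀ c : 𝕜, algebraMap 𝕜 F c ∈ O) → O ≠ ⊤ →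
      IsPrincipalIdealRing O)
    (hFK : ¬ Function.Surjective (algebraMap 𝕜 F)) : CompactSpace (Place 𝕜 F) := by
  refine ⟨?_⟩
  rw [isInducing_ev.isCompact_iff, Set.image_univ, range_ev hrat hA1 hFK]
  exact isClosed_setOf_isKPlace.isCompact

/-- **B4, Hausdorff.** The space of places of `F/𝕜` is Hausdorff. -/
theorem t2Space_place (hrat : ∀ Q : Place 𝕜 F, IsRational Q) : T2Space (Place 𝕜 F) :=
  (IsEmbedding.mk isInducing_ev (ev_injective hrat)).t2Space

end normed

section complex

variable {F : Type*} [Field F] [Algebra ℂ F]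

/-- **B4 for `ℂ`.** The space of places of a curve over `ℂ` is compact, provided valuation
subrings over `ℂ` are discrete (package A1) and `F ≠ ℂ`. -/
theorem compactSpace_place_complex [IsCurveOver ℂ F]
    (hA1 : ∀ O : ValuationSubring F, (∀ c : ℂ, algebraMap ℂ F c ∈ O) → O ≠ ⊤ →
      IsPrincipalIdealRing O)
    (hFK : ¬ Function.Surjective (algebraMap ℂ F)) : CompactSpace (Place ℂ F) :=
  compactSpace_place (fun Q => isRational_of_isCurveOver Q) hA1 hFK

/-- **B4 for `ℂ`.** The space of places of a curve over `ℂ` is Hausdorff. -/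
theorem t2Space_place_complex [IsCurveOver ℂ F] : T2Space (Place ℂ F) :=
  t2Space_place (fun Q => isRational_of_isCurveOver Q)

end complex

end Fermat.Agent.S27.PlaceTop
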