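/-
S27, route of helper9506 (compact group + Haar), package B5 in ABSTRACT form (helper3002).
Mathlib only; independent of the definitions of places / charts / the topology on `Place ℂ F`.

* `exists_card_preimage`: local `e`-fold mapping lemma: if `u` is analytic at `0`, `u 0 ≠ 0`, then
  for every small `τ ≠ 0` the equation `s ^ e * u s = τ` has at least `e` distinct solutions in
  any prescribed disc around `0`.
* `chart_image_mem_nhds`: let `X` be a Hausdorff space, `t : X → OnePoint ℂ` continuous with all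
  fibres over `ℂ` of cardinality `≤ n`, and let `P j` (`j : ι`, `ι` finite) be pairwise distinct
  points containing the whole fibre `t = τ₀`, with injective continuous charts `κ j` on discs,
  `κ j 0 = P j`, in which `t (κ j s) = τ₀ + s ^ e j * u j s`, `u j` analytic, nonvanishing at `0`,
  and `∑ e j = n`.  Then `κ j '' ball 0 ρ` is a neighbourhood of `P j` for every `ρ > 0`.
  (Concrete use: `t` = a uniformizer, `n = [F : ℂ(t)]`, fibre bound and `∑ e = n` from the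
  degree formula, charts from the `t`-adic expansions; apply at every point of a chart.)
* `exists_pole_of_isCompact_isOpen` (abstract B7, maximum modulus): `f : X → OnePoint ℂ`
  continuous with finite fibres over `ℂ`, holomorphic in charts at all points of a nonempty
  compact open `X₁`  ⟹  `f` has a pole in `X₁`.  (Concrete use: connectedness of `Place ℂ F`:
  take `f` with its only pole outside a clopen `X₁`.)
-/
import Mathlib

set_option autoImplicit false

namespace Fermat.Agent.S27.ChartOpen3002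

open Complex Filter Topology Metric

/-- An analytic `e`-th root of a nonvanishing analytic germ. -/
theorem exists_analytic_root {e : ℕ} (he : 0 < e) {u : ℂ → ℂ} (hu : AnalyticAt ℂ u 0)
    (hu0 : u 0 ≠ 0) :
    ∃ w : ℂ → ℂ, AnalyticAt ℂ w 0 ∧ w 0 ≠ 0 ∧ ∀ᶠ s in 𝓝 (0 : ℂ), w s ^ e = u s := by
  obtain ⟨c, hc⟩ := IsAlgClosed.exists_pow_nat_eq (u 0) he
  have hc0 : c ≠ 0 := by
    rintro rfl
    rw [zero_pow he.ne'] at hc
    exact hu0 hc.symm
  have he0 : (e : ℂ) ≠ 0 := Nat.cast_ne_zero.mpr he.ne'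
  have hq : AnalyticAt ℂ (fun s => u s / u 0) 0 := hu.div analyticAt_const hu0
  have hq0 : (fun s => u s / u 0) 0 ∈ slitPlane := by
    simp only [div_self hu0]
    exact one_mem_slitPlane
  have hlog : AnalyticAt ℂ (fun s => log (u s / u 0)) 0 := hq.clog hq0
  refine ⟨fun s => c * exp (log (u s / u 0) / e), ?_, ?_, ?_⟩
  · exact analyticAt_const.mul (hlog.div analyticAt_const he0).cexp'
  · exact mul_ne_zero hc0 (exp_ne_zero _)
  · have hcont : ContinuousAt u 0 := hu.continuousAt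
    filter_upwards [hcont.eventually_ne hu0] with s hs
    have hne : u s / u 0 ≠ 0 := div_ne_zero hs hu0
    rw [mul_pow, hc, ← exp_nat_mul, mul_div_cancel₀ _ he0, exp_log hne, mul_div_cancel₀ _ hu0]

/-- **Local `e`-fold mapping lemma.** -/
theorem exists_card_preimage {e : ℕ} (he : 0 < e) {u : ℂ → ℂ} (hu : AnalyticAt ℂ u 0)
    (hu0 : u 0 ≠ 0) {ρ : ℝ} (hρ : 0 < ρ) :
    ∃ δ > 0, ∀ τ : ℂ, τ ≠ 0 → ‖τ‖ < δ →
      ∃ S : Finset ℂ, S.card = e ∧ ∀ s ∈ S, ‖s‖ < ρ ∧ s ^ e * u s = τ := by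
  obtain ⟨w, hw, hw0, hwe⟩ := exists_analytic_root he hu hu0
  -- `φ s = s * w s` is a local homeomorphism at `0`
  have hφ : HasStrictDerivAt (fun s : ℂ => s * w s) (w 0) 0 := by
    have h1 : HasStrictDerivAt (fun s : ℂ => s * w s) (1 * w 0 + 0 * deriv w 0) 0 :=
      (hasStrictDerivAt_id (0 : ℂ)).mul hw.hasStrictDerivAt
    simpa using h1
  have hmap := hφ.map_nhds_eq hw0
  simp only [zero_mul] at hmap
  have hU : {s : ℂ | ‖s‖ < ρ ∧ w s ^ e = u s} ∈ 𝓝 (0 : ℂ) := by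
    have h1 : ∀ᶠ s in 𝓝 (0 : ℂ), ‖s‖ < ρ := by
      have := ball_mem_nhds (0 : ℂ) hρ
      filter_upwards [this] with s hs
      simpa using hs
    exact h1.and hwe
  have himg : (fun s : ℂ => s * w s) '' {s : ℂ | ‖s‖ < ρ ∧ w s ^ e = u s} ∈ 𝓝 (0 : ℂ) := by
    rw [← hmap]
    exact image_mem_map hU
  obtain ⟨δ', hδ', hball⟩ := Metric.mem_nhds_iff.mp himg
  refine ⟨δ' ^ e, pow_pos hδ' e, fun τ hτ hτδ => ?_⟩
  -- the `e`-th roots of `τ`
  obtain ⟨y₀, hy₀⟩ := IsAlgClosed.exists_pow_nat_eq τ he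
  have hy₀0 : y₀ ≠ 0 := by
    rintro rfl
    rw [zero_pow he.ne'] at hy₀
    exact hτ hy₀.symm
  set ζ : ℂ := exp (2 * Real.pi * I / e) with hζdef
  have hζ : IsPrimitiveRoot ζ e := Complex.isPrimitiveRoot_exp e he.ne'
  have hroot : ∀ k : ℕ, (y₀ * ζ ^ k) ^ e = τ := by
    intro k
    rw [mul_pow, hy₀, ← pow_mul, mul_comm k e, pow_mul, hζ.pow_eq_one, one_pow, mul_one]
  have hnorm : ∀ k : ℕ, y₀ * ζ ^ k ∈ ball (0 : ℂ) δ' := by
    intro k
    rw [mem_ball_zero_iff]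
    have h1 : ‖y₀ * ζ ^ k‖ ^ e < δ' ^ e := by
      rw [← norm_pow, hroot k]
      exact hτδ
    exact lt_of_pow_lt_pow_left₀ e hδ'.le h1
  have hex : ∀ k : ℕ, ∃ s : ℂ, (‖s‖ < ρ ∧ w s ^ e = u s) ∧ s * w s = y₀ * ζ ^ k := fun k =>
    hball (hnorm k)
  choose sk hsk1 hsk2 using hex
  have hinj : Set.InjOn sk (Finset.range e : Set ℕ) := by
    intro k hk l hl hkl
    have h1 : y₀ * ζ ^ k = y₀ * ζ ^ l := by rw [← hsk2 k, ← hsk2 l, hkl]
    have h2 : ζ ^ k = ζ ^ l := mul_left_cancel₀ hy₀0 h1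
    exact hζ.pow_inj (Finset.mem_range.mp hk) (Finset.mem_range.mp hl) h2
  refine ⟨(Finset.range e).image sk, ?_, ?_⟩
  · rw [Finset.card_image_of_injOn hinj, Finset.card_range]
  · intro s hs
    obtain ⟨k, -, rfl⟩ := Finset.mem_image.mp hs
    refine ⟨(hsk1 k).1, ?_⟩
    rw [← (hsk1 k).2, ← mul_pow, hsk2 k, hroot k]

/-- **Charts are open (abstract form of B5).**  See the file header. -/
theorem chart_image_mem_nhds {X : Type*} [TopologicalSpace X] [T2Space X]
    (t : X → OnePoint ℂ) (ht : Continuous t) (n : ℕ)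
    (hfib : ∀ τ : ℂ, ∀ T : Finset X, (∀ Q ∈ T, t Q = (τ : OnePoint ℂ)) → T.card ≤ n)
    {ι : Type*} [Fintype ι] (P : ι → X) (hP : Function.Injective P) (τ₀ : ℂ)
    (hzero : ∀ Q : X, t Q = (τ₀ : OnePoint ℂ) → ∃ j, Q = P j)
    (κ : ι → ℂ → X) (r : ι → ℝ)
    (hκ0 : ∀ j, κ j 0 = P j)
    (hκc : ∀ j, ContinuousOn (κ j) (ball 0 (r j)))
    (hκi : ∀ j, Set.InjOn (κ j) (ball 0 (r j)))
    (e : ι → ℕ) (he : ∀ j, 0 < e j) (hsum : ∑ j, e j = n)
    (u : ι → ℂ → ℂ) (hu : ∀ j, AnalyticAt ℂ (u j) 0) (hu0 : ∀ j, u j 0 ≠ 0)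
    (htκ : ∀ j, ∀ s ∈ ball (0 : ℂ) (r j),
      t (κ j s) = ((τ₀ + s ^ e j * u j s : ℂ) : OnePoint ℂ))
    (hr : ∀ j, 0 < r j) (j : ι) {ρ : ℝ} (hρ : 0 < ρ) : κ j '' ball 0 ρ ∈ 𝓝 (P j) := by
  classical
  -- pairwise disjoint open neighbourhoods of the `P k`
  obtain ⟨U, hU, hUd⟩ := (Set.finite_range P).t2_separation
  -- radii
  have hrad : ∀ k, ∃ ρ' : ℝ, 0 < ρ' ∧ ρ' ≤ ρ ∧ closedBall (0 : ℂ) ρ' ⊆ ball 0 (r k) ∧
      κ k '' closedBall 0 ρ' ⊆ U (P k) := by
    intro k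
    have hcont : ContinuousAt (κ k) 0 :=
      (hκc k).continuousAt (ball_mem_nhds _ (hr k))
    have h1 : κ k ⁻¹' U (P k) ∈ 𝓝 (0 : ℂ) := by
      apply hcont
      rw [hκ0 k]
      exact (hU (P k)).2.mem_nhds (hU (P k)).1
    have h2 : κ k ⁻¹' U (P k) ∩ ball 0 (r k) ∈ 𝓝 (0 : ℂ) :=
      inter_mem h1 (ball_mem_nhds _ (hr k))
    obtain ⟨ε, hε, hεsub⟩ := Metric.mem_nhds_iff.mp h2
    refine ⟨min (ε / 2) ρ, lt_min (half_pos hε) hρ, min_le_right _ _, ?_, ?_⟩
    · intro s hs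
      have hs' : s ∈ ball (0 : ℂ) ε := by
        rw [mem_ball_zero_iff]
        rw [mem_closedBall_zero_iff] at hs
        have := min_le_left (ε / 2) ρ
        linarith
      exact (hεsub hs').2
    · rintro _ ⟨s, hs, rfl⟩
      have hs' : s ∈ ball (0 : ℂ) ε := by
        rw [mem_ball_zero_iff]
        rw [mem_closedBall_zero_iff] at hs
        have := min_le_left (ε / 2) ρ
        linarith
      exact (hεsub hs').1
  choose ρ' hρ'pos hρ'le hρ'sub hρ'U using hrad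
  have hdisj : ∀ k l, k ≠ l → Disjoint (U (P k)) (U (P l)) := fun k l hkl =>
    hUd (Set.mem_range_self k) (Set.mem_range_self l) (fun h => hkl (hP h))
  -- local mapping lemma in each chart
  have hloc : ∀ k, ∃ δ > 0, ∀ τ : ℂ, τ ≠ 0 → ‖τ‖ < δ →
      ∃ S : Finset ℂ, S.card = e k ∧ ∀ s ∈ S, ‖s‖ < ρ' k ∧ s ^ e k * u k s = τ := fun k =>
    exists_card_preimage (he k) (hu k) (hu0 k) (hρ'pos k)
  choose δs hδs hδsp using hloc
  have : Nonempty ι := ⟨j⟩
  obtain ⟨k₀, hk₀⟩ := Finite.exists_min δs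
  set δ : ℝ := δs k₀ with hδdef
  have hδpos : 0 < δ := hδs k₀
  have hδle : ∀ k, δ ≤ δs k := hk₀
  -- every point with `|t| < δ` lies in one of the charts
  have hcover : ∀ Q : X, ∀ τ : ℂ, ‖τ - τ₀‖ < δ → t Q = (τ : OnePoint ℂ) →
      ∃ k, Q ∈ κ k '' ball 0 (ρ' k) := by
    intro Q τ hτ hQ
    by_cases hτ0 : τ = τ₀
    · subst hτ0
      obtain ⟨k, rfl⟩ := hzero Q hQ
      exact ⟨k, 0, mem_ball_self (hρ'pos k), hκ0 k⟩
    · have hS : ∀ k, ∃ S : Finset ℂ, S.card = e k ∧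
          ∀ s ∈ S, ‖s‖ < ρ' k ∧ s ^ e k * u k s = τ - τ₀ :=
        fun k => hδsp k (τ - τ₀) (sub_ne_zero.mpr hτ0) (lt_of_lt_of_le hτ (hδle k))
      choose S hScard hSprop using hS
      have hSball : ∀ k, ∀ s ∈ S k, s ∈ ball (0 : ℂ) (r k) := fun k s hs =>
        hρ'sub k (mem_closedBall_zero_iff.mpr (hSprop k s hs).1.le)
      set T : Finset X := Finset.univ.biUnion fun k => (S k).image (κ k) with hT
      have hTfib : ∀ Q' ∈ T, t Q' = (τ : OnePoint ℂ) := by
        intro Q' hQ'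
        obtain ⟨k, -, hk⟩ := Finset.mem_biUnion.mp hQ'
        obtain ⟨s, hs, rfl⟩ := Finset.mem_image.mp hk
        rw [htκ k s (hSball k s hs), (hSprop k s hs).2, add_sub_cancel]
      have hTcard : T.card = n := by
        rw [hT, Finset.card_biUnion]
        · rw [← hsum]
          refine Finset.sum_congr rfl fun k _ => ?_
          rw [Finset.card_image_of_injOn, hScard k]
          exact fun s hs s' hs' h => hκi k (hSball k s hs) (hSball k s' hs') h
        · intro k _ l _ hkl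
          rw [Function.onFun, Finset.disjoint_left]
          intro Q' hQk hQl
          obtain ⟨s, hs, rfl⟩ := Finset.mem_image.mp hQk
          obtain ⟨s', hs', hss'⟩ := Finset.mem_image.mp hQl
          have h1 : κ k s ∈ U (P k) :=
            hρ'U k ⟨s, mem_closedBall_zero_iff.mpr (hSprop k s hs).1.le, rfl⟩
          have h2 : κ k s ∈ U (P l) := by
            rw [← hss']
            exact hρ'U l ⟨s', mem_closedBall_zero_iff.mpr (hSprop l s' hs').1.le, rfl⟩
          exact Set.disjoint_left.mp (hdisj k l hkl) h1 h2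
      have hQT : Q ∈ T := by
        by_contra hQT
        have h1 := hfib τ (insert Q T) (by
          intro Q' hQ'
          rcases Finset.mem_insert.mp hQ' with rfl | h
          · exact hQ
          · exact hTfib Q' h)
        rw [Finset.card_insert_of_notMem hQT, hTcard] at h1
        omega
      obtain ⟨k, -, hk⟩ := Finset.mem_biUnion.mp hQT
      obtain ⟨s, hs, rfl⟩ := Finset.mem_image.mp hk
      exact ⟨k, s, mem_ball_zero_iff.mpr (hSprop k s hs).1, rfl⟩
  -- the open set `W = {|t| < δ}`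
  have hWopen : IsOpen (t ⁻¹' ((↑) '' ball τ₀ δ : Set (OnePoint ℂ))) :=
    (OnePoint.isOpenEmbedding_coe.isOpenMap _ isOpen_ball).preimage ht
  have hPW : P j ∈ t ⁻¹' ((↑) '' ball τ₀ δ : Set (OnePoint ℂ)) := by
    refine ⟨τ₀, mem_ball_self hδpos, ?_⟩
    rw [← hκ0 j, htκ j 0 (mem_ball_self (hr j)), zero_pow (he j).ne', zero_mul, add_zero]
  -- the compact set `C` covered by the other charts
  have hCclosed : IsClosed (⋃ k ∈ (Finset.univ.erase j : Finset ι), κ k '' closedBall 0 (ρ' k)) := by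
    refine Set.Finite.isClosed_biUnion (Finset.finite_toSet _) fun k _ => ?_
    exact ((isCompact_closedBall (0 : ℂ) (ρ' k)).image_of_continuousOn
      ((hκc k).mono (hρ'sub k))).isClosed
  have hPC : P j ∉ ⋃ k ∈ (Finset.univ.erase j : Finset ι), κ k '' closedBall 0 (ρ' k) := by
    intro hmem
    simp only [Set.mem_iUnion] at hmem
    obtain ⟨k, hk, hPk⟩ := hmem
    have hkj : k ≠ j := (Finset.mem_erase.mp hk).1
    exact Set.disjoint_left.mp (hdisj k j hkj) (hρ'U k hPk) (hU (P j)).1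
  have hnhds : t ⁻¹' ((↑) '' ball τ₀ δ : Set (OnePoint ℂ)) ∩
      (⋃ k ∈ (Finset.univ.erase j : Finset ι), κ k '' closedBall 0 (ρ' k))ᶜ ∈ 𝓝 (P j) :=
    (hWopen.inter hCclosed.isOpen_compl).mem_nhds ⟨hPW, hPC⟩
  refine mem_of_superset hnhds ?_
  rintro Q ⟨⟨τ, hτ, hτQ⟩, hQC⟩
  obtain ⟨k, s, hs, rfl⟩ := hcover Q τ (mem_ball_iff_norm.mp hτ) hτQ.symm
  by_cases hkj : k = j
  · subst hkj
    exact ⟨s, ball_subset_ball (hρ'le k) hs, rfl⟩
  · exfalso
    apply hQC
    simp only [Set.mem_iUnion]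
    exact ⟨k, Finset.mem_erase.mpr ⟨hkj, Finset.mem_univ k⟩, s, ball_subset_closedBall hs, rfl⟩

/-- The finite part of a point of the Riemann sphere (`0` at `∞`). -/
noncomputable def finPart (z : OnePoint ℂ) : ℂ := z.elim 0 id

@[simp] theorem finPart_coe (c : ℂ) : finPart (c : OnePoint ℂ) = c := rfl

theorem continuousAt_finPart (c : ℂ) : ContinuousAt finPart (c : OnePoint ℂ) := by
  rw [OnePoint.continuousAt_coe]
  exact continuousAt_id

/-- **Abstract form of B7 (maximum modulus).**  A continuous map `f : X → OnePoint ℂ` with finite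
fibres over `ℂ` which is "holomorphic in charts" at every point of a nonempty compact open set
`X₁` must have a pole in `X₁`. -/
theorem exists_pole_of_isCompact_isOpen {X : Type*} [TopologicalSpace X]
    (f : X → OnePoint ℂ) (hf : Continuous f) (hfib : ∀ c : ℂ, {Q | f Q = (c : OnePoint ℂ)}.Finite)
    (X₁ : Set X) (hX₁c : IsCompact X₁) (hX₁o : IsOpen X₁) (hX₁n : X₁.Nonempty)
    (hchart : ∀ Q ∈ X₁, ∃ (κ : ℂ → X) (r : ℝ) (h : ℂ → ℂ), 0 < r ∧ κ 0 = Q ∧
      ContinuousAt κ 0 ∧ Set.InjOn κ (ball 0 r) ∧ AnalyticAt ℂ h 0 ∧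
      ∀ s ∈ ball (0 : ℂ) r, f (κ s) = (h s : OnePoint ℂ)) :
    ∃ Q ∈ X₁, f Q = OnePoint.infty := by
  by_contra hcon
  push Not at hcon
  -- `f` is finite on `X₁`
  have hfin : ∀ Q ∈ X₁, f Q = ((finPart (f Q) : ℂ) : OnePoint ℂ) := by
    intro Q hQ
    have h1 := hcon Q hQ
    induction hz : f Q using OnePoint.rec with
    | infty => exact absurd hz h1
    | coe c => rfl
  have hcont : ContinuousOn (fun Q => ‖finPart (f Q)‖) X₁ := by
    intro Q hQ
    refine ContinuousAt.continuousWithinAt ?_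
    refine ContinuousAt.norm ?_
    have h1 : ContinuousAt finPart (f Q) := by
      rw [hfin Q hQ]
      exact continuousAt_finPart _
    exact h1.comp hf.continuousAt
  obtain ⟨Q₀, hQ₀, hmax⟩ := hX₁c.exists_isMaxOn hX₁n hcont
  obtain ⟨κ, r, h, hr, hκ0, hκc, hκi, hh, hfκ⟩ := hchart Q₀ hQ₀
  -- `‖h‖` has a local maximum at `0`
  have hmem : ∀ᶠ s in 𝓝 (0 : ℂ), κ s ∈ X₁ ∧ s ∈ ball (0 : ℂ) r := by
    have h1 : κ ⁻¹' X₁ ∈ 𝓝 (0 : ℂ) := hκc (by rw [hκ0]; exact hX₁o.mem_nhds hQ₀)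
    exact Filter.Eventually.and h1 (ball_mem_nhds _ hr)
  have hh0 : finPart (f Q₀) = h 0 := by
    rw [← hκ0, hfκ 0 (mem_ball_self hr), finPart_coe]
  have hlocmax : IsLocalMax (norm ∘ h) 0 := by
    filter_upwards [hmem] with s hs
    have h1 := hmax hs.1
    simp only [Set.mem_ofPred_eq] at h1
    rw [hfκ s hs.2, finPart_coe, hh0] at h1
    exact h1
  have hdiff : ∀ᶠ z in 𝓝 (0 : ℂ), DifferentiableAt ℂ h z :=
    hh.eventually_analyticAt.mono fun z hz => hz.differentiableAt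
  have hconst := Complex.eventually_eq_of_isLocalMax_norm hdiff hlocmax
  obtain ⟨ε, hε, hεsub⟩ := Metric.mem_nhds_iff.mp (Filter.Eventually.and hconst (ball_mem_nhds _ hr))
  -- infinitely many points in one fibre
  have hsub : κ '' ball 0 ε ⊆ {Q | f Q = ((h 0 : ℂ) : OnePoint ℂ)} := by
    rintro _ ⟨s, hs, rfl⟩
    have h1 := hεsub hs
    rw [Set.mem_ofPred_eq, hfκ s h1.2, h1.1]
  have hinf : (κ '' ball 0 ε).Infinite := by
    refine Set.Infinite.image (fun s hs s' hs' hss' => hκi (hεsub hs).2 (hεsub hs').2 hss') ?_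
    have hne : (𝓝[≠] (0 : ℂ)).NeBot := inferInstance
    intro hfinite
    have h1 : (ball (0 : ℂ) ε) ∈ 𝓝 (0 : ℂ) := ball_mem_nhds _ hε
    exact (infinite_of_mem_nhds (0 : ℂ) h1) hfinite
  exact hinf ((hfib (h 0)).subset hsub)

end Fermat.Agent.S27.ChartOpen3002
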