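import Mathlib

/-!
# S27, package D, abstract core ("D-abs", helper9962)

Mathlib-only implicit-function core of package D of helper9506's route.
-/

namespace Fermat.Agent.S27.DAbs

open Filter Topology

section Generic

variable {P : Type*} [NormedAddCommGroup P] [NormedSpace ℂ P] [CompleteSpace P]
variable {V : Type*} [NormedAddCommGroup V] [NormedSpace ℂ V]

/-- Solving finitely many linear conditions with parameters: if the functionals `c i p₀` are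
"independent" (the evaluation map is onto) and `s₀` satisfies them at `p₀`, there is a solution
`s p` of the conditions at `p`, strictly differentiable at `p₀`, with `s p₀ = s₀`. -/
theorem exists_solve {ι : Type*} [Fintype ι] (c : ι → P → (V →L[ℂ] ℂ))
    (c' : ι → (P →L[ℂ] (V →L[ℂ] ℂ))) (p₀ : P)
    (hc : ∀ i, HasStrictFDerivAt (c i) (c' i) p₀) (s₀ : V) (hs₀ : ∀ i, c i p₀ s₀ = 0)
    (hsurj : Function.Surjective (fun (s : V) (i : ι) => c i p₀ s)) :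
    ∃ (s : P → V) (s' : P →L[ℂ] V), HasStrictFDerivAt s s' p₀ ∧ s p₀ = s₀ ∧
      ∀ᶠ p in 𝓝 p₀, ∀ i, c i p (s p) = 0 := by
  classical
  -- a continuous linear right inverse
  let Φ : V →ₗ[ℂ] (ι → ℂ) := LinearMap.pi fun i => (c i p₀ : V →ₗ[ℂ] ℂ)
  have hΦ : Function.Surjective Φ := hsurj
  obtain ⟨R₀, hR₀⟩ := Φ.exists_rightInverse_of_surjective (LinearMap.range_eq_top.mpr hΦ)
  let R : (ι → ℂ) →L[ℂ] V := LinearMap.toContinuousLinearMap R₀
  have hR : ∀ (y : ι → ℂ) (i : ι), c i p₀ (R y) = y i := by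
    intro y i
    have := congrArg (fun g : (ι → ℂ) →ₗ[ℂ] (ι → ℂ) => g y i) hR₀
    simpa [Φ, R] using this
  -- the function to which the implicit function theorem is applied
  let f : P × (ι → ℂ) → (ι → ℂ) := fun q i => c i q.1 (s₀ + R q.2)
  let σ' : P × (ι → ℂ) →L[ℂ] V := R.comp (ContinuousLinearMap.snd ℂ P (ι → ℂ))
  have hσ : HasStrictFDerivAt (fun q : P × (ι → ℂ) => s₀ + R q.2) σ' (p₀, 0) := by
    have h1 : HasStrictFDerivAt (fun q : P × (ι → ℂ) => R q.2) σ' (p₀, 0) :=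
      R.hasStrictFDerivAt.comp (p₀, 0) hasStrictFDerivAt_snd
    exact h1.const_add s₀
  let f' : ι → (P × (ι → ℂ) →L[ℂ] ℂ) := fun i =>
    (c i p₀).comp σ' + ((c' i).comp (ContinuousLinearMap.fst ℂ P (ι → ℂ))).flip (s₀ + R 0)
  have hf : HasStrictFDerivAt f (ContinuousLinearMap.pi f') (p₀, 0) := by
    rw [hasStrictFDerivAt_pi]
    intro i
    have hci : HasStrictFDerivAt (fun q : P × (ι → ℂ) => c i q.1)
        ((c' i).comp (ContinuousLinearMap.fst ℂ P (ι → ℂ))) (p₀, 0) :=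
      (hc i).comp (p₀, 0) hasStrictFDerivAt_fst
    exact hci.clm_apply hσ
  have hinv : ((ContinuousLinearMap.pi f').comp
      (ContinuousLinearMap.inr ℂ P (ι → ℂ))).IsInvertible := by
    have : (ContinuousLinearMap.pi f').comp (ContinuousLinearMap.inr ℂ P (ι → ℂ))
        = (ContinuousLinearEquiv.refl ℂ (ι → ℂ) : (ι → ℂ) →L[ℂ] (ι → ℂ)) := by
      ext y i
      simp [f', σ', hR]
    rw [this]
    exact ContinuousLinearMap.isInvertible_equiv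
  let ψ := hf.implicitFunctionOfProdDomain hinv
  obtain ⟨ψ', hψ⟩ : ∃ ψ' : P →L[ℂ] (ι → ℂ), HasStrictFDerivAt ψ ψ' p₀ :=
    ⟨_, hf.hasStrictFDerivAt_implicitFunctionOfProdDomain hinv⟩
  have hψ0 : ψ p₀ = 0 := by
    have := (hf.eventually_apply_eq_iff_implicitFunctionOfProdDomain hinv).self_of_nhds
    exact this.mp rfl
  have hev := hf.eventually_apply_implicitFunctionOfProdDomain hinv
  have hf0 : f (p₀, 0) = 0 := by
    funext i
    simp [f, hs₀]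
  refine ⟨fun p => s₀ + R (ψ p), R.comp ψ', ?_, ?_, ?_⟩
  · exact (R.hasStrictFDerivAt.comp p₀ hψ).const_add s₀
  · simp [hψ0]
  · filter_upwards [hev] with p hp i
    have := congrFun hp i
    rw [hf0] at this
    exact this

/-- A simple zero moves strictly differentiably with parameters. -/
theorem exists_zero (e : ℂ → (V →L[ℂ] ℂ)) (e' : V →L[ℂ] ℂ) (he : HasStrictDerivAt e e' 0)
    (s : P → V) (s' : P →L[ℂ] V) (p₀ : P) (hs : HasStrictFDerivAt s s' p₀)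
    (h0 : e 0 (s p₀) = 0) (h1 : e' (s p₀) ≠ 0) :
    ∃ (τ : P → ℂ) (τ' : P →L[ℂ] ℂ), HasStrictFDerivAt τ τ' p₀ ∧ τ p₀ = 0 ∧
      ∀ᶠ p in 𝓝 p₀, e (τ p) (s p) = 0 := by
  let f : P × ℂ → ℂ := fun q => e q.2 (s q.1)
  have hs1 : HasStrictFDerivAt (fun q : P × ℂ => s q.1) (s'.comp (ContinuousLinearMap.fst ℂ P ℂ))
      (p₀, 0) := hs.comp (p₀, 0) hasStrictFDerivAt_fst
  have he1 : HasStrictFDerivAt (fun q : P × ℂ => e q.2)
      (((1 : ℂ →L[ℂ] ℂ).smulRight e').comp (ContinuousLinearMap.snd ℂ P ℂ)) (p₀, 0) :=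
    he.hasStrictFDerivAt.comp (p₀, 0) hasStrictFDerivAt_snd
  have hf : HasStrictFDerivAt f _ (p₀, 0) := he1.clm_apply hs1
  set f' := (e (p₀, (0:ℂ)).2).comp (s'.comp (ContinuousLinearMap.fst ℂ P ℂ)) +
      ((((1 : ℂ →L[ℂ] ℂ).smulRight e').comp (ContinuousLinearMap.snd ℂ P ℂ))).flip (s (p₀, (0:ℂ)).1)
    with hf'
  have hinv : (f'.comp (ContinuousLinearMap.inr ℂ P ℂ)).IsInvertible := by
    have : f'.comp (ContinuousLinearMap.inr ℂ P ℂ)
        = (ContinuousLinearEquiv.unitsEquivAut ℂ (Units.mk0 (e' (s p₀)) h1) : ℂ →L[ℂ] ℂ) := by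
      ext
      simp [f']
    rw [this]
    exact ContinuousLinearMap.isInvertible_equiv
  let ψ := hf.implicitFunctionOfProdDomain hinv
  obtain ⟨ψ', hψ⟩ : ∃ ψ' : P →L[ℂ] ℂ, HasStrictFDerivAt ψ ψ' p₀ :=
    ⟨_, hf.hasStrictFDerivAt_implicitFunctionOfProdDomain hinv⟩
  have hψ0 : ψ p₀ = 0 := by
    have := (hf.eventually_apply_eq_iff_implicitFunctionOfProdDomain hinv).self_of_nhds
    exact this.mp rfl
  have hev := hf.eventually_apply_implicitFunctionOfProdDomain hinv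
  refine ⟨ψ, ψ', hψ, hψ0, ?_⟩
  filter_upwards [hev] with p hp
  have : f (p₀, 0) = 0 := h0
  rw [this] at hp
  exact hp

end Generic

section Main

variable {V : Type*} [NormedAddCommGroup V] [NormedSpace ℂ V]
variable {g r : ℕ}

/-- The parameter space `ℂ^g × ℂ^g` of package D. -/
abbrev Par (g : ℕ) : Type := (Fin g → ℂ) × (Fin g → ℂ)

/-- **D-abs** (D1-D4 of the route).  `V = L(M)`, `s₀ = 1`, `eA i τ s` = value at `τ` of the
section `s` (times the local equation of `M`) in the chart at `P_i`, `eB` at `P'_i`, `eC` at `ρ_j`. -/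
theorem exists_chart_sum
    (eA eB : Fin g → ℂ → (V →L[ℂ] ℂ)) (eC : Fin r → ℂ → (V →L[ℂ] ℂ))
    (dA dB : Fin g → (V →L[ℂ] ℂ)) (dC : Fin r → (V →L[ℂ] ℂ))
    (hA : ∀ i, HasStrictDerivAt (eA i) (dA i) 0)
    (hB : ∀ i, HasStrictDerivAt (eB i) (dB i) 0)
    (hC : ∀ j, HasStrictDerivAt (eC j) (dC j) 0)
    (s₀ : V)
    (hA0 : ∀ i, eA i 0 s₀ = 0) (hB0 : ∀ i, eB i 0 s₀ = 0) (hC0 : ∀ j, eC j 0 s₀ = 0)
    (hA1 : ∀ i, dA i s₀ ≠ 0) (hC1 : ∀ j, dC j s₀ ≠ 0)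
    (hAB : Function.Surjective
      (fun s : V => ((fun i => eA i 0 s, fun i => eB i 0 s) : (Fin g → ℂ) × (Fin g → ℂ))))
    (hBC : Function.Surjective
      (fun s : V => ((fun i => eB i 0 s, fun j => eC j 0 s) : (Fin g → ℂ) × (Fin r → ℂ)))) :
    ∃ (s₁ s₂ : Par g → V) (ρ : Par g → Fin r → ℂ) (u : Par g → Fin g → ℂ)
      (s₁' s₂' : Par g →L[ℂ] V) (ρ' : Par g →L[ℂ] (Fin r → ℂ)) (u' : Par g →L[ℂ] (Fin g → ℂ)),
      HasStrictFDerivAt s₁ s₁' 0 ∧ HasStrictFDerivAt s₂ s₂' 0 ∧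
      HasStrictFDerivAt ρ ρ' 0 ∧ HasStrictFDerivAt u u' 0 ∧
      s₁ 0 = s₀ ∧ s₂ 0 = s₀ ∧ ρ 0 = 0 ∧ u 0 = 0 ∧
      ∀ᶠ p in 𝓝 (0 : Par g),
        (∀ i, eA i (p.1 i) (s₁ p) = 0) ∧ (∀ i, eB i (p.2 i) (s₁ p) = 0) ∧
        (∀ j, eC j (ρ p j) (s₁ p) = 0) ∧
        (∀ i, eB i 0 (s₂ p) = 0) ∧ (∀ j, eC j (ρ p j) (s₂ p) = 0) ∧
        (∀ i, eA i (u p i) (s₂ p) = 0) := by
  classical
  -- Step 1: s₁
  let c1 : (Fin g ⊕ Fin g) → Par g → (V →L[ℂ] ℂ) := fun k p =>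
    Sum.elim (fun i => eA i (p.1 i)) (fun i => eB i (p.2 i)) k
  have hc1 : ∀ k, ∃ c' : Par g →L[ℂ] (V →L[ℂ] ℂ), HasStrictFDerivAt (c1 k) c' 0 := by
    rintro (i | i)
    · have h1 : HasStrictFDerivAt (fun p : Par g => p.1 i)
          ((ContinuousLinearMap.proj i).comp (ContinuousLinearMap.fst ℂ _ _)) 0 :=
        ((ContinuousLinearMap.proj (R := ℂ) (φ := fun _ : Fin g => ℂ) i).comp
          (ContinuousLinearMap.fst ℂ (Fin g → ℂ) (Fin g → ℂ))).hasStrictFDerivAt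
      have h2 : HasStrictFDerivAt (eA i) _ ((fun p : Par g => p.1 i) 0) := (hA i).hasStrictFDerivAt
      exact ⟨_, HasStrictFDerivAt.comp (f := fun p : Par g => p.1 i) 0 h2 h1⟩
    · have h1 : HasStrictFDerivAt (fun p : Par g => p.2 i)
          ((ContinuousLinearMap.proj i).comp (ContinuousLinearMap.snd ℂ _ _)) 0 :=
        ((ContinuousLinearMap.proj (R := ℂ) (φ := fun _ : Fin g => ℂ) i).comp
          (ContinuousLinearMap.snd ℂ (Fin g → ℂ) (Fin g → ℂ))).hasStrictFDerivAt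
      have h2 : HasStrictFDerivAt (eB i) _ ((fun p : Par g => p.2 i) 0) := (hB i).hasStrictFDerivAt
      exact ⟨_, HasStrictFDerivAt.comp (f := fun p : Par g => p.2 i) 0 h2 h1⟩
  choose c1' hc1' using hc1
  have hs1 : ∀ k, c1 k 0 s₀ = 0 := by
    rintro (i | i)
    · exact hA0 i
    · exact hB0 i
  have hsurj1 : Function.Surjective (fun (s : V) (k : Fin g ⊕ Fin g) => c1 k 0 s) := by
    intro y
    obtain ⟨s, hs⟩ := hAB (fun i => y (Sum.inl i), fun i => y (Sum.inr i))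
    refine ⟨s, ?_⟩
    funext k
    rcases k with i | i
    · exact congrFun (congrArg Prod.fst hs) i
    · exact congrFun (congrArg Prod.snd hs) i
  obtain ⟨s₁, s₁', hs₁, hs₁0, hs₁ev⟩ := exists_solve c1 c1' 0 hc1' s₀ hs1 hsurj1
  -- Step 2: ρ
  have hρex : ∀ j, ∃ (τ : Par g → ℂ) (τ' : Par g →L[ℂ] ℂ), HasStrictFDerivAt τ τ' 0 ∧ τ 0 = 0 ∧
      ∀ᶠ p in 𝓝 (0 : Par g), eC j (τ p) (s₁ p) = 0 := fun j =>
    exists_zero (eC j) (dC j) (hC j) s₁ s₁' 0 hs₁ (by rw [hs₁0]; exact hC0 j)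
      (by rw [hs₁0]; exact hC1 j)
  choose τ τ' hτ hτ0 hτev using hρex
  let ρ : Par g → Fin r → ℂ := fun p j => τ j p
  have hρ : HasStrictFDerivAt ρ (ContinuousLinearMap.pi τ') 0 := by
    rw [hasStrictFDerivAt_pi]
    exact hτ
  have hρ0 : ρ 0 = 0 := funext hτ0
  -- Step 3: s₂
  let c2 : (Fin g ⊕ Fin r) → Par g → (V →L[ℂ] ℂ) := fun k p =>
    Sum.elim (fun i => eB i 0) (fun j => eC j (ρ p j)) k
  have hc2 : ∀ k, ∃ c' : Par g →L[ℂ] (V →L[ℂ] ℂ), HasStrictFDerivAt (c2 k) c' 0 := by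
    rintro (i | j)
    · exact ⟨0, hasStrictFDerivAt_const _ _⟩
    · have h2 : HasStrictFDerivAt (eC j) ((1 : ℂ →L[ℂ] ℂ).smulRight (dC j)) (τ j 0) := by
        rw [hτ0 j]; exact (hC j).hasStrictFDerivAt
      exact ⟨_, HasStrictFDerivAt.comp (f := τ j) 0 h2 (hτ j)⟩
  choose c2' hc2' using hc2
  have hs2 : ∀ k, c2 k 0 s₀ = 0 := by
    rintro (i | j)
    · exact hB0 i
    · show eC j (ρ 0 j) s₀ = 0
      rw [hρ0]; exact hC0 j
  have hsurj2 : Function.Surjective (fun (s : V) (k : Fin g ⊕ Fin r) => c2 k 0 s) := by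
    intro y
    obtain ⟨s, hs⟩ := hBC (fun i => y (Sum.inl i), fun j => y (Sum.inr j))
    refine ⟨s, ?_⟩
    funext k
    rcases k with i | j
    · exact congrFun (congrArg Prod.fst hs) i
    · show eC j (ρ 0 j) s = y (Sum.inr j)
      rw [hρ0]
      exact congrFun (congrArg Prod.snd hs) j
  obtain ⟨s₂, s₂', hs₂, hs₂0, hs₂ev⟩ := exists_solve c2 c2' 0 hc2' s₀ hs2 hsurj2
  -- Step 4: u
  have huex : ∀ i, ∃ (υ : Par g → ℂ) (υ' : Par g →L[ℂ] ℂ), HasStrictFDerivAt υ υ' 0 ∧ υ 0 = 0 ∧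
      ∀ᶠ p in 𝓝 (0 : Par g), eA i (υ p) (s₂ p) = 0 := fun i =>
    exists_zero (eA i) (dA i) (hA i) s₂ s₂' 0 hs₂ (by rw [hs₂0]; exact hA0 i)
      (by rw [hs₂0]; exact hA1 i)
  choose υ υ' hυ hυ0 hυev using huex
  refine ⟨s₁, s₂, ρ, fun p i => υ i p, s₁', s₂', ContinuousLinearMap.pi τ',
    ContinuousLinearMap.pi υ', hs₁, hs₂, hρ, ?_, hs₁0, hs₂0, hρ0, funext hυ0, ?_⟩
  · rw [hasStrictFDerivAt_pi]
    exact hυ
  · filter_upwards [hs₁ev, hs₂ev, eventually_all.mpr hτev, eventually_all.mpr hυev]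
      with p h1 h2 h3 h4
    exact ⟨fun i => h1 (Sum.inl i), fun i => h1 (Sum.inr i), h3,
      fun i => h2 (Sum.inl i), fun j => h2 (Sum.inr j), h4⟩

end Main

section Coordinates

variable {g r n : ℕ}

/-- Evaluation functional in coordinates: `s ↦ ∑ k, s k * φ k τ`. -/
noncomputable def evC (φ : Fin n → ℂ → ℂ) (τ : ℂ) : (Fin n → ℂ) →L[ℂ] ℂ :=
  ∑ k, φ k τ • ContinuousLinearMap.proj (R := ℂ) (φ := fun _ : Fin n => ℂ) k

@[simp] theorem evC_apply (φ : Fin n → ℂ → ℂ) (τ : ℂ) (s : Fin n → ℂ) :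
    evC φ τ s = ∑ k, s k * φ k τ := by
  simp [evC, mul_comm]

theorem hasStrictDerivAt_evC (φ : Fin n → ℂ → ℂ) (φ' : Fin n → ℂ)
    (h : ∀ k, HasStrictDerivAt (φ k) (φ' k) 0) :
    HasStrictDerivAt (evC φ)
      (∑ k, φ' k • ContinuousLinearMap.proj (R := ℂ) (φ := fun _ : Fin n => ℂ) k) 0 := by
  unfold evC
  have : ∀ k ∈ (Finset.univ : Finset (Fin n)), HasStrictDerivAt
      (fun τ => φ k τ • ContinuousLinearMap.proj (R := ℂ) (φ := fun _ : Fin n => ℂ) k)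
      (φ' k • ContinuousLinearMap.proj (R := ℂ) (φ := fun _ : Fin n => ℂ) k) 0 :=
    fun k _ => (h k).smul_const (ContinuousLinearMap.proj (R := ℂ) (φ := fun _ : Fin n => ℂ) k)
  have h2 := HasStrictDerivAt.fun_sum this
  convert h2 using 1

/-- **D-abs in coordinates.**  `V = ℂ^n` (coordinates of `L(M)` in a basis `b`), `φA i k` = the
local expansion in the chart at `P_i` of `b k` times the local equation of `M`, etc. -/
theorem exists_chart_sum_coord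
    (φA φB : Fin g → Fin n → ℂ → ℂ) (φC : Fin r → Fin n → ℂ → ℂ)
    (φA' φB' : Fin g → Fin n → ℂ) (φC' : Fin r → Fin n → ℂ)
    (hA : ∀ i k, HasStrictDerivAt (φA i k) (φA' i k) 0)
    (hB : ∀ i k, HasStrictDerivAt (φB i k) (φB' i k) 0)
    (hC : ∀ j k, HasStrictDerivAt (φC j k) (φC' j k) 0)
    (s₀ : Fin n → ℂ)
    (hA0 : ∀ i, ∑ k, s₀ k * φA i k 0 = 0) (hB0 : ∀ i, ∑ k, s₀ k * φB i k 0 = 0)
    (hC0 : ∀ j, ∑ k, s₀ k * φC j k 0 = 0)
    (hA1 : ∀ i, ∑ k, s₀ k * φA' i k ≠ 0) (hC1 : ∀ j, ∑ k, s₀ k * φC' j k ≠ 0)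
    (hAB : Function.Surjective (fun s : Fin n → ℂ =>
      ((fun i => ∑ k, s k * φA i k 0, fun i => ∑ k, s k * φB i k 0) :
        (Fin g → ℂ) × (Fin g → ℂ))))
    (hBC : Function.Surjective (fun s : Fin n → ℂ =>
      ((fun i => ∑ k, s k * φB i k 0, fun j => ∑ k, s k * φC j k 0) :
        (Fin g → ℂ) × (Fin r → ℂ)))) :
    ∃ (s₁ s₂ : Par g → Fin n → ℂ) (ρ : Par g → Fin r → ℂ) (u : Par g → Fin g → ℂ)
      (s₁' s₂' : Par g →L[ℂ] (Fin n → ℂ)) (ρ' : Par g →L[ℂ] (Fin r → ℂ))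
      (u' : Par g →L[ℂ] (Fin g → ℂ)),
      HasStrictFDerivAt s₁ s₁' 0 ∧ HasStrictFDerivAt s₂ s₂' 0 ∧
      HasStrictFDerivAt ρ ρ' 0 ∧ HasStrictFDerivAt u u' 0 ∧
      s₁ 0 = s₀ ∧ s₂ 0 = s₀ ∧ ρ 0 = 0 ∧ u 0 = 0 ∧
      ∀ᶠ p in 𝓝 (0 : Par g),
        (∀ i, ∑ k, s₁ p k * φA i k (p.1 i) = 0) ∧ (∀ i, ∑ k, s₁ p k * φB i k (p.2 i) = 0) ∧
        (∀ j, ∑ k, s₁ p k * φC j k (ρ p j) = 0) ∧
        (∀ i, ∑ k, s₂ p k * φB i k 0 = 0) ∧ (∀ j, ∑ k, s₂ p k * φC j k (ρ p j) = 0) ∧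
        (∀ i, ∑ k, s₂ p k * φA i k (u p i) = 0) := by
  have key := exists_chart_sum (V := Fin n → ℂ)
    (fun i => evC (φA i)) (fun i => evC (φB i)) (fun j => evC (φC j))
    (fun i => ∑ k, φA' i k • ContinuousLinearMap.proj (R := ℂ) (φ := fun _ : Fin n => ℂ) k)
    (fun i => ∑ k, φB' i k • ContinuousLinearMap.proj (R := ℂ) (φ := fun _ : Fin n => ℂ) k)
    (fun j => ∑ k, φC' j k • ContinuousLinearMap.proj (R := ℂ) (φ := fun _ : Fin n => ℂ) k)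
    (fun i => hasStrictDerivAt_evC _ _ (hA i)) (fun i => hasStrictDerivAt_evC _ _ (hB i))
    (fun j => hasStrictDerivAt_evC _ _ (hC j)) s₀
    (by simpa using hA0) (by simpa using hB0) (by simpa using hC0)
    (by simpa [mul_comm] using hA1)
    (by simpa [mul_comm] using hC1)
    (by simpa using hAB) (by simpa using hBC)
  simpa using key

end Coordinates

section GroupLaw

/-- From strict differentiability at `(0,0)` and `a (x,0) = x`, `a (0,y) = y`: the estimate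
needed by package E. -/
theorem est_of_hasStrictFDerivAt {𝕜 : Type*} [NontriviallyNormedField 𝕜]
    {E : Type*} [NormedAddCommGroup E] [NormedSpace 𝕜 E]
    (a : E × E → E) (a' : E × E →L[𝕜] E) (ha : HasStrictFDerivAt a a' (0, 0))
    (h1 : ∀ᶠ x in 𝓝 (0 : E), a (x, 0) = x) (h2 : ∀ᶠ y in 𝓝 (0 : E), a (0, y) = y) :
    ∀ ε > 0, ∃ δ > 0, ∀ x y : E, ‖x‖ < δ → ‖y‖ < δ → ‖a (x, y) - x - y‖ ≤ ε * ‖y‖ := by
  -- the derivative in the second variable is the identity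
  have hd : ∀ y : E, a' (0, y) = y := by
    have hcomp : HasFDerivAt (fun y : E => a (0, y))
        (a'.comp (ContinuousLinearMap.inr 𝕜 E E)) 0 := by
      have hinr : HasFDerivAt (fun y : E => ((0 : E), y)) (ContinuousLinearMap.inr 𝕜 E E) 0 :=
        (ContinuousLinearMap.inr 𝕜 E E).hasFDerivAt
      exact ha.hasFDerivAt.comp (0 : E) hinr
    have hid : HasFDerivAt (fun y : E => a (0, y)) (ContinuousLinearMap.id 𝕜 E) 0 :=
      (hasFDerivAt_id (0 : E)).congr_of_eventuallyEq h2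
    have := hcomp.unique hid
    intro y
    have h3 := congrArg (fun L : E →L[𝕜] E => L y) this
    simpa using h3
  intro ε hε
  have hlo := ha.isLittleO
  rw [Asymptotics.isLittleO_iff] at hlo
  have hev := hlo hε
  rw [Metric.eventually_nhds_iff] at hev
  obtain ⟨δ₁, hδ₁, hball⟩ := hev
  rw [Metric.eventually_nhds_iff] at h1
  obtain ⟨δ₂, hδ₂, hx0⟩ := h1
  refine ⟨min δ₁ δ₂, lt_min hδ₁ hδ₂, fun x y hx hy => ?_⟩
  have hx1 : ‖x‖ < δ₁ := lt_of_lt_of_le hx (min_le_left _ _)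
  have hy1 : ‖y‖ < δ₁ := lt_of_lt_of_le hy (min_le_left _ _)
  have hx2 : ‖x‖ < δ₂ := lt_of_lt_of_le hx (min_le_right _ _)
  have hmem : dist (((x, y), (x, 0)) : (E × E) × (E × E)) ((0, 0), (0, 0)) < δ₁ := by
    rw [dist_eq_norm]
    simp only [Prod.mk_sub_mk, sub_zero, Prod.norm_def, norm_zero]
    simp [hx1, hy1]
  have hb := hball hmem
  have hax : a (x, 0) = x := hx0 (by simpa [dist_eq_norm] using hx2)
  simp only [Prod.mk_sub_mk, sub_self, sub_zero] at hb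
  rw [hax, hd] at hb
  have hn : ‖((0 : E), y)‖ = ‖y‖ := by simp [Prod.norm_def]
  rw [hn] at hb
  exact hb

/-- **D5.**  From the two chart-sum maps `u` (`ψ₀ (u (z,w)) = ψ₀ z + ψ₁ w`) and `v`
(`ψ₁ (v (w,z)) = ψ₁ w + ψ₀ z`) to a local group law `a (x,y) = u (x, v (0,y))` in the chart `ψ₀`,
strictly differentiable at `(0,0)`, with the estimate needed by package E. -/
theorem exists_groupLaw {G : Type*} [AddCommGroup G]
    {E : Type*} [NormedAddCommGroup E] [NormedSpace ℂ E]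
    (ψ₀ ψ₁ : E → G) (hψ₀ : ψ₀ 0 = 0) (hψ₁ : ψ₁ 0 = 0)
    (ρ₀ : ℝ) (hρ₀ : 0 < ρ₀) (hinj : Set.InjOn ψ₀ (Metric.ball 0 ρ₀))
    (u v : E × E → E) (u' v' : E × E →L[ℂ] E)
    (hu : HasStrictFDerivAt u u' 0) (hv : HasStrictFDerivAt v v' 0)
    (hu0 : u 0 = 0) (hv0 : v 0 = 0)
    (huψ : ∀ᶠ p in 𝓝 (0 : E × E), ψ₀ (u p) = ψ₀ p.1 + ψ₁ p.2)
    (hvψ : ∀ᶠ p in 𝓝 (0 : E × E), ψ₁ (v p) = ψ₁ p.1 + ψ₀ p.2) :
    ∃ (a : E × E → E) (a' : E × E →L[ℂ] E), HasStrictFDerivAt a a' 0 ∧ a 0 = 0 ∧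
      (∀ᶠ p in 𝓝 (0 : E × E), ψ₀ (a p) = ψ₀ p.1 + ψ₀ p.2) ∧
      (∀ᶠ x in 𝓝 (0 : E), a (x, 0) = x) ∧ (∀ᶠ y in 𝓝 (0 : E), a (0, y) = y) ∧
      ∀ ε > 0, ∃ δ > 0, ∀ x y : E, ‖x‖ < δ → ‖y‖ < δ → ‖a (x, y) - x - y‖ ≤ ε * ‖y‖ := by
  -- the inner map
  let ι₂ : E × E →L[ℂ] E × E := (ContinuousLinearMap.inr ℂ E E).comp (ContinuousLinearMap.snd ℂ E E)
  have hι₂ : ∀ p : E × E, ι₂ p = (0, p.2) := fun p => by simp [ι₂]
  have hι₂0 : ι₂ 0 = 0 := map_zero _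
  let κ : E × E → E × E := fun p => (p.1, v (ι₂ p))
  have hv2 : HasStrictFDerivAt (fun p : E × E => v (ι₂ p)) (v'.comp ι₂) 0 := by
    have h1 : HasStrictFDerivAt (fun p : E × E => ι₂ p) ι₂ 0 := ι₂.hasStrictFDerivAt
    have h2 : HasStrictFDerivAt v v' (ι₂ 0) := by rw [hι₂0]; exact hv
    exact HasStrictFDerivAt.comp (f := fun p : E × E => ι₂ p) 0 h2 h1
  have hκ : HasStrictFDerivAt κ ((ContinuousLinearMap.fst ℂ E E).prod (v'.comp ι₂)) 0 :=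
    hasStrictFDerivAt_fst.prodMk hv2
  have hκ0 : κ 0 = 0 := by
    show ((0 : E × E).1, v (ι₂ 0)) = 0
    rw [hι₂0, hv0]; rfl
  let a : E × E → E := fun p => u (κ p)
  have ha : HasStrictFDerivAt a (u'.comp ((ContinuousLinearMap.fst ℂ E E).prod (v'.comp ι₂))) 0 := by
    have h2 : HasStrictFDerivAt u u' (κ 0) := by rw [hκ0]; exact hu
    exact HasStrictFDerivAt.comp (f := κ) 0 h2 hκ
  have ha0 : a 0 = 0 := by
    show u (κ 0) = 0
    rw [hκ0, hu0]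
  -- the addition formula
  have hadd : ∀ᶠ p in 𝓝 (0 : E × E), ψ₀ (a p) = ψ₀ p.1 + ψ₀ p.2 := by
    have hκt : Tendsto κ (𝓝 0) (𝓝 0) := by
      have := hκ.continuousAt.tendsto
      rwa [hκ0] at this
    have hιt : Tendsto (fun p : E × E => ι₂ p) (𝓝 0) (𝓝 0) := by
      have := ι₂.continuous.tendsto 0
      rwa [hι₂0] at this
    filter_upwards [hκt.eventually huψ, hιt.eventually hvψ] with p h1 h2
    have h3 : ψ₁ (v (ι₂ p)) = ψ₀ p.2 := by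
      rw [h2, hι₂ p]
      simp [hψ₁]
    show ψ₀ (u (κ p)) = _
    rw [h1]
    show ψ₀ p.1 + ψ₁ (v (ι₂ p)) = _
    rw [h3]
  -- eventually small
  have hsmall : ∀ᶠ p in 𝓝 (0 : E × E), a p ∈ Metric.ball (0 : E) ρ₀ := by
    have hat : Tendsto a (𝓝 0) (𝓝 0) := by
      have := ha.continuousAt.tendsto
      rwa [ha0] at this
    exact hat.eventually (Metric.ball_mem_nhds 0 hρ₀)
  have hx1 : ∀ᶠ x in 𝓝 (0 : E), a (x, 0) = x := by
    have ht : Tendsto (fun x : E => ((x, 0) : E × E)) (𝓝 0) (𝓝 0) := by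
      have : Continuous (fun x : E => ((x, 0) : E × E)) := by fun_prop
      exact this.tendsto 0
    filter_upwards [ht.eventually hadd, ht.eventually hsmall, Metric.ball_mem_nhds (0 : E) hρ₀]
      with x h1 h2 h3
    apply hinj h2 h3
    rw [h1]
    simp [hψ₀]
  have hy1 : ∀ᶠ y in 𝓝 (0 : E), a (0, y) = y := by
    have ht : Tendsto (fun y : E => ((0, y) : E × E)) (𝓝 0) (𝓝 0) := by
      have : Continuous (fun y : E => ((0, y) : E × E)) := by fun_prop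
      exact this.tendsto 0
    filter_upwards [ht.eventually hadd, ht.eventually hsmall, Metric.ball_mem_nhds (0 : E) hρ₀]
      with y h1 h2 h3
    apply hinj h2 h3
    rw [h1]
    simp [hψ₀]
  exact ⟨a, _, ha, ha0, hadd, hx1, hy1, est_of_hasStrictFDerivAt a _ ha hx1 hy1⟩

end GroupLaw

end Fermat.Agent.S27.DAbs
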