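/-
S27 package F (helper9506 route), pure-Mathlib core of F3 (helper3314):
Galois descent for subspaces of `K^ι`.  If a group `G` acts on a field `K` by automorphisms and a
`K`-subspace `W ⊆ K^ι` (`ι` finite) is stable under the coordinatewise action, then `W` is spanned
by its vectors all of whose coordinates are `G`-fixed ("a Galois-stable subspace has a Galois-fixed
reduced echelon basis").
-/
import Mathlib

set_option autoImplicit false

namespace Fermat.Agent.S27.H3314

open Finset

section

variable {K : Type*} [Field K] {G : Type*} [Group G] [MulSemiringAction G K]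
variable {ι : Type*} [Fintype ι]

/-- The support of a vector. -/
noncomputable def supp (w : ι → K) : Finset ι := by
  classical exact univ.filter fun i => w i ≠ 0

theorem mem_supp {w : ι → K} {i : ι} : i ∈ supp w ↔ w i ≠ 0 := by
  classical
  simp [supp]

/-- **Descent of stable subspaces.** -/
theorem stable_le_span_fixed (W : Submodule K (ι → K))
    (hW : ∀ (σ : G) (w : ι → K), w ∈ W → (fun i => σ • w i) ∈ W) :
    W ≤ Submodule.span K {w : ι → K | w ∈ W ∧ ∀ (σ : G) (i : ι), σ • w i = w i} := by
  classical
  set S : Set (ι → K) := {w : ι → K | w ∈ W ∧ ∀ (σ : G) (i : ι), σ • w i = w i} with hS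
  suffices H : ∀ n : ℕ, ∀ w : ι → K, w ∈ W → (supp w).card = n → w ∈ Submodule.span K S from
    fun w hw => H _ w hw rfl
  intro n
  induction n using Nat.strong_induction_on with
  | _ n ih =>
    intro w hw hn
    by_cases hw0 : w = 0
    · rw [hw0]; exact Submodule.zero_mem _
    -- a nonzero vector of `W` with support inside `supp w`, of minimal support size
    have hex : ∃ m : ℕ, ∃ u : ι → K, u ∈ W ∧ u ≠ 0 ∧ supp u ⊆ supp w ∧ (supp u).card = m :=
      ⟨_, w, hw, hw0, subset_rfl, rfl⟩
    obtain ⟨u, huW, hu0, husub, hucard⟩ := Nat.find_spec hex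
    have hmin : ∀ u' : ι → K, u' ∈ W → u' ≠ 0 → supp u' ⊆ supp w →
        (supp u).card ≤ (supp u').card := by
      intro u' hu'W hu'0 hu'sub
      rw [hucard]
      exact Nat.find_min' hex ⟨u', hu'W, hu'0, hu'sub, rfl⟩
    obtain ⟨i₀, hi₀⟩ : ∃ i₀, u i₀ ≠ 0 := by
      by_contra hcon
      push Not at hcon
      exact hu0 (funext hcon)
    -- normalise
    set u' : ι → K := (u i₀)⁻¹ • u with hu'
    have hu'W : u' ∈ W := W.smul_mem _ huW
    have hu'i₀ : u' i₀ = 1 := by
      rw [hu', Pi.smul_apply, smul_eq_mul, inv_mul_cancel₀ hi₀]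
    have hsupp' : supp u' = supp u := by
      ext i
      rw [mem_supp, mem_supp, hu', Pi.smul_apply, smul_eq_mul]
      exact ⟨fun h => right_ne_zero_of_mul h, fun h => mul_ne_zero (inv_ne_zero hi₀) h⟩
    -- `u'` is fixed
    have hfix : ∀ (σ : G) (i : ι), σ • u' i = u' i := by
      intro σ
      set d : ι → K := (fun i => σ • u' i) - u' with hd
      have hdW : d ∈ W := W.sub_mem (hW σ u' hu'W) hu'W
      have hdi₀ : d i₀ = 0 := by
        rw [hd, Pi.sub_apply, hu'i₀, smul_one, sub_self]
      have hdsub : supp d ⊆ supp u' := by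
        intro i hi
        rw [mem_supp] at hi ⊢
        intro h0
        apply hi
        rw [hd, Pi.sub_apply, h0, smul_zero, sub_self]
      have hd0 : d = 0 := by
        by_contra hdne
        have h1 := hmin d hdW hdne (hdsub.trans (hsupp' ▸ husub))
        have h2 : (supp d).card < (supp u').card := by
          refine card_lt_card ⟨hdsub, fun hsub => ?_⟩
          have : i₀ ∈ supp d := hsub (mem_supp.mpr (by rw [hu'i₀]; exact one_ne_zero))
          exact (mem_supp.mp this) hdi₀
        rw [hsupp'] at h2
        exact absurd h1 (not_le.mpr h2)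
      intro i
      have := congrFun hd0 i
      rw [hd, Pi.sub_apply, Pi.zero_apply, sub_eq_zero] at this
      exact this
    have hu'S : u' ∈ Submodule.span K S := Submodule.subset_span ⟨hu'W, hfix⟩
    -- subtract
    set w' : ι → K := w - (w i₀) • u' with hw'
    have hw'W : w' ∈ W := W.sub_mem hw (W.smul_mem _ hu'W)
    have hi₀w : i₀ ∈ supp w := husub (mem_supp.mpr hi₀)
    have hw'sub : supp w' ⊆ (supp w).erase i₀ := by
      intro i hi
      rw [mem_supp] at hi
      rw [mem_erase]
      refine ⟨?_, ?_⟩
      · rintro rfl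
        apply hi
        rw [hw', Pi.sub_apply, Pi.smul_apply, hu'i₀, smul_eq_mul, mul_one, sub_self]
      · rw [mem_supp]
        intro h0
        apply hi
        have hu'i : u' i = 0 := by
          by_contra hne
          have : i ∈ supp w := husub (hsupp' ▸ mem_supp.mpr hne)
          exact (mem_supp.mp this) h0
        rw [hw', Pi.sub_apply, Pi.smul_apply, h0, hu'i, smul_zero, sub_zero]
    have hlt : (supp w').card < n := by
      calc (supp w').card ≤ ((supp w).erase i₀).card := card_le_card hw'sub
        _ < (supp w).card := card_erase_lt_of_mem hi₀w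
        _ = n := hn
    have hw'S : w' ∈ Submodule.span K S := ih _ hlt w' hw'W rfl
    have hweq : w = w' + (w i₀) • u' := by rw [hw']; abel
    rw [hweq]
    exact Submodule.add_mem _ hw'S (Submodule.smul_mem _ _ hu'S)

/-- **Descent of stable subspaces**, as an equality. -/
theorem span_fixed_eq_of_stable (W : Submodule K (ι → K))
    (hW : ∀ (σ : G) (w : ι → K), w ∈ W → (fun i => σ • w i) ∈ W) :
    Submodule.span K {w : ι → K | w ∈ W ∧ ∀ (σ : G) (i : ι), σ • w i = w i} = W :=
  le_antisymm (Submodule.span_le.mpr fun _ hw => hw.1) (stable_le_span_fixed W hW)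

end

end Fermat.Agent.S27.H3314
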