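/-
S27 package F (helper9506 route / helper8666 F-skeleton, packages L2 + L3), helper3314:
semilinear Galois descent inside a "base-changed" field.

Abstract setting: a group `G` acts on a field `K` and semilinearly on a `K`-vector space `V`
(resp. on a field extension `F / K` by ring automorphisms); `e : ι → V` is a family of `G`-fixed
vectors, `S = span_K (range e)`.

* `stable_le_span_fixed_of_span`: a `G`-stable `K`-subspace of `S` is spanned by its `G`-fixed vectors.
* `smul_coeff_eq_of_smul_eq`: if `e` is linearly independent, a `G`-fixed vector of `S` has `G`-fixed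
  coordinates.
* `exists_fixed_denominator`, `stable_le_span_fixed_frac`: if moreover `S` is closed under
  multiplication in the field `F` and every element of `F` is a quotient of elements of `S`, then
  every finitely generated `G`-stable `K`-subspace `W` of `F` has a nonzero `G`-fixed common
  denominator in `S`, and is spanned by its `G`-fixed vectors.
* concrete forms `fixed_mem_range_of_baseChange`, `stable_le_span_range_of_baseChange` for
  `F ⊇ K·F0` with `K^G = k`, `F0` and `K` linearly disjoint over `k` in `F` and `F = Frac (K·F0)`: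
  the fixed field of `G` in `F` is `F0`, and every finitely generated `G`-stable `K`-subspace of `F`
  is spanned by its elements lying in `F0`  (this is "`L(ext D0) = K · L(D0)`").
-/
import Mathlib
import Fermat.Agent.S27.Descent3314

set_option autoImplicit false

namespace Fermat.Agent.S27.H3314

open scoped TensorProduct

section module

variable {K V G ι : Type*} [Field K] [AddCommGroup V] [Module K V] [Group G]
  [MulSemiringAction G K] [DistribMulAction G V]

theorem smul_fintype_linearCombination {κ : Type*} [Fintype κ]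
    (hsl : ∀ (g : G) (c : K) (v : V), g • (c • v) = (g • c) • (g • v))
    (e : κ → V) (hefix : ∀ (g : G) (i : κ), g • e i = e i) (g : G) (u : κ → K) :
    g • Fintype.linearCombination K e u = Fintype.linearCombination K e (fun i => g • u i) := by
  rw [Fintype.linearCombination_apply, Fintype.linearCombination_apply, Finset.smul_sum]
  exact Finset.sum_congr rfl fun i _ => by rw [hsl, hefix]

/-- A `G`-stable subspace of the span of a family of `G`-fixed vectors is spanned by its `G`-fixed
vectors. -/
theorem stable_le_span_fixed_of_span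
    (hsl : ∀ (g : G) (c : K) (v : V), g • (c • v) = (g • c) • (g • v))
    (e : ι → V) (hefix : ∀ (g : G) (i : ι), g • e i = e i)
    (M : Submodule K V) (hMS : M ≤ Submodule.span K (Set.range e))
    (hM : ∀ (g : G) (v : V), v ∈ M → g • v ∈ M) :
    M ≤ Submodule.span K {v : V | v ∈ M ∧ ∀ g : G, g • v = v} := by
  classical
  intro w hw
  obtain ⟨c, hc⟩ := Finsupp.mem_span_range_iff_exists_finsupp.mp (hMS hw)
  set s := c.support with hs
  set φ : (s → K) →ₗ[K] V := Fintype.linearCombination K (fun i : s => e i) with hφ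
  have hφg : ∀ (g : G) (u : s → K), g • φ u = φ (fun i => g • u i) := fun g u =>
    smul_fintype_linearCombination hsl (fun i : s => e i) (fun g i => hefix g i) g u
  have hstab : ∀ (σ : G) (u : s → K), u ∈ M.comap φ → (fun i => σ • u i) ∈ M.comap φ := by
    intro σ u hu
    rw [Submodule.mem_comap] at hu ⊢
    rw [← hφg]
    exact hM σ _ hu
  have hw' : φ (fun i : s => c i) = w := by
    rw [← hc, hφ, Fintype.linearCombination_apply, Finsupp.sum]
    exact Finset.sum_coe_sort s (fun i => c i • e i)
  have hmem : (fun i : s => c i) ∈ M.comap φ := by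
    rw [Submodule.mem_comap, hw']; exact hw
  have h1 := stable_le_span_fixed (M.comap φ) hstab hmem
  have h2 := Submodule.apply_mem_span_image_of_mem_span φ h1
  rw [hw'] at h2
  refine Submodule.span_mono ?_ h2
  rintro _ ⟨u, ⟨huM, hufix⟩, rfl⟩
  refine ⟨huM, fun g => ?_⟩
  rw [hφg]
  congr 1
  funext i
  exact hufix g i

/-- A `G`-fixed linear combination of linearly independent `G`-fixed vectors has `G`-fixed
coefficients. -/
theorem smul_coeff_eq_of_smul_eq
    (hsl : ∀ (g : G) (c : K) (v : V), g • (c • v) = (g • c) • (g • v))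
    (e : ι → V) (he : LinearIndependent K e) (hefix : ∀ (g : G) (i : ι), g • e i = e i)
    (c : ι →₀ K) (g : G)
    (h : g • Finsupp.linearCombination K e c = Finsupp.linearCombination K e c) (i : ι) :
    g • c i = c i := by
  have h1 : g • Finsupp.linearCombination K e c
      = Finsupp.linearCombination K e (c.mapRange (fun a => g • a) (smul_zero g)) := by
    rw [Finsupp.linearCombination_apply, Finsupp.linearCombination_apply, Finsupp.smul_sum,
      Finsupp.sum_mapRange_index (fun a => zero_smul K (e a))]
    exact Finsupp.sum_congr fun j _ => by rw [hsl, hefix]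
  rw [h1] at h
  have h2 := he h
  have h3 := DFunLike.congr_fun h2 i
  rwa [Finsupp.mapRange_apply] at h3

end module

section field

variable {K F G ι : Type*} [Field K] [Field F] [Algebra K F] [Group G]
  [MulSemiringAction G K] [MulSemiringAction G F]

theorem span_mul_mem (e : ι → F)
    (hmul : ∀ i j, e i * e j ∈ Submodule.span K (Set.range e))
    {a b : F} (ha : a ∈ Submodule.span K (Set.range e)) (hb : b ∈ Submodule.span K (Set.range e)) :
    a * b ∈ Submodule.span K (Set.range e) := by
  have h1 : a * b ∈ Submodule.span K (Set.range e) * Submodule.span K (Set.range e) :=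
    Submodule.mul_mem_mul ha hb
  rw [Submodule.span_mul_span] at h1
  refine Submodule.span_le.mpr ?_ h1
  rintro _ ⟨_, ⟨i, rfl⟩, _, ⟨j, rfl⟩, rfl⟩
  exact hmul i j

theorem span_smul_mem
    (hsl : ∀ (g : G) (c : K) (f : F), g • (c • f) = (g • c) • (g • f))
    (e : ι → F) (hefix : ∀ (g : G) (i : ι), g • e i = e i) (g : G)
    {a : F} (ha : a ∈ Submodule.span K (Set.range e)) :
    g • a ∈ Submodule.span K (Set.range e) := by
  induction ha using Submodule.span_induction with
  | mem x hx =>
    obtain ⟨i, rfl⟩ := hx
    rw [hefix]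
    exact Submodule.subset_span ⟨i, rfl⟩
  | zero => rw [smul_zero]; exact Submodule.zero_mem _
  | add x y _ _ hx hy => rw [smul_add]; exact Submodule.add_mem _ hx hy
  | smul c x _ hx => rw [hsl]; exact Submodule.smul_mem _ _ hx

/-- A common denominator in `S = span_K (range e)` for a finite set. -/
theorem exists_common_denominator (e : ι → F)
    (hmul : ∀ i j, e i * e j ∈ Submodule.span K (Set.range e))
    (hfrac : ∀ f : F, ∃ b ∈ Submodule.span K (Set.range e),
      b ≠ 0 ∧ b * f ∈ Submodule.span K (Set.range e))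
    (T : Finset F) :
    ∃ b ∈ Submodule.span K (Set.range e), b ≠ 0 ∧
      ∀ t ∈ T, b * t ∈ Submodule.span K (Set.range e) := by
  classical
  induction T using Finset.induction_on with
  | empty =>
    obtain ⟨b, hb, hb0, -⟩ := hfrac 0
    exact ⟨b, hb, hb0, fun t ht => absurd ht (Finset.notMem_empty t)⟩
  | insert t T _ ih =>
    obtain ⟨b, hb, hb0, hbT⟩ := ih
    obtain ⟨b', hb', hb'0, hb't⟩ := hfrac t
    refine ⟨b' * b, span_mul_mem e hmul hb' hb, mul_ne_zero hb'0 hb0, fun t' ht' => ?_⟩
    rcases Finset.mem_insert.mp ht' with rfl | ht'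
    · have : b' * b * t' = b * (b' * t') := by ring
      rw [this]
      exact span_mul_mem e hmul hb hb't
    · rw [mul_assoc]
      exact span_mul_mem e hmul hb' (hbT t' ht')

/-- A finitely generated `G`-stable `K`-subspace of `F` has a nonzero `G`-fixed common denominator
in `S = span_K (range e)`. -/
theorem exists_fixed_denominator
    (hsl : ∀ (g : G) (c : K) (f : F), g • (c • f) = (g • c) • (g • f))
    (e : ι → F) (hefix : ∀ (g : G) (i : ι), g • e i = e i)
    (hmul : ∀ i j, e i * e j ∈ Submodule.span K (Set.range e))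
    (hfrac : ∀ f : F, ∃ b ∈ Submodule.span K (Set.range e),
      b ≠ 0 ∧ b * f ∈ Submodule.span K (Set.range e))
    (W : Submodule K F) (hfg : W.FG)
    (hW : ∀ (g : G) (w : F), w ∈ W → g • w ∈ W) :
    ∃ b ∈ Submodule.span K (Set.range e), b ≠ 0 ∧ (∀ g : G, g • b = b) ∧
      ∀ w ∈ W, b * w ∈ Submodule.span K (Set.range e) := by
  classical
  set S := Submodule.span K (Set.range e) with hS
  -- the module of denominators
  let I : Submodule K F :=
    { carrier := {b | b ∈ S ∧ ∀ w ∈ W, b * w ∈ S}
      add_mem' := fun {a b} ha hb => ⟨S.add_mem ha.1 hb.1, fun w hw => by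
        rw [add_mul]; exact S.add_mem (ha.2 w hw) (hb.2 w hw)⟩
      zero_mem' := ⟨S.zero_mem, fun w _ => by rw [zero_mul]; exact S.zero_mem⟩
      smul_mem' := fun c {b} hb => ⟨S.smul_mem c hb.1, fun w hw => by
        rw [smul_mul_assoc]; exact S.smul_mem c (hb.2 w hw)⟩ }
  have hIS : I ≤ S := fun b hb => hb.1
  have hIstab : ∀ (g : G) (b : F), b ∈ I → g • b ∈ I := by
    intro g b hb
    refine ⟨span_smul_mem hsl e hefix g hb.1, fun w hw => ?_⟩
    have h1 : g • b * w = g • (b * g⁻¹ • w) := by
      rw [smul_mul', smul_inv_smul]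
    rw [h1]
    exact span_smul_mem hsl e hefix g (hb.2 _ (hW g⁻¹ w hw))
  -- `I ≠ 0`
  obtain ⟨T, hT⟩ := hfg
  obtain ⟨b, hbS, hb0, hbT⟩ := exists_common_denominator e hmul hfrac T
  have hbI : b ∈ I := by
    refine ⟨hbS, fun w hw => ?_⟩
    rw [← hT] at hw
    induction hw using Submodule.span_induction with
    | mem x hx => exact hbT x hx
    | zero => rw [mul_zero]; exact S.zero_mem
    | add x y _ _ hx hy => rw [mul_add]; exact S.add_mem hx hy
    | smul c x _ hx => rw [mul_smul_comm]; exact S.smul_mem c hx
  have hI := stable_le_span_fixed_of_span hsl e hefix I hIS hIstab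
  by_contra hcon
  push Not at hcon
  have hzero : {v : F | v ∈ I ∧ ∀ g : G, g • v = v} ⊆ {0} := by
    rintro v ⟨hvI, hvfix⟩
    by_contra hv0
    obtain ⟨w, hw, hbw⟩ := hcon v hvI.1 hv0 hvfix
    exact hbw (hvI.2 w hw)
  have h2 := Submodule.span_mono (R := K) hzero (hI hbI)
  rw [Submodule.span_singleton_eq_bot.mpr rfl, Submodule.mem_bot] at h2
  exact hb0 h2

/-- **Descent in the fraction field**: a finitely generated `G`-stable `K`-subspace of `F` is
spanned by its `G`-fixed vectors. -/
theorem stable_le_span_fixed_frac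
    (hsl : ∀ (g : G) (c : K) (f : F), g • (c • f) = (g • c) • (g • f))
    (e : ι → F) (hefix : ∀ (g : G) (i : ι), g • e i = e i)
    (hmul : ∀ i j, e i * e j ∈ Submodule.span K (Set.range e))
    (hfrac : ∀ f : F, ∃ b ∈ Submodule.span K (Set.range e),
      b ≠ 0 ∧ b * f ∈ Submodule.span K (Set.range e))
    (W : Submodule K F) (hfg : W.FG)
    (hW : ∀ (g : G) (w : F), w ∈ W → g • w ∈ W) :
    W ≤ Submodule.span K {w : F | w ∈ W ∧ ∀ g : G, g • w = w} := by
  classical
  obtain ⟨b, hbS, hb0, hbfix, hbW⟩ := exists_fixed_denominator hsl e hefix hmul hfrac W hfg hW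
  set W' : Submodule K F := W.map (LinearMap.mulLeft K b) with hW'
  have hW'S : W' ≤ Submodule.span K (Set.range e) := by
    rintro _ ⟨w, hw, rfl⟩
    exact hbW w hw
  have hW'stab : ∀ (g : G) (v : F), v ∈ W' → g • v ∈ W' := by
    rintro g _ ⟨w, hw, rfl⟩
    refine ⟨g • w, hW g w hw, ?_⟩
    rw [LinearMap.mulLeft_apply, LinearMap.mulLeft_apply, smul_mul', hbfix]
  have h1 := stable_le_span_fixed_of_span hsl e hefix W' hW'S hW'stab
  intro w hw
  have h2 : b * w ∈ W' := ⟨w, hw, rfl⟩
  have h3 := Submodule.apply_mem_span_image_of_mem_span (LinearMap.mulLeft K b⁻¹) (h1 h2)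
  rw [LinearMap.mulLeft_apply, inv_mul_cancel_left₀ hb0] at h3
  refine Submodule.span_mono ?_ h3
  rintro _ ⟨_, ⟨⟨w', hw', rfl⟩, hfix⟩, rfl⟩
  rw [LinearMap.mulLeft_apply, LinearMap.mulLeft_apply, inv_mul_cancel_left₀ hb0]
  refine ⟨hw', fun g => ?_⟩
  have h4 := hfix g
  rw [LinearMap.mulLeft_apply, smul_mul', hbfix] at h4
  exact mul_left_cancel₀ hb0 h4

end field

section concrete

universe u

variable {k K F : Type*} {F0 : Type u} {G : Type*} [Field k] [Field K] [Field F0] [Field F]
  [Algebra k K] [Algebra k F0] [Algebra K F] [Algebra F0 F] [Algebra k F]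
  [IsScalarTower k K F] [IsScalarTower k F0 F]
  [Group G] [MulSemiringAction G K] [MulSemiringAction G F]

omit [Group G] [MulSemiringAction G K] [MulSemiringAction G F] in
theorem algebraMap_smul_eq (c : k) (a : F0) :
    algebraMap F0 F (c • a) = algebraMap k K c • algebraMap F0 F a := by
  rw [Algebra.smul_def, map_mul, ← IsScalarTower.algebraMap_apply k F0 F,
    IsScalarTower.algebraMap_apply k K F, Algebra.smul_def]

omit [Group G] [MulSemiringAction G K] [MulSemiringAction G F] in
/-- Linear disjointness from injectivity of `K ⊗[k] F0 → F`. -/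
theorem linearIndependent_algebraMap_of_injective_liftBaseChange
    (hinj : Function.Injective
      ((IsScalarTower.toAlgHom k F0 F).toLinearMap.liftBaseChange K))
    {ι : Type*} (v : ι → F0) (hv : LinearIndependent k v) :
    LinearIndependent K (fun i => algebraMap F0 F (v i)) := by
  have h1 : LinearIndependent K (fun i => (1 : K) ⊗ₜ[k] v i) :=
    Module.Flat.linearIndependent_one_tmul hv
  have h2 := h1.map' ((IsScalarTower.toAlgHom k F0 F).toLinearMap.liftBaseChange K)
    (LinearMap.ker_eq_bot.mpr hinj)
  have h3 : (fun i => algebraMap F0 F (v i))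
      = (⇑((IsScalarTower.toAlgHom k F0 F).toLinearMap.liftBaseChange K) ∘
          fun i => (1 : K) ⊗ₜ[k] v i) := by
    funext i
    simp
  rw [h3]
  exact h2

omit [Group G] [MulSemiringAction G K] [MulSemiringAction G F] in
theorem span_range_algebraMap_basis {ι : Type*} (b : Module.Basis ι k F0) :
    Submodule.span K (Set.range fun i => algebraMap F0 F (b i))
      = Submodule.span K (Set.range (algebraMap F0 F)) := by
  refine le_antisymm (Submodule.span_mono ?_) (Submodule.span_le.mpr ?_)
  · rintro _ ⟨i, rfl⟩
    exact ⟨b i, rfl⟩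
  · rintro _ ⟨a, rfl⟩
    have ha : a ∈ Submodule.span k (Set.range b) := by rw [b.span_eq]; trivial
    induction ha using Submodule.span_induction with
    | mem x hx =>
      obtain ⟨i, rfl⟩ := hx
      exact Submodule.subset_span ⟨i, rfl⟩
    | zero => rw [map_zero]; exact Submodule.zero_mem _
    | add x y _ _ hx hy => rw [map_add]; exact Submodule.add_mem _ hx hy
    | smul c x _ hx => rw [algebraMap_smul_eq (K := K)]; exact Submodule.smul_mem _ _ hx

/-- A `G`-fixed element of `K·F0` lies in `F0`. -/
theorem fixed_mem_range_of_mem_span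
    (hsl : ∀ (g : G) (c : K) (f : F), g • (c • f) = (g • c) • (g • f))
    (hF0 : ∀ (g : G) (a : F0), g • algebraMap F0 F a = algebraMap F0 F a)
    (hk : ∀ c : K, (∀ g : G, g • c = c) → c ∈ (algebraMap k K).range)
    (hdisj : ∀ (ι : Type u) (v : ι → F0), LinearIndependent k v →
      LinearIndependent K (fun i => algebraMap F0 F (v i)))
    (f : F) (hfS : f ∈ Submodule.span K (Set.range (algebraMap F0 F)))
    (hf : ∀ g : G, g • f = f) : f ∈ (algebraMap F0 F).range := by
  classical
  set b := Module.Basis.ofVectorSpace k F0 with hb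
  set e := fun i => algebraMap F0 F (b i) with he
  have hLI : LinearIndependent K e := hdisj _ _ b.linearIndependent
  rw [← span_range_algebraMap_basis b] at hfS
  obtain ⟨c, hc⟩ := Finsupp.mem_span_range_iff_exists_finsupp.mp hfS
  have hcfix : ∀ (g : G) i, g • c i = c i := by
    intro g i
    refine smul_coeff_eq_of_smul_eq hsl e hLI (fun g i => hF0 g _) c g ?_ i
    rw [Finsupp.linearCombination_apply, hc]
    exact hf g
  choose c' hc' using fun i => hk (c i) (fun g => hcfix g i)
  refine ⟨∑ i ∈ c.support, c' i • b i, ?_⟩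
  rw [← hc, Finsupp.sum, map_sum]
  refine Finset.sum_congr rfl fun i _ => ?_
  rw [algebraMap_smul_eq (K := K), hc']

/-- **Fixed field.** If `G` acts on `K` with fixed field `k` and semilinearly on `F ⊇ K·F0` fixing
`F0`, `F0` and `K` are linearly disjoint over `k` and `F` is the fraction field of `K·F0`, then
the fixed field of `G` in `F` is `F0`. -/
theorem fixed_mem_range_of_baseChange
    (hsl : ∀ (g : G) (c : K) (f : F), g • (c • f) = (g • c) • (g • f))
    (hF0 : ∀ (g : G) (a : F0), g • algebraMap F0 F a = algebraMap F0 F a)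
    (hk : ∀ c : K, (∀ g : G, g • c = c) → c ∈ (algebraMap k K).range)
    (hdisj : ∀ (ι : Type u) (v : ι → F0), LinearIndependent k v →
      LinearIndependent K (fun i => algebraMap F0 F (v i)))
    (hfrac : ∀ f : F, ∃ b ∈ Submodule.span K (Set.range (algebraMap F0 F)),
      b ≠ 0 ∧ b * f ∈ Submodule.span K (Set.range (algebraMap F0 F)))
    (f : F) (hf : ∀ g : G, g • f = f) : f ∈ (algebraMap F0 F).range := by
  classical
  set b := Module.Basis.ofVectorSpace k F0 with hb
  set e := fun i => algebraMap F0 F (b i) with he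
  have hS : Submodule.span K (Set.range e) = Submodule.span K (Set.range (algebraMap F0 F)) :=
    span_range_algebraMap_basis b
  have hmul : ∀ i j, e i * e j ∈ Submodule.span K (Set.range e) := by
    intro i j
    rw [hS, he, ← map_mul]
    exact Submodule.subset_span ⟨_, rfl⟩
  have hfrac' : ∀ f : F, ∃ b ∈ Submodule.span K (Set.range e),
      b ≠ 0 ∧ b * f ∈ Submodule.span K (Set.range e) := by
    rw [hS]; exact hfrac
  have hWstab : ∀ (g : G) (w : F), w ∈ Submodule.span K {f} → g • w ∈ Submodule.span K {f} := by
    intro g w hw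
    obtain ⟨c, rfl⟩ := Submodule.mem_span_singleton.mp hw
    rw [hsl, hf]
    exact Submodule.smul_mem _ _ (Submodule.mem_span_singleton_self f)
  obtain ⟨d, hdS, hd0, hdfix, hdW⟩ := exists_fixed_denominator hsl e (fun g i => hF0 g _) hmul
    hfrac' (Submodule.span K {f}) (Submodule.fg_span_singleton f) hWstab
  have hdf := hdW f (Submodule.mem_span_singleton_self f)
  rw [hS] at hdS hdf
  obtain ⟨β, hβ⟩ := fixed_mem_range_of_mem_span hsl hF0 hk hdisj d hdS hdfix
  obtain ⟨α, hα⟩ := fixed_mem_range_of_mem_span hsl hF0 hk hdisj (d * f) hdf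
    (fun g => by rw [smul_mul', hdfix, hf])
  refine ⟨β⁻¹ * α, ?_⟩
  rw [map_mul, map_inv₀, hβ, hα, inv_mul_cancel_left₀ hd0]

/-- **Descent of stable subspaces of `F`.** In the situation of `fixed_mem_range_of_baseChange`,
a finitely generated `G`-stable `K`-subspace `W` of `F` is spanned by `W ∩ F0`. -/
theorem stable_le_span_range_of_baseChange
    (hsl : ∀ (g : G) (c : K) (f : F), g • (c • f) = (g • c) • (g • f))
    (hF0 : ∀ (g : G) (a : F0), g • algebraMap F0 F a = algebraMap F0 F a)
    (hk : ∀ c : K, (∀ g : G, g • c = c) → c ∈ (algebraMap k K).range)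
    (hdisj : ∀ (ι : Type u) (v : ι → F0), LinearIndependent k v →
      LinearIndependent K (fun i => algebraMap F0 F (v i)))
    (hfrac : ∀ f : F, ∃ b ∈ Submodule.span K (Set.range (algebraMap F0 F)),
      b ≠ 0 ∧ b * f ∈ Submodule.span K (Set.range (algebraMap F0 F)))
    (W : Submodule K F) (hfg : W.FG)
    (hW : ∀ (g : G) (w : F), w ∈ W → g • w ∈ W) :
    W ≤ Submodule.span K {w : F | w ∈ W ∧ w ∈ (algebraMap F0 F).range} := by
  classical
  set b := Module.Basis.ofVectorSpace k F0 with hb
  set e := fun i => algebraMap F0 F (b i) with he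
  have hS : Submodule.span K (Set.range e) = Submodule.span K (Set.range (algebraMap F0 F)) :=
    span_range_algebraMap_basis b
  have hmul : ∀ i j, e i * e j ∈ Submodule.span K (Set.range e) := by
    intro i j
    rw [hS, he, ← map_mul]
    exact Submodule.subset_span ⟨_, rfl⟩
  have hfrac' : ∀ f : F, ∃ b ∈ Submodule.span K (Set.range e),
      b ≠ 0 ∧ b * f ∈ Submodule.span K (Set.range e) := by
    rw [hS]; exact hfrac
  refine (stable_le_span_fixed_frac hsl e (fun g i => hF0 g _) hmul hfrac' W hfg hW).trans
    (Submodule.span_mono ?_)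
  rintro w ⟨hwW, hwfix⟩
  exact ⟨hwW, fixed_mem_range_of_baseChange hsl hF0 hk hdisj hfrac w hwfix⟩

/-- **Dimension is preserved**: in the situation of `fixed_mem_range_of_baseChange`, for a
finitely generated `G`-stable `K`-subspace `W` of `F`, `dim_K W = dim_k (W ∩ F0)`. -/
theorem finrank_comap_eq_of_baseChange
    (hsl : ∀ (g : G) (c : K) (f : F), g • (c • f) = (g • c) • (g • f))
    (hF0 : ∀ (g : G) (a : F0), g • algebraMap F0 F a = algebraMap F0 F a)
    (hk : ∀ c : K, (∀ g : G, g • c = c) → c ∈ (algebraMap k K).range)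
    (hdisj : ∀ (ι : Type u) (v : ι → F0), LinearIndependent k v →
      LinearIndependent K (fun i => algebraMap F0 F (v i)))
    (hfrac : ∀ f : F, ∃ b ∈ Submodule.span K (Set.range (algebraMap F0 F)),
      b ≠ 0 ∧ b * f ∈ Submodule.span K (Set.range (algebraMap F0 F)))
    (W : Submodule K F) (hfg : W.FG)
    (hW : ∀ (g : G) (w : F), w ∈ W → g • w ∈ W) :
    Module.finrank k ((W.restrictScalars k).comap (IsScalarTower.toAlgHom k F0 F).toLinearMap)
      = Module.finrank K W := by
  classical
  set W0 : Submodule k F0 :=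
    (W.restrictScalars k).comap (IsScalarTower.toAlgHom k F0 F).toLinearMap with hW0
  have hmemW0 : ∀ a : F0, a ∈ W0 ↔ algebraMap F0 F a ∈ W := fun a => Iff.rfl
  set b0 := Module.Basis.ofVectorSpace k W0 with hb0
  set v : _ → F0 := fun i => (b0 i : F0) with hv
  have hvLI : LinearIndependent k v :=
    b0.linearIndependent.map' W0.subtype (Submodule.ker_subtype W0)
  have hLI : LinearIndependent K (fun i => algebraMap F0 F (v i)) := hdisj _ v hvLI
  have hmem : ∀ i, algebraMap F0 F (v i) ∈ W := fun i => (hmemW0 _).mp (b0 i).2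
  -- the family `i ↦ ⟨algebraMap (v i), _⟩` in `W`
  set e' : _ → W := fun i => ⟨algebraMap F0 F (v i), hmem i⟩ with he'
  have he'LI : LinearIndependent K e' := by
    refine LinearIndependent.of_comp W.subtype ?_
    exact hLI
  have hspan : ⊤ ≤ Submodule.span K (Set.range e') := by
    rintro ⟨w, hw⟩ -
    have h1 := stable_le_span_range_of_baseChange hsl hF0 hk hdisj hfrac W hfg hW hw
    -- every element of `W ∩ F0` is in the span of `e'`
    have h2 : Submodule.span K {w : F | w ∈ W ∧ w ∈ (algebraMap F0 F).range}
        ≤ (Submodule.span K (Set.range e')).map W.subtype := by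
      refine Submodule.span_le.mpr ?_
      rintro _ ⟨hwW, a, rfl⟩
      have ha : (⟨a, (hmemW0 a).mpr hwW⟩ : W0) ∈ Submodule.span k (Set.range b0) := by
        rw [b0.span_eq]; trivial
      have key : ∀ x : W0, x ∈ Submodule.span k (Set.range b0) →
          algebraMap F0 F (x : F0) ∈ (Submodule.span K (Set.range e')).map W.subtype := by
        intro x hx
        induction hx using Submodule.span_induction with
        | mem x hx =>
          obtain ⟨i, rfl⟩ := hx
          exact ⟨e' i, Submodule.subset_span ⟨i, rfl⟩, rfl⟩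
        | zero => rw [Submodule.coe_zero, map_zero]; exact Submodule.zero_mem _
        | add x y _ _ hx hy => rw [Submodule.coe_add, map_add]; exact Submodule.add_mem _ hx hy
        | smul c x _ hx =>
          rw [Submodule.coe_smul, algebraMap_smul_eq (K := K)]
          exact Submodule.smul_mem _ _ hx
      exact key _ ha
    obtain ⟨y, hy, hyw⟩ := h2 h1
    have : y = ⟨w, hw⟩ := Subtype.ext hyw
    rw [← this]
    exact hy
  have hbasis : Module.Basis _ K W := Module.Basis.mk he'LI hspan
  rw [Module.finrank_eq_nat_card_basis hbasis, Module.finrank_eq_nat_card_basis b0]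

end concrete

end Fermat.Agent.S27.H3314
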