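/-
S27, package F2 (core, pure Mathlib): automorphisms of an algebraically closed field `K` over a
subfield `k` move every transcendental element.  For `c : K` transcendental over `k` and `a : k`
there is a `k`-automorphism of `K` with `c ↦ c + a`; hence the orbit of `c` under `K ≃ₐ[k] K`
is infinite in characteristic zero, and (for `k` algebraically closed) the fixed field of
`K ≃ₐ[k] K` is `k`.
-/
import Mathlib

set_option autoImplicit false

namespace Fermat.Agent.S27.FieldAut

open MvPolynomial

variable {k K : Type*} [Field k] [Field K] [Algebra k K]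

/-- The shift `X i₀ ↦ X i₀ + a` of a polynomial ring, as an algebra automorphism. -/
noncomputable def shiftAlgEquiv {ι : Type*} [DecidableEq ι] (i₀ : ι) (a : k) :
    MvPolynomial ι k ≃ₐ[k] MvPolynomial ι k :=
  AlgEquiv.ofAlgHom (aeval fun i => if i = i₀ then X i + C a else X i)
    (aeval fun i => if i = i₀ then X i - C a else X i)
    (by
      ext i
      by_cases h : i = i₀ <;> simp [h])
    (by
      ext i
      by_cases h : i = i₀ <;> simp [h])

theorem shiftAlgEquiv_X_self {ι : Type*} [DecidableEq ι] (i₀ : ι) (a : k) :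
    shiftAlgEquiv i₀ a (X i₀ : MvPolynomial ι k) = X i₀ + C a := by
  simp [shiftAlgEquiv]

/-- A transcendental element of an algebraically closed extension can be translated by any
constant by an automorphism over the base field. -/
theorem exists_algEquiv_apply_eq_add [IsAlgClosed K] {c : K} (hc : Transcendental k c) (a : k) :
    ∃ σ : K ≃ₐ[k] K, σ c = c + algebraMap k K a := by
  classical
  have hs : AlgebraicIndepOn k id ({c} : Set K) := by
    have h1 : AlgebraicIndependent k (fun _ : Unit => c) :=
      (algebraicIndependent_unique_type_iff (R := k) (x := fun _ : Unit => c)).2 hc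
    have h2 := h1.comp (fun _ : ({c} : Set K) => ()) (fun x y _ => Subtype.ext (x.2.trans y.2.symm))
    have h3 : ((fun _ : Unit => c) ∘ fun _ : ({c} : Set K) => ()) = fun x : ({c} : Set K) => id (x : K) := by
      funext x
      exact x.2.symm
    rw [h3] at h2
    exact h2
  obtain ⟨t, hct, ht⟩ := exists_isTranscendenceBasis_superset hs
  have hcmem : c ∈ t := hct rfl
  let i₀ : t := ⟨c, hcmem⟩
  have hai : AlgebraicIndependent k ((↑) : t → K) := ht.1
  have := IsAlgClosed.isAlgClosure_of_transcendence_basis ((↑) : t → K) ht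
  let e₀ : Algebra.adjoin k (Set.range ((↑) : t → K)) ≃ₐ[k] Algebra.adjoin k (Set.range ((↑) : t → K)) :=
    (hai.aevalEquiv.symm.trans (shiftAlgEquiv i₀ a)).trans hai.aevalEquiv
  let τ : K ≃+* K := IsAlgClosure.equivOfEquiv K K e₀.toRingEquiv
  have hτ : ∀ s : Algebra.adjoin k (Set.range ((↑) : t → K)), τ (s : K) = ((e₀ s : _) : K) := by
    intro s
    exact IsAlgClosure.equivOfEquiv_algebraMap K K e₀.toRingEquiv s
  have hτk : ∀ r : k, τ (algebraMap k K r) = algebraMap k K r := by
    intro r
    have h1 := hτ (algebraMap k _ r)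
    rw [e₀.commutes] at h1
    exact h1
  refine ⟨AlgEquiv.ofRingEquiv (f := τ) hτk, ?_⟩
  show τ c = c + algebraMap k K a
  have hX : hai.aevalEquiv (X i₀) = ⟨c, Algebra.subset_adjoin ⟨i₀, rfl⟩⟩ := by
    apply Subtype.ext
    exact (hai.algebraMap_aevalEquiv (X i₀)).trans (by simp [i₀])
  have h1 := hτ ⟨c, Algebra.subset_adjoin ⟨i₀, rfl⟩⟩
  have h2 : e₀ ⟨c, Algebra.subset_adjoin ⟨i₀, rfl⟩⟩
      = ⟨c, Algebra.subset_adjoin ⟨i₀, rfl⟩⟩ + algebraMap k _ a := by
    rw [← hX]
    show hai.aevalEquiv (shiftAlgEquiv i₀ a (hai.aevalEquiv.symm (hai.aevalEquiv (X i₀)))) = _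
    rw [AlgEquiv.symm_apply_apply, shiftAlgEquiv_X_self, map_add]
    congr 1
    exact (hai.aevalEquiv).commutes a
  rw [h2] at h1
  exact h1

/-- Over an algebraically closed base field, every element outside the base is transcendental. -/
theorem transcendental_of_not_mem_range [IsAlgClosed k] {c : K}
    (hc : c ∉ (algebraMap k K).range) : Transcendental k c := by
  intro halg
  exact hc (minpoly.mem_range_of_degree_eq_one k c
    (IsAlgClosed.degree_eq_one_of_irreducible k (minpoly.irreducible halg.isIntegral)))

/-- The fixed field of `K ≃ₐ[k] K` is `k` when both fields are algebraically closed. -/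
theorem mem_range_of_forall_algEquiv_apply_eq [IsAlgClosed k] [IsAlgClosed K] {c : K}
    (h : ∀ σ : K ≃ₐ[k] K, σ c = c) : c ∈ (algebraMap k K).range := by
  by_contra hc
  obtain ⟨σ, hσ⟩ := exists_algEquiv_apply_eq_add (transcendental_of_not_mem_range hc) (1 : k)
  rw [h σ, map_one] at hσ
  exact one_ne_zero (left_eq_add.mp hσ)

/-- In characteristic zero the orbit of a transcendental element under `K ≃ₐ[k] K` is infinite. -/
theorem infinite_orbit_of_transcendental [IsAlgClosed K] [CharZero k] {c : K}
    (hc : Transcendental k c) : (Set.range fun σ : K ≃ₐ[k] K => σ c).Infinite := by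
  have hinj : Function.Injective fun n : ℕ => c + algebraMap k K (n : k) := by
    intro m n hmn
    have h1 : algebraMap k K (m : k) = algebraMap k K (n : k) := add_left_cancel hmn
    exact_mod_cast (algebraMap k K).injective h1
  refine (Set.infinite_range_of_injective hinj).mono ?_
  rintro _ ⟨n, rfl⟩
  obtain ⟨σ, hσ⟩ := exists_algEquiv_apply_eq_add hc (n : k)
  exact ⟨σ, hσ⟩

/-- In characteristic zero, with both fields algebraically closed, an element with finite orbit
under `K ≃ₐ[k] K` lies in `k`. -/
theorem mem_range_of_finite_orbit [IsAlgClosed k] [IsAlgClosed K] [CharZero k] {c : K}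
    (h : (Set.range fun σ : K ≃ₐ[k] K => σ c).Finite) : c ∈ (algebraMap k K).range := by
  by_contra hc
  exact infinite_orbit_of_transcendental (transcendental_of_not_mem_range hc) h

end Fermat.Agent.S27.FieldAut
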