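import Mathlib
import Fermat.Prelude.Def_AlgebraicCurve_BaseChangeGalois
import Fermat.Prelude.Def_AlgebraicCurve_IsCurveOver
import Fermat.Prelude.Def_AlgebraicCurve_Repartitions

/-!
# S27, package F, leaf L3 (Galois descent of torsion classes) — abstract core (helper7634)

Setting (Prelude language only): `K` a field, `F/K` with principal divisors of degree `0`, all places
of degree one, finite-dimensional Riemann–Roch spaces and a Riemann inequality
`deg D + 1 - γ ≤ l(D)`.  `G` is a subgroup of `SemilinearAut K F` (e.g. `Aut_k(K)` acting on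
`F = F₀K`), `Rat` a set of places ("rational places") such that

* `Rat` is infinite and every element of `G` fixes every place of `Rat`;
* every place with finite `G`-orbit belongs to `Rat`.

Then every class `z : Pic0 K F` with finite `G`-orbit (in particular every `n`-torsion class when
`Pic0.torsion K F n` is finite) is represented by a degree-zero divisor supported on `Rat`.
-/

set_option autoImplicit false

namespace Fermat.Agent.S27.L3h7634

open AlgebraicCurve

variable {K F : Type*} [Field K] [Field F] [Algebra K F]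

/-- Nonzero constants have order zero at every place. -/
theorem ord_algebraMap (v : Place K F) {c : K} (hc : c ≠ 0) : v.ord (algebraMap K F c) = 0 := by
  have h1 : 0 ≤ v.ord (algebraMap K F c) := by
    rcases (v.adicValuation_le_one_iff).mp (v.adicValuation_algebraMap_le_one c) with h | h
    · exact absurd h (by simpa using hc)
    · exact h
  have h2 : 0 ≤ v.ord (algebraMap K F c⁻¹) := by
    rcases (v.adicValuation_le_one_iff).mp (v.adicValuation_algebraMap_le_one c⁻¹) with h | h
    · exact absurd h (by simpa using hc)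
    · exact h
  rw [map_inv₀, v.ord_inv] at h2
  omega

/-- Elements of nonnegative order lie in the valuation ring. -/
theorem mem_of_ord_nonneg (v : Place K F) {x : F} (hx : x ≠ 0) (h : 0 ≤ v.ord x) :
    x ∈ v.toValuationSubring := by
  obtain ⟨π, hπ⟩ := IsDiscreteValuationRing.exists_irreducible v.toValuationSubring
  obtain ⟨u, hu⟩ := v.exists_unit_mul_zpow hx hπ
  obtain ⟨n, hn⟩ := Int.eq_ofNat_of_zero_le h
  rw [hu, hn, zpow_natCast]
  exact v.toValuationSubring.mul_mem _ _ (u : v.toValuationSubring).2
    (pow_mem π.2 n)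

/-- Nonzero elements of the maximal ideal have order at least one. -/
theorem one_le_ord_of_mem_maximalIdeal (v : Place K F) (a : v.toValuationSubring)
    (ha : a ∈ IsLocalRing.maximalIdeal v.toValuationSubring) (ha0 : (a : F) ≠ 0) :
    1 ≤ v.ord (a : F) := by
  have h1 : v.adicValuation (a : F) ≤ 1 := v.adicValuation_le_one_of_mem a.2
  have h2 : v.adicValuation (a : F) ≠ 1 := by
    rw [ne_eq, v.adicValuation_coe_eq_one_iff]
    exact (IsLocalRing.mem_maximalIdeal a).mp ha
  have h3 : v.adicValuation (a : F) < 1 := lt_of_le_of_ne h1 h2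
  rw [v.adicValuation_eq_exp_neg_ord ha0, ← WithZero.exp_zero, WithZero.exp_lt_exp] at h3
  omega

/-- At a place of degree one, the leading term of `h` relative to `f` is a constant. -/
theorem exists_sub_smul_ord_gt (v : Place K F) (hv : v.deg = 1) {f h : F} (hf : f ≠ 0)
    (hh : h = 0 ∨ v.ord f ≤ v.ord h) :
    ∃ c : K, h - c • f = 0 ∨ v.ord f + 1 ≤ v.ord (h - c • f) := by
  rcases eq_or_ne h 0 with rfl | hh0
  · exact ⟨0, Or.inl (by simp)⟩
  have hle : v.ord f ≤ v.ord h := hh.resolve_left hh0
  set u : F := h * f⁻¹ with hu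
  have hu0 : u ≠ 0 := mul_ne_zero hh0 (inv_ne_zero hf)
  have hordu : v.ord u = v.ord h - v.ord f := by
    rw [hu, v.ord_mul hh0 (inv_ne_zero hf), v.ord_inv]; ring
  have humem : u ∈ v.toValuationSubring := mem_of_ord_nonneg v hu0 (by rw [hordu]; omega)
  have hfin : Module.finrank K v.ResidueField = 1 := hv
  obtain ⟨c, hc⟩ := (finrank_eq_one_iff_of_nonzero' (1 : v.ResidueField) one_ne_zero).mp hfin
    (IsLocalRing.residue _ ⟨u, humem⟩)
  refine ⟨c, ?_⟩
  set a : v.toValuationSubring := ⟨u, humem⟩ - algebraMap K v.toValuationSubring c with ha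
  have hamem : a ∈ IsLocalRing.maximalIdeal v.toValuationSubring := by
    rw [← IsLocalRing.residue_eq_zero_iff, ha, map_sub, sub_eq_zero, ← hc, Algebra.smul_def,
      mul_one]
    rfl
  have hcoe : (a : F) = u - algebraMap K F c := by
    simp [ha]
  have hkey : h - c • f = (a : F) * f := by
    rw [hcoe, hu, Algebra.smul_def]; field_simp
  rcases eq_or_ne (a : F) 0 with ha0 | ha0
  · left; rw [hkey, ha0, zero_mul]
  · right
    rw [hkey, v.ord_mul ha0 hf]
    have := one_le_ord_of_mem_maximalIdeal v a hamem ha0
    omega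

theorem riemannRochSpace_mono' {D D' : Divisor K F} (h : ∀ v, D v ≤ D' v) :
    riemannRochSpace D ≤ riemannRochSpace D' := by
  intro f hf
  rw [mem_riemannRochSpace_iff] at hf ⊢
  intro v
  rcases hf v with h0 | h1
  · exact Or.inl h0
  · exact Or.inr (by have := h v; omega)

/-- Cutting `L(E)` by a degree-one place at which some section has exact order `-E(Q)` lowers the
dimension by exactly one. -/
theorem finrank_sub_single (E : Divisor K F) (Q : Place K F) (hQ : Q.deg = 1)
    [FiniteDimensional K (riemannRochSpace E)] {f : F} (hf : f ≠ 0)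
    (hfE : f ∈ riemannRochSpace E) (hfQ : Q.ord f = - E Q) :
    Module.finrank K (riemannRochSpace (E - Finsupp.single Q 1)) + 1
      = Module.finrank K (riemannRochSpace E) := by
  classical
  have hle : riemannRochSpace (E - Finsupp.single Q 1) ≤ riemannRochSpace E :=
    riemannRochSpace_mono' (fun v => by
      rw [Finsupp.sub_apply, Finsupp.single_apply]
      split_ifs <;> omega)
  have hfL' : f ∉ riemannRochSpace (E - Finsupp.single Q 1) := by
    intro hmem
    rw [mem_riemannRochSpace_iff] at hmem
    rcases hmem Q with h0 | h1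
    · exact hf h0
    · rw [Finsupp.sub_apply, Finsupp.single_eq_same, hfQ] at h1
      omega
  have hsup : riemannRochSpace E ≤ riemannRochSpace (E - Finsupp.single Q 1) ⊔ K ∙ f := by
    intro h hh
    have hh' := mem_riemannRochSpace_iff.mp hh
    obtain ⟨c, hc⟩ := exists_sub_smul_ord_gt Q hQ hf (h := h) (by
      rcases hh' Q with h0 | h1
      · exact Or.inl h0
      · exact Or.inr (by rw [hfQ]; exact h1))
    have hmem : h - c • f ∈ riemannRochSpace (E - Finsupp.single Q 1) := by
      rw [mem_riemannRochSpace_iff]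
      intro v
      by_cases hv : v = Q
      · subst hv
        rcases hc with h0 | h1
        · exact Or.inl h0
        · right
          rw [Finsupp.sub_apply, Finsupp.single_eq_same]
          rw [hfQ] at h1; omega
      · have h2 : h - c • f ∈ riemannRochSpace E :=
          (riemannRochSpace E).sub_mem hh ((riemannRochSpace E).smul_mem c hfE)
        rcases (mem_riemannRochSpace_iff.mp h2) v with h0 | h1
        · exact Or.inl h0
        · right
          rw [Finsupp.sub_apply, Finsupp.single_apply, if_neg (Ne.symm hv), sub_zero]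
          exact h1
    have : h = (h - c • f) + c • f := by ring
    rw [this]
    exact Submodule.add_mem _ (Submodule.mem_sup_left hmem)
      (Submodule.mem_sup_right (Submodule.smul_mem _ c (Submodule.mem_span_singleton_self f)))
  have heq : riemannRochSpace E = riemannRochSpace (E - Finsupp.single Q 1) ⊔ K ∙ f :=
    le_antisymm hsup (sup_le hle ((Submodule.span_singleton_le_iff_mem f _).mpr hfE))
  have : FiniteDimensional K (riemannRochSpace (E - Finsupp.single Q 1)) :=
    Submodule.finiteDimensional_of_le hle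
  have hdisj : riemannRochSpace (E - Finsupp.single Q 1) ⊓ K ∙ f = ⊥ := by
    rw [← disjoint_iff]
    exact (Submodule.disjoint_span_singleton' hf).mpr hfL'
  have h1 := Submodule.finrank_sup_add_finrank_inf_eq
    (riemannRochSpace (E - Finsupp.single Q 1)) (K ∙ f)
  rw [hdisj, finrank_bot, add_zero, finrank_span_singleton hf, ← heq] at h1
  exact h1.symm

/-- Divisors supported on a set of places. -/
def suppOn (Rat : Set (Place K F)) : AddSubgroup (Divisor K F) where
  carrier := {D | ∀ P, P ∉ Rat → D P = 0}
  zero_mem' := fun _ _ => rfl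
  add_mem' := fun {a b} ha hb P hP => by
    rw [Finsupp.add_apply, ha P hP, hb P hP, add_zero]
  neg_mem' := fun {a} ha P hP => by
    rw [Finsupp.neg_apply, ha P hP, neg_zero]

theorem single_mem_suppOn {Rat : Set (Place K F)} {Q : Place K F} (hQ : Q ∈ Rat) (n : ℤ) :
    Finsupp.single Q n ∈ suppOn Rat := by
  classical
  intro P hP
  rw [Finsupp.single_apply, if_neg]
  rintro rfl
  exact hP hQ

/-- Successive cuts at rational places bring the dimension of `L(E)` down to one. -/
theorem exists_cut [HasPrincipalDivisors K F] (hdeg : ∀ v : Place K F, v.deg = 1)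
    (hfd : ∀ D : Divisor K F, FiniteDimensional K (riemannRochSpace D))
    (Rat : Set (Place K F)) (hinf : Rat.Infinite) (m : ℕ) :
    ∀ E : Divisor K F, Module.finrank K (riemannRochSpace E) = m + 1 →
      ∃ B : Divisor K F, B ∈ suppOn Rat ∧
        Module.finrank K (riemannRochSpace (E - B)) = 1 := by
  classical
  induction m with
  | zero =>
    intro E hE
    exact ⟨0, zero_mem _, by rw [sub_zero]; simpa using hE⟩
  | succ m ih =>
    intro E hE
    have := hfd E
    have hpos : 0 < Module.finrank K (riemannRochSpace E) := by omega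
    obtain ⟨x, hx⟩ := Module.finrank_pos_iff_exists_ne_zero.mp hpos
    have hf : (x : F) ≠ 0 := fun h => hx (Subtype.ext h)
    obtain ⟨Df, hDf, -⟩ := HasPrincipalDivisors.exists_divisor (K := K) (x : F) hf
    obtain ⟨Q, hQR, hQn⟩ := (hinf.sdiff (E.support ∪ Df.support).finite_toSet).nonempty
    have hQE : E Q = 0 := by
      by_contra h
      exact hQn (Finset.mem_coe.mpr
        (Finset.mem_union_left _ (Finsupp.mem_support_iff.mpr h)))
    have hQf : Q.ord (x : F) = 0 := by
      by_contra h
      exact hQn (Finset.mem_coe.mpr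
        (Finset.mem_union_right _ (Finsupp.mem_support_iff.mpr (by rw [hDf]; exact h))))
    have hcut := finrank_sub_single E Q (hdeg Q) hf x.2 (by rw [hQf, hQE, neg_zero])
    obtain ⟨B', hB', hB'1⟩ := ih (E - Finsupp.single Q 1) (by omega)
    refine ⟨Finsupp.single Q 1 + B', add_mem (single_mem_suppOn hQR 1) hB', ?_⟩
    rw [← sub_sub]
    exact hB'1

/-- A divisor all of whose points are fixed is fixed. -/
theorem smul_eq_self_of_fix (g : SemilinearAut K F) (D : Divisor K F)
    (h : ∀ P, D P ≠ 0 → g • P = P) : g • D = D := by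
  rw [SemilinearAut.divisor_smul_def]
  conv_rhs => rw [← Finsupp.mapDomain_id (v := D)]
  exact Finsupp.mapDomain_congr (fun P hP => h P (Finsupp.mem_support_iff.mp hP))

/-- **L3, abstract core.** A class with finite `G`-orbit has a representative supported on the
rational places. -/
theorem exists_rational_rep_of_finite_orbit [HasPrincipalDivisors K F]
    (hdeg : ∀ v : Place K F, v.deg = 1)
    (hfd : ∀ D : Divisor K F, FiniteDimensional K (riemannRochSpace D))
    (γ : ℤ)
    (hRiem : ∀ D : Divisor K F,
      Divisor.degree D + 1 - γ ≤ (Module.finrank K (riemannRochSpace D) : ℤ))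
    (G : Subgroup (SemilinearAut K F)) (Rat : Set (Place K F)) (hinf : Rat.Infinite)
    (hfix : ∀ g ∈ G, ∀ P ∈ Rat, g • P = P)
    (horb : ∀ P : Place K F,
      (Set.range fun g : G => (g : SemilinearAut K F) • P).Finite → P ∈ Rat)
    (z : Pic0 K F)
    (hz : (Set.range fun g : G => (g : SemilinearAut K F) • z).Finite) :
    ∃ D : Divisor.degZero (K := K) (F := F),
      Pic0.mk D = z ∧ ∀ P ∈ (D : Divisor K F).support, P ∈ Rat := by
  classical
  obtain ⟨Dz, rfl⟩ := Pic0.mk_surjective z
  obtain ⟨P0, hP0⟩ := hinf.nonempty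
  set g0 : ℕ := γ.toNat with hg0
  set D0 : Divisor K F := (Dz : Divisor K F) + g0 • Finsupp.single P0 (1 : ℤ) with hD0
  have hdegD0 : Divisor.degree D0 = g0 := by
    have hDz : Divisor.degree (Dz : Divisor K F) = 0 := Dz.2
    rw [hD0, map_add, map_nsmul, Divisor.degree_single, hdeg P0, hDz]
    simp
  have := hfd D0
  have hpos : 1 ≤ Module.finrank K (riemannRochSpace D0) := by
    have h := hRiem D0
    rw [hdegD0] at h
    have : γ ≤ (g0 : ℤ) := Int.self_le_toNat γ
    omega
  obtain ⟨m, hm⟩ : ∃ m, Module.finrank K (riemannRochSpace D0) = m + 1 :=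
    ⟨_, (Nat.sub_add_cancel hpos).symm⟩
  obtain ⟨B, hB, hB1⟩ := exists_cut hdeg hfd Rat hinf m D0 hm
  set R : Divisor K F := g0 • Finsupp.single P0 (1 : ℤ) - B with hR
  have hRmem : R ∈ suppOn Rat := sub_mem (nsmul_mem (single_mem_suppOn hP0 1) g0) hB
  have hE1 : D0 - B = (Dz : Divisor K F) + R := by rw [hD0, hR]; abel
  rw [hE1] at hB1
  set E1 : Divisor K F := (Dz : Divisor K F) + R with hE1def
  have := hfd E1
  obtain ⟨x, hx⟩ := Module.finrank_pos_iff_exists_ne_zero.mp
    (by rw [hB1]; exact one_pos : 0 < Module.finrank K (riemannRochSpace E1))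
  have hf : (x : F) ≠ 0 := fun h => hx (Subtype.ext h)
  obtain ⟨Df, hDf, hDfdeg⟩ := HasPrincipalDivisors.exists_divisor (K := K) (x : F) hf
  set Dstar : Divisor K F := (Dz : Divisor K F) + Df with hDstar
  have hDstar0 : Dstar ∈ Divisor.degZero (K := K) (F := F) := by
    rw [Divisor.mem_degZero, hDstar, map_add, hDfdeg, add_zero]
    exact Dz.2
  -- invariance of `Dstar` under the stabiliser of the class
  have hinv : ∀ g ∈ G, g • Pic0.mk Dz = Pic0.mk Dz → g • Dstar = Dstar := by
    intro g hg hgz
    rw [SemilinearAut.pic0_smul_mk] at hgz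
    have hp : -(SemilinearAut.degZeroSMulHom g Dz) + Dz ∈
        (Divisor.principal (K := K) (F := F)).addSubgroupOf Divisor.degZero :=
      QuotientAddGroup.eq.mp hgz
    rw [AddSubgroup.mem_addSubgroupOf] at hp
    obtain ⟨u, hu0, hu⟩ := hp
    have hu' : ∀ v : Place K F,
        (Dz : Divisor K F) v - (g • (Dz : Divisor K F)) v = v.ord u := by
      intro v
      rw [← hu v]
      simp only [AddSubgroup.coe_add, NegMemClass.coe_neg, SemilinearAut.coe_degZeroSMulHom,
        Finsupp.add_apply, Finsupp.neg_apply]
      ring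
    have hgR : g • R = R := smul_eq_self_of_fix g R
      (fun P hP => hfix g hg P (by_contra fun hn => hP (hRmem P hn)))
    have hgf0 : g • (x : F) ≠ 0 := by simpa using hf
    have hordg : ∀ v : Place K F, v.ord (g • (x : F)) = (g⁻¹ • v).ord (x : F) := by
      intro v
      have h := SemilinearAut.ord_smul g (g⁻¹ • v) (x : F)
      rwa [smul_inv_smul] at h
    have hmem : g • (x : F) * u⁻¹ ∈ riemannRochSpace E1 := by
      rw [mem_riemannRochSpace_iff]
      intro v
      right
      rw [v.ord_mul hgf0 (inv_ne_zero hu0), v.ord_inv, hordg v]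
      have h1 := ((mem_riemannRochSpace_iff.mp x.2) (g⁻¹ • v)).resolve_left hf
      have h2 : E1 (g⁻¹ • v) = (g • (Dz : Divisor K F)) v + R v := by
        rw [← SemilinearAut.divisor_smul_apply, hE1def, smul_add, hgR, Finsupp.add_apply]
      have h3 := hu' v
      have h4 : E1 v = (Dz : Divisor K F) v + R v := by rw [hE1def, Finsupp.add_apply]
      rw [h2] at h1
      omega
    obtain ⟨c, hc⟩ := (finrank_eq_one_iff_of_nonzero' x hx).mp hB1 ⟨_, hmem⟩
    have hc' : c • (x : F) = g • (x : F) * u⁻¹ := congrArg Subtype.val hc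
    have hc0 : c ≠ 0 := by
      rintro rfl
      rw [zero_smul] at hc'
      exact mul_ne_zero hgf0 (inv_ne_zero hu0) hc'.symm
    have hord : ∀ v : Place K F, v.ord (g • (x : F)) - v.ord u = v.ord (x : F) := by
      intro v
      have := congrArg v.ord hc'
      rw [Algebra.smul_def, v.ord_mul ((map_ne_zero _).mpr hc0) hf, ord_algebraMap v hc0,
        zero_add, v.ord_mul hgf0 (inv_ne_zero hu0), v.ord_inv] at this
      omega
    ext v
    rw [SemilinearAut.divisor_smul_apply, hDstar, Finsupp.add_apply, Finsupp.add_apply, hDf,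
      hDf, ← hordg v]
    have h2 : (Dz : Divisor K F) (g⁻¹ • v) = (g • (Dz : Divisor K F)) v :=
      (SemilinearAut.divisor_smul_apply g _ v).symm
    have h3 := hu' v
    have h4 := hord v
    omega
  refine ⟨⟨Dstar, hDstar0⟩, ?_, ?_⟩
  · apply QuotientAddGroup.eq.mpr
    rw [AddSubgroup.mem_addSubgroupOf]
    have hcoe : ((-(⟨Dstar, hDstar0⟩ : Divisor.degZero (K := K) (F := F)) + Dz :
        Divisor.degZero (K := K) (F := F)) : Divisor K F) = -Df := by
      simp [hDstar]
    rw [hcoe]
    exact neg_mem ⟨(x : F), hf, hDf⟩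
  · intro P hP
    apply horb
    set O := Set.range fun g : G => (g : SemilinearAut K F) • Pic0.mk Dz with hO
    have hsel : ∀ w : Pic0 K F, ∃ g : G, w ∈ O → (g : SemilinearAut K F) • Pic0.mk Dz = w := by
      intro w
      by_cases hw : w ∈ O
      · obtain ⟨g, hg⟩ := hw
        exact ⟨g, fun _ => hg⟩
      · exact ⟨1, fun h => absurd h hw⟩
    choose gsel hgsel using hsel
    have hsub : (Set.range fun g : G => (g : SemilinearAut K F) • P) ⊆
        ⋃ w ∈ O, (fun Q : Place K F => (gsel w : SemilinearAut K F) • Q) ''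
          (Dstar.support : Set (Place K F)) := by
      rintro _ ⟨g, rfl⟩
      have hw : (g : SemilinearAut K F) • Pic0.mk Dz ∈ O := ⟨g, rfl⟩
      have hgw := hgsel _ hw
      set w := (g : SemilinearAut K F) • Pic0.mk Dz with hwdef
      set h : SemilinearAut K F := (gsel w : SemilinearAut K F)⁻¹ * (g : SemilinearAut K F)
        with hh
      have hhG : h ∈ G := G.mul_mem (G.inv_mem (gsel w).2) g.2
      have hhz : h • Pic0.mk Dz = Pic0.mk Dz := by
        rw [hh, mul_smul, ← hwdef, inv_smul_eq_iff]
        exact hgw.symm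
      have hhD := hinv h hhG hhz
      refine Set.mem_biUnion hw ⟨h • P, ?_, ?_⟩
      · rw [Finset.mem_coe, Finsupp.mem_support_iff, ← hhD,
          SemilinearAut.divisor_smul_apply_smul]
        exact Finsupp.mem_support_iff.mp hP
      · show (gsel w : SemilinearAut K F) • h • P = _
        rw [hh, mul_smul, smul_inv_smul]
    exact (Set.Finite.biUnion hz (fun w _ => (Finset.finite_toSet _).image _)).subset hsub

/-- **L3, torsion form.** If `Pic0(F)[n]` is finite, every `n`-torsion class has a representative
supported on the rational places. -/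
theorem exists_rational_rep_of_torsion [HasPrincipalDivisors K F]
    (hdeg : ∀ v : Place K F, v.deg = 1)
    (hfd : ∀ D : Divisor K F, FiniteDimensional K (riemannRochSpace D))
    (γ : ℤ)
    (hRiem : ∀ D : Divisor K F,
      Divisor.degree D + 1 - γ ≤ (Module.finrank K (riemannRochSpace D) : ℤ))
    (G : Subgroup (SemilinearAut K F)) (Rat : Set (Place K F)) (hinf : Rat.Infinite)
    (hfix : ∀ g ∈ G, ∀ P ∈ Rat, g • P = P)
    (horb : ∀ P : Place K F,
      (Set.range fun g : G => (g : SemilinearAut K F) • P).Finite → P ∈ Rat)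
    (n : ℕ) (hfin : Finite (Pic0.torsion K F n))
    (z : Pic0 K F) (hz : z ∈ Pic0.torsion K F n) :
    ∃ D : Divisor.degZero (K := K) (F := F),
      Pic0.mk D = z ∧ ∀ P ∈ (D : Divisor K F).support, P ∈ Rat := by
  refine exists_rational_rep_of_finite_orbit hdeg hfd γ hRiem G Rat hinf hfix horb z ?_
  have hsub : (Set.range fun g : G => (g : SemilinearAut K F) • z) ⊆
      ((↑) : Pic0.torsion K F n → Pic0 K F) '' Set.univ := by
    rintro _ ⟨g, rfl⟩
    exact ⟨⟨(g : SemilinearAut K F) • z, SemilinearAut.smul_mem_torsion _ hz⟩, Set.mem_univ _, rfl⟩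
  exact (Set.finite_univ.image _).subset hsub

end Fermat.Agent.S27.L3h7634
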