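/-
S27, package F (Lefschetz transfer), item F1 / L1: constant-field extension of places.
(helper4502; route note origin/helper9506:notes/S27_route_helper9506.md)

Setting: fields `k ⊆ K`, `F0 / k`, `F / K`, `F0 ⊆ F` (all through `Algebra` instances), a `k`-basis
`B` of `K` whose image in `F` is `F0`-linearly independent (linear disjointness of `K` and `F0`
over `k`), and `F` is the field of fractions of the `F0`-span of `K` ("`F = F0·K`").

For a place `v0` of `F0 / k` with residue field `k` we construct the place `extPlace` of `F / K`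
lying over it (Gauss extension) and prove `ord_extPlace : (ext v0).ord f0 = v0.ord f0`, together
with uniqueness statements.
-/
import Mathlib
import Fermat.Prelude.Def_AlgebraicCurve_DivisorClassGroup
import Fermat.Prelude.Def_AlgebraicCurve_Repartitions
import Fermat.Agent.S24.A564.PlaceBasic

set_option autoImplicit false
set_option linter.unusedSectionVars false

namespace Fermat.Agent.S27.PlaceExt

open AlgebraicCurve Module Fermat.Agent.S24.A564.SO

variable {k K F0 F : Type*} [Field k] [Field K] [Field F0] [Field F]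
  [Algebra k K] [Algebra k F0] [Algebra K F] [Algebra F0 F] [Algebra k F]
  [IsScalarTower k K F] [IsScalarTower k F0 F]
variable {ι : Type*} (B : Basis ι k K)

/-- The `F0`-linear map `m ↦ ∑ mᵢ Bᵢ` from finitely supported families to `F`. -/
noncomputable def lin : (ι →₀ F0) →ₗ[F0] F :=
  Finsupp.linearCombination F0 (fun i => algebraMap K F (B i))

theorem lin_apply (m : ι →₀ F0) :
    lin (F := F) B m = m.sum fun i a => algebraMap F0 F a * algebraMap K F (B i) := by
  rw [lin, Finsupp.linearCombination_apply]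
  refine Finsupp.sum_congr fun i _ => ?_
  rw [Algebra.smul_def]

theorem lin_mapRange (l : ι →₀ k) :
    lin (F := F) B (l.mapRange (algebraMap k F0) (map_zero _)) =
      algebraMap K F (Finsupp.linearCombination k B l) := by
  rw [lin_apply, Finsupp.sum_mapRange_index (by intro a; simp), Finsupp.linearCombination_apply,
    map_finsuppSum]
  refine Finsupp.sum_congr fun i _ => ?_
  rw [Algebra.smul_def, map_mul, ← IsScalarTower.algebraMap_apply k F0 F,
    ← IsScalarTower.algebraMap_apply k K F]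

theorem lin_repr (c : K) :
    lin (F := F) B ((B.repr c).mapRange (algebraMap k F0) (map_zero _)) = algebraMap K F c := by
  rw [lin_mapRange, B.linearCombination_repr]

variable (v0 : Place k F0)

/-- Finitely supported families with coefficients in the valuation ring of `v0`. -/
def IsInt (m : ι →₀ F0) : Prop := ∀ i, m i ∈ v0.toValuationSubring

/-- The set `∑ O0 · Bᵢ` (image of `K ⊗ O0` in `F`). -/
def intSet : Set F := {r | ∃ m : ι →₀ F0, IsInt v0 m ∧ lin (F := F) B m = r}

theorem intSet_zero : (0 : F) ∈ intSet (F := F) B v0 :=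
  ⟨0, fun _ => zero_mem _, map_zero _⟩

theorem intSet_add {r r' : F} (hr : r ∈ intSet B v0) (hr' : r' ∈ intSet B v0) :
    r + r' ∈ intSet B v0 := by
  obtain ⟨m, hm, rfl⟩ := hr
  obtain ⟨m', hm', rfl⟩ := hr'
  exact ⟨m + m', fun i => add_mem (hm i) (hm' i), map_add _ _ _⟩

theorem intSet_neg {r : F} (hr : r ∈ intSet B v0) : -r ∈ intSet B v0 := by
  obtain ⟨m, hm, rfl⟩ := hr
  exact ⟨-m, fun i => neg_mem (hm i), map_neg _ _⟩

theorem intSet_coe (c : K) : algebraMap K F c ∈ intSet B v0 :=
  ⟨(B.repr c).mapRange (algebraMap k F0) (map_zero _),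
    fun i => by
      rw [Finsupp.mapRange_apply]
      exact v0.algebraMap_mem' _, lin_repr B c⟩

theorem intSet_smul {a : F0} (ha : a ∈ v0.toValuationSubring) {r : F} (hr : r ∈ intSet B v0) :
    algebraMap F0 F a * r ∈ intSet B v0 := by
  obtain ⟨m, hm, rfl⟩ := hr
  refine ⟨a • m, fun i => ?_, ?_⟩
  · rw [Finsupp.smul_apply, smul_eq_mul]
    exact mul_mem ha (hm i)
  · rw [map_smul, Algebra.smul_def]

theorem intSet_sum {α : Type*} (s : Finset α) (f : α → F)
    (h : ∀ i ∈ s, f i ∈ intSet B v0) : (∑ i ∈ s, f i) ∈ intSet B v0 := by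
  classical
  induction s using Finset.induction_on with
  | empty => simpa using intSet_zero B v0
  | insert a s ha ih =>
    rw [Finset.sum_insert ha]
    exact intSet_add B v0 (h a (Finset.mem_insert_self a s))
      (ih fun i hi => h i (Finset.mem_insert_of_mem hi))

theorem intSet_coe_mul (c : K) {r : F} (hr : r ∈ intSet B v0) :
    algebraMap K F c * r ∈ intSet B v0 := by
  obtain ⟨m, hm, rfl⟩ := hr
  rw [lin_apply, Finsupp.sum, Finset.mul_sum]
  refine intSet_sum B v0 _ _ fun i _ => ?_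
  have : algebraMap K F c * (algebraMap F0 F (m i) * algebraMap K F (B i)) =
      algebraMap F0 F (m i) * algebraMap K F (c * B i) := by
    rw [map_mul]; ring
  rw [this]
  exact intSet_smul B v0 (hm i) (intSet_coe B v0 _)

theorem intSet_mul {r r' : F} (hr : r ∈ intSet B v0) (hr' : r' ∈ intSet B v0) :
    r * r' ∈ intSet B v0 := by
  obtain ⟨m, hm, rfl⟩ := hr
  rw [lin_apply, Finsupp.sum, Finset.sum_mul]
  refine intSet_sum B v0 _ _ fun i _ => ?_
  rw [mul_assoc]
  exact intSet_smul B v0 (hm i) (intSet_coe_mul B v0 _ hr')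

/-- The subring `R = ∑ O0 · Bᵢ` of `F` generated by `K` and the valuation ring of `v0`. -/
def intRing : Subring F where
  carrier := intSet B v0
  zero_mem' := intSet_zero B v0
  add_mem' := intSet_add B v0
  neg_mem' := intSet_neg B v0
  one_mem' := by simpa using intSet_coe (F := F) B v0 1
  mul_mem' := intSet_mul B v0

theorem mem_intRing {r : F} :
    r ∈ intRing B v0 ↔ ∃ m : ι →₀ F0, IsInt v0 m ∧ lin (F := F) B m = r := Iff.rfl

theorem coe_mem_intRing (c : K) : algebraMap K F c ∈ intRing B v0 := intSet_coe B v0 c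

theorem algebraMap_mem_intRing {a : F0} (ha : a ∈ v0.toValuationSubring) :
    algebraMap F0 F a ∈ intRing B v0 := by
  have h := intSet_smul B v0 ha (intSet_coe (F := F) B v0 1)
  rw [map_one, mul_one] at h
  exact h

/-! ### Facts about the place `v0` -/

theorem ne_zero_of_ord_eq_one {t0 : F0} (ht0 : v0.ord t0 = 1) : t0 ≠ 0 := by
  rintro rfl
  simp at ht0

theorem mem_of_ord_pos_or_zero {a : F0} (h : a = 0 ∨ 0 ≤ v0.ord a) :
    a ∈ v0.toValuationSubring := by
  rcases h with rfl | h
  · exact zero_mem _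
  · exact Place_mem_of_ord_nonneg v0 h

/-- A non-unit of the valuation ring has positive order (or is zero). -/
theorem ord_pos_of_mem_maximalIdeal {d : v0.toValuationSubring}
    (hd : d ∈ IsLocalRing.maximalIdeal v0.toValuationSubring) (hd0 : (d : F0) ≠ 0) :
    0 < v0.ord (d : F0) := by
  have h1 : v0.adicValuation (d : F0) ≤ 1 := v0.adicValuation_le_one_of_mem d.2
  have h2 : v0.adicValuation (d : F0) ≠ 1 := by
    rw [Ne, v0.adicValuation_coe_eq_one_iff]
    exact hd
  have h3 : v0.adicValuation (d : F0) < 1 := lt_of_le_of_ne h1 h2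
  rw [v0.adicValuation_eq_exp_neg_ord hd0, ← WithZero.exp_zero, WithZero.exp_lt_exp] at h3
  omega

/-- Residue decomposition `a = β + t0 a'` for `a` in the valuation ring. -/
theorem exists_residue_decomp (hres : Function.Surjective (algebraMap k v0.ResidueField))
    {t0 : F0} (ht0 : v0.ord t0 = 1) {a : F0} (ha : a ∈ v0.toValuationSubring) :
    ∃ β : k, ∃ a' ∈ v0.toValuationSubring, a = algebraMap k F0 β + t0 * a' := by
  obtain ⟨β, hβ⟩ := hres (IsLocalRing.residue _ ⟨a, ha⟩)
  have ht00 : t0 ≠ 0 := ne_zero_of_ord_eq_one v0 ht0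
  set d : v0.toValuationSubring := ⟨a, ha⟩ - algebraMap k v0.toValuationSubring β with hd
  have hdm : d ∈ IsLocalRing.maximalIdeal v0.toValuationSubring := by
    rw [← IsLocalRing.residue_eq_zero_iff, hd, map_sub, ← hβ]
    exact sub_self _
  have hdc : (d : F0) = a - algebraMap k F0 β := rfl
  refine ⟨β, (d : F0) * t0⁻¹, ?_, ?_⟩
  · rcases eq_or_ne (d : F0) 0 with h0 | h0
    · rw [h0, zero_mul]; exact zero_mem _
    · apply Place_mem_of_ord_nonneg
      rw [v0.ord_mul h0 (inv_ne_zero ht00), v0.ord_inv, ht0]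
      have := ord_pos_of_mem_maximalIdeal v0 hdm h0
      omega
  · rw [hdc]
    field_simp
    ring

theorem eq_zero_of_algebraMap_eq_mul {t0 : F0} (ht0 : v0.ord t0 = 1) {β : k} {a' : F0}
    (ha' : a' ∈ v0.toValuationSubring) (h : algebraMap k F0 β = t0 * a') : β = 0 := by
  by_contra hβ
  have ht00 : t0 ≠ 0 := ne_zero_of_ord_eq_one v0 ht0
  have hβ' : algebraMap k F0 β ≠ 0 := by
    rwa [Ne, map_eq_zero]
  have ha0 : a' ≠ 0 := by
    rintro rfl
    rw [mul_zero] at h
    exact hβ' h
  have h1 := Place_ord_algebraMap v0 β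
  rw [h, v0.ord_mul ht00 ha0, ht0] at h1
  have h2 := Place_ord_nonneg_of_mem v0 ha'
  omega

/-! ### Normal forms in `F` -/

/-- `K ∩ t R = 0` (this is where linear disjointness is used). -/
theorem coe_eq_zero_of_eq_mul (hLD : LinearIndependent F0 (fun i => algebraMap K F (B i)))
    {t0 : F0} (ht0 : v0.ord t0 = 1) {c : K} {r : F} (hr : r ∈ intRing B v0)
    (h : algebraMap K F c = algebraMap F0 F t0 * r) : c = 0 := by
  obtain ⟨m, hm, rfl⟩ := hr
  have h1 : lin (F := F) B ((B.repr c).mapRange (algebraMap k F0) (map_zero _)) =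
      lin (F := F) B (t0 • m) := by
    rw [lin_repr, h, map_smul, Algebra.smul_def]
  have h2 : (B.repr c).mapRange (algebraMap k F0) (map_zero _) = t0 • m := hLD h1
  have h3 : B.repr c = 0 := by
    ext i
    have h4 := DFunLike.congr_fun h2 i
    rw [Finsupp.mapRange_apply, Finsupp.smul_apply, smul_eq_mul] at h4
    exact eq_zero_of_algebraMap_eq_mul v0 ht0 (hm i) h4
  exact (B.repr.map_eq_zero_iff).1 h3

/-- Every nonzero element of the `F0`-span of `K` is `t ^ n * (c + t r)` with `c ∈ Kˣ`,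
`r ∈ R`. -/
theorem exists_decomp (hres : Function.Surjective (algebraMap k v0.ResidueField))
    {t0 : F0} (ht0 : v0.ord t0 = 1) {m : ι →₀ F0} (hm : m ≠ 0) :
    ∃ n : ℤ, ∃ c : K, c ≠ 0 ∧ ∃ r ∈ intRing B v0,
      lin (F := F) B m =
        algebraMap F0 F t0 ^ n * (algebraMap K F c + algebraMap F0 F t0 * r) := by
  classical
  have ht00 : t0 ≠ 0 := ne_zero_of_ord_eq_one v0 ht0
  have hs : m.support.Nonempty := Finsupp.support_nonempty_iff.2 hm
  obtain ⟨i0, hi0, hmin⟩ := Finset.exists_min_image m.support (fun i => v0.ord (m i)) hs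
  set n : ℤ := v0.ord (m i0) with hn
  have hmi0 : m i0 ≠ 0 := Finsupp.mem_support_iff.1 hi0
  have htn : t0 ^ n ≠ 0 := zpow_ne_zero n ht00
  -- the normalised coefficients
  have hb : ∀ i, m i * (t0 ^ n)⁻¹ ∈ v0.toValuationSubring := by
    intro i
    rcases eq_or_ne (m i) 0 with h0 | h0
    · rw [h0, zero_mul]; exact zero_mem _
    · apply Place_mem_of_ord_nonneg
      rw [v0.ord_mul h0 (inv_ne_zero htn), v0.ord_inv, v0.ord_zpow, ht0, mul_one]
      have := hmin i (Finsupp.mem_support_iff.2 h0)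
      omega
  have hdec : ∀ a : F0, ∃ β : k, ∃ a' : F0, (a = 0 → β = 0 ∧ a' = 0) ∧
      (a ∈ v0.toValuationSubring → a' ∈ v0.toValuationSubring ∧
        a = algebraMap k F0 β + t0 * a') := by
    intro a
    by_cases ha0 : a = 0
    · exact ⟨0, 0, fun _ => ⟨rfl, rfl⟩, fun _ => ⟨zero_mem _, by simp [ha0]⟩⟩
    · by_cases ha : a ∈ v0.toValuationSubring
      · obtain ⟨β, a', ha', h⟩ := exists_residue_decomp v0 hres ht0 ha
        exact ⟨β, a', fun h0 => absurd h0 ha0, fun _ => ⟨ha', h⟩⟩
      · exact ⟨0, 0, fun h0 => absurd h0 ha0, fun h => absurd h ha⟩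
  choose β a' h0 hdec' using hdec
  have hβ0 : β 0 = 0 := (h0 0 rfl).1
  have ha'0 : a' 0 = 0 := (h0 0 rfl).2
  obtain ⟨bf, hbf⟩ : ∃ bf : ι →₀ F0, bf = (t0 ^ n)⁻¹ • m := ⟨_, rfl⟩
  have hbf_apply : ∀ i, bf i = m i * (t0 ^ n)⁻¹ := fun i => by
    rw [hbf, Finsupp.smul_apply, smul_eq_mul, mul_comm]
  have hbfint : ∀ i, bf i ∈ v0.toValuationSubring := fun i => by
    rw [hbf_apply]; exact hb i
  obtain ⟨βf, hβf⟩ : ∃ βf : ι →₀ k, βf = bf.mapRange β hβ0 := ⟨_, rfl⟩
  obtain ⟨af, haf⟩ : ∃ af : ι →₀ F0, af = bf.mapRange a' ha'0 := ⟨_, rfl⟩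
  have hsplit : bf = βf.mapRange (algebraMap k F0) (map_zero _) + t0 • af := by
    ext i
    rw [Finsupp.add_apply, Finsupp.mapRange_apply, Finsupp.smul_apply, smul_eq_mul, hβf, haf,
      Finsupp.mapRange_apply, Finsupp.mapRange_apply]
    exact (hdec' (bf i) (hbfint i)).2
  have hm_eq : m = t0 ^ n • bf := by
    rw [hbf, smul_smul, mul_inv_cancel₀ htn, one_smul]
  refine ⟨n, Finsupp.linearCombination k B βf, ?_, lin (F := F) B af, ?_, ?_⟩
  · intro hc
    have h1 : βf = 0 := by
      have := congrArg B.repr hc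
      rwa [B.repr_linearCombination, map_zero] at this
    have h2 : β (bf i0) = 0 := by
      have := DFunLike.congr_fun h1 i0
      rwa [hβf, Finsupp.mapRange_apply] at this
    have h3 := (hdec' (bf i0) (hbfint i0)).2
    rw [h2, map_zero, zero_add] at h3
    have hbi0 : bf i0 ≠ 0 := by
      rw [hbf_apply]; exact mul_ne_zero hmi0 (inv_ne_zero htn)
    have h4 : v0.ord (bf i0) = 0 := by
      rw [hbf_apply, v0.ord_mul hmi0 (inv_ne_zero htn), v0.ord_inv, v0.ord_zpow, ht0, mul_one]
      omega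
    have ha0 : a' (bf i0) ≠ 0 := by
      intro h
      rw [h, mul_zero] at h3
      exact hbi0 h3
    rw [h3, v0.ord_mul ht00 ha0, ht0] at h4
    have h5 := Place_ord_nonneg_of_mem v0 (hdec' (bf i0) (hbfint i0)).1
    omega
  · exact ⟨af, fun i => by
      rw [haf, Finsupp.mapRange_apply]
      exact (hdec' (bf i) (hbfint i)).1, rfl⟩
  · conv_lhs => rw [hm_eq]
    rw [map_smul, Algebra.smul_def, map_zpow₀, hsplit, map_add, lin_mapRange, map_smul,
      Algebra.smul_def]

/-! ### The extended valuation ring -/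

/-- The multiplicative set `U = Kˣ + t R`. -/
def IsU (t0 : F0) (w : F) : Prop :=
  ∃ c : K, c ≠ 0 ∧ ∃ r ∈ intRing B v0, w = algebraMap K F c + algebraMap F0 F t0 * r

theorem mem_of_ord_eq_one {t0 : F0} (ht0 : v0.ord t0 = 1) : t0 ∈ v0.toValuationSubring :=
  Place_mem_of_ord_nonneg v0 (by omega)

theorem t_mem_intRing {t0 : F0} (ht0 : v0.ord t0 = 1) : algebraMap F0 F t0 ∈ intRing B v0 :=
  algebraMap_mem_intRing B v0 (mem_of_ord_eq_one v0 ht0)

theorem IsU.mem_intRing {t0 : F0} (ht0 : v0.ord t0 = 1) {w : F} (hw : IsU B v0 t0 w) :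
    w ∈ intRing B v0 := by
  obtain ⟨c, -, r, hr, rfl⟩ := hw
  exact add_mem (coe_mem_intRing B v0 c) (mul_mem (t_mem_intRing B v0 ht0) hr)

theorem isU_one (t0 : F0) : IsU B v0 t0 (1 : F) :=
  ⟨1, one_ne_zero, 0, zero_mem _, by simp⟩

theorem isU_coe (t0 : F0) {c : K} (hc : c ≠ 0) : IsU B v0 t0 (algebraMap K F c) :=
  ⟨c, hc, 0, zero_mem _, by simp⟩

theorem IsU.mul {t0 : F0} (ht0 : v0.ord t0 = 1) {w w' : F} (hw : IsU B v0 t0 w)
    (hw' : IsU B v0 t0 w') : IsU B v0 t0 (w * w') := by
  obtain ⟨c, hc, r, hr, rfl⟩ := hw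
  obtain ⟨c', hc', r', hr', rfl⟩ := hw'
  refine ⟨c * c', mul_ne_zero hc hc',
    algebraMap K F c * r' + algebraMap K F c' * r + algebraMap F0 F t0 * (r * r'), ?_, ?_⟩
  · exact add_mem (add_mem (mul_mem (coe_mem_intRing B v0 c) hr')
      (mul_mem (coe_mem_intRing B v0 c') hr))
      (mul_mem (t_mem_intRing B v0 ht0) (mul_mem hr hr'))
  · rw [map_mul]; ring

theorem IsU.ne_zero (hLD : LinearIndependent F0 (fun i => algebraMap K F (B i)))
    {t0 : F0} (ht0 : v0.ord t0 = 1) {w : F} (hw : IsU B v0 t0 w) : w ≠ 0 := by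
  obtain ⟨c, hc, r, hr, rfl⟩ := hw
  intro h
  apply hc
  apply coe_eq_zero_of_eq_mul B v0 hLD ht0 (neg_mem hr)
  linear_combination h

/-- The localisation of `R` at `U`, as a subring of `F`. -/
def extSubring {t0 : F0} (ht0 : v0.ord t0 = 1) : Subring F where
  carrier := {x | ∃ r ∈ intRing B v0, ∃ w, IsU B v0 t0 w ∧ x * w = r}
  zero_mem' := ⟨0, zero_mem _, 1, isU_one B v0 t0, by simp⟩
  one_mem' := ⟨1, one_mem _, 1, isU_one B v0 t0, by simp⟩
  add_mem' := by
    rintro x x' ⟨r, hr, w, hw, h⟩ ⟨r', hr', w', hw', h'⟩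
    refine ⟨r * w' + r' * w, add_mem (mul_mem hr (hw'.mem_intRing B v0 ht0))
      (mul_mem hr' (hw.mem_intRing B v0 ht0)), w * w', hw.mul B v0 ht0 hw', ?_⟩
    rw [← h, ← h']; ring
  mul_mem' := by
    rintro x x' ⟨r, hr, w, hw, h⟩ ⟨r', hr', w', hw', h'⟩
    refine ⟨r * r', mul_mem hr hr', w * w', hw.mul B v0 ht0 hw', ?_⟩
    rw [← h, ← h']; ring
  neg_mem' := by
    rintro x ⟨r, hr, w, hw, h⟩
    exact ⟨-r, neg_mem hr, w, hw, by rw [← h]; ring⟩

theorem mem_extSubring {t0 : F0} (ht0 : v0.ord t0 = 1) {x : F} :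
    x ∈ extSubring B v0 ht0 ↔ ∃ r ∈ intRing B v0, ∃ w, IsU B v0 t0 w ∧ x * w = r := Iff.rfl

theorem intRing_le_extSubring {t0 : F0} (ht0 : v0.ord t0 = 1) :
    intRing B v0 ≤ extSubring (F := F) B v0 ht0 :=
  fun r hr => ⟨r, hr, 1, isU_one B v0 t0, mul_one r⟩

theorem zpow_mem_intRing {t0 : F0} (ht0 : v0.ord t0 = 1) {j : ℤ} (hj : 0 ≤ j) :
    algebraMap F0 F t0 ^ j ∈ intRing B v0 := by
  obtain ⟨d, rfl⟩ := Int.eq_ofNat_of_zero_le hj
  rw [zpow_natCast]
  exact pow_mem (t_mem_intRing B v0 ht0) d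

theorem t_ne_zero {t0 : F0} (ht0 : v0.ord t0 = 1) : algebraMap F0 F t0 ≠ 0 := by
  rw [Ne, map_eq_zero]
  exact ne_zero_of_ord_eq_one v0 ht0

/-- Elements of `U` are units of the extended ring. -/
theorem IsU.div_mem (hLD : LinearIndependent F0 (fun i => algebraMap K F (B i)))
    {t0 : F0} (ht0 : v0.ord t0 = 1) {u w : F} (hu : IsU B v0 t0 u) (hw : IsU B v0 t0 w) :
    u / w ∈ extSubring B v0 ht0 :=
  ⟨u, hu.mem_intRing B v0 ht0, w, hw, div_mul_cancel₀ u (hw.ne_zero B v0 hLD ht0)⟩

variable (F0 F) in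
/-- Generation hypothesis: `F` is the fraction field of the `F0`-span of `K`. -/
def Gen : Prop :=
  ∀ f : F, ∃ a b : ι →₀ F0, lin (F := F) B b ≠ 0 ∧ f = lin (F := F) B a / lin (F := F) B b

theorem mem_or_inv_mem_extSubring
    (hLD : LinearIndependent F0 (fun i => algebraMap K F (B i))) (hgen : Gen F0 F B)
    (hres : Function.Surjective (algebraMap k v0.ResidueField))
    {t0 : F0} (ht0 : v0.ord t0 = 1) (x : F) :
    x ∈ extSubring B v0 ht0 ∨ x⁻¹ ∈ extSubring B v0 ht0 := by
  obtain ⟨a, b, hb, rfl⟩ := hgen x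
  by_cases ha : lin (F := F) B a = 0
  · left; rw [ha, zero_div]; exact zero_mem _
  have ha0 : a ≠ 0 := by rintro rfl; exact ha (map_zero _)
  have hb0 : b ≠ 0 := by rintro rfl; exact hb (map_zero _)
  obtain ⟨n, c, hc, r, hr, hA⟩ := exists_decomp (F := F) B v0 hres ht0 ha0
  obtain ⟨n', c', hc', r', hr', hB⟩ := exists_decomp (F := F) B v0 hres ht0 hb0
  have hu : IsU B v0 t0 (algebraMap K F c + algebraMap F0 F t0 * r) := ⟨c, hc, r, hr, rfl⟩
  have hu' : IsU B v0 t0 (algebraMap K F c' + algebraMap F0 F t0 * r') := ⟨c', hc', r', hr', rfl⟩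
  have hu0 := hu.ne_zero B v0 hLD ht0
  have hu'0 := hu'.ne_zero B v0 hLD ht0
  have ht := t_ne_zero (F := F) v0 ht0
  rw [hA, hB]
  rcases le_total n' n with hnn | hnn
  · left
    refine ⟨algebraMap F0 F t0 ^ (n - n') * (algebraMap K F c + algebraMap F0 F t0 * r),
      mul_mem (zpow_mem_intRing B v0 ht0 (by omega)) (hu.mem_intRing B v0 ht0), _, hu', ?_⟩
    rw [zpow_sub₀ ht]
    field_simp
  · right
    refine ⟨algebraMap F0 F t0 ^ (n' - n) * (algebraMap K F c' + algebraMap F0 F t0 * r'),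
      mul_mem (zpow_mem_intRing B v0 ht0 (by omega)) (hu'.mem_intRing B v0 ht0), _, hu, ?_⟩
    rw [zpow_sub₀ ht]
    field_simp

/-- The valuation ring of the extended place. -/
def extValuationSubring
    (hLD : LinearIndependent F0 (fun i => algebraMap K F (B i))) (hgen : Gen F0 F B)
    (hres : Function.Surjective (algebraMap k v0.ResidueField))
    {t0 : F0} (ht0 : v0.ord t0 = 1) : ValuationSubring F :=
  { extSubring B v0 ht0 with
    mem_or_inv_mem' := mem_or_inv_mem_extSubring B v0 hLD hgen hres ht0 }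

theorem mem_extValuationSubring
    (hLD : LinearIndependent F0 (fun i => algebraMap K F (B i))) (hgen : Gen F0 F B)
    (hres : Function.Surjective (algebraMap k v0.ResidueField))
    {t0 : F0} (ht0 : v0.ord t0 = 1) {x : F} :
    x ∈ extValuationSubring B v0 hLD hgen hres ht0 ↔ x ∈ extSubring B v0 ht0 := Iff.rfl

section Ext

variable (hLD : LinearIndependent F0 (fun i => algebraMap K F (B i))) (hgen : Gen F0 F B)
  (hres : Function.Surjective (algebraMap k v0.ResidueField)) {t0 : F0} (ht0 : v0.ord t0 = 1)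

include hLD hres in
/-- Normal form of the nonzero elements of the extended ring: `t ^ d * (u / w)`, `u, w ∈ U`. -/
theorem exists_eq_pow_mul {x : F} (hx : x ∈ extSubring B v0 ht0) (hx0 : x ≠ 0) :
    ∃ d : ℕ, ∃ u w : F, IsU B v0 t0 u ∧ IsU B v0 t0 w ∧
      x = algebraMap F0 F t0 ^ d * (u / w) := by
  obtain ⟨r, hr, w, hw, h⟩ := hx
  have hw0 := hw.ne_zero B v0 hLD ht0
  have hr0 : r ≠ 0 := by rw [← h]; exact mul_ne_zero hx0 hw0
  obtain ⟨m, hm, rfl⟩ := hr
  have hm0 : m ≠ 0 := by rintro rfl; exact hr0 (map_zero _)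
  obtain ⟨n, c, hc, r1, hr1, hdec⟩ := exists_decomp (F := F) B v0 hres ht0 hm0
  have hu : IsU B v0 t0 (algebraMap K F c + algebraMap F0 F t0 * r1) := ⟨c, hc, r1, hr1, rfl⟩
  have ht := t_ne_zero (F := F) v0 ht0
  have hn : 0 ≤ n := by
    by_contra hneg
    rw [not_le] at hneg
    apply hc
    apply coe_eq_zero_of_eq_mul B v0 hLD ht0
      (r := algebraMap F0 F t0 ^ (-n - 1) * lin (F := F) B m - r1)
      (sub_mem (mul_mem (zpow_mem_intRing B v0 ht0 (by omega)) ⟨m, hm, rfl⟩) hr1)
    rw [hdec]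
    have h1 : algebraMap F0 F t0 * (algebraMap F0 F t0 ^ (-n - 1) * algebraMap F0 F t0 ^ n) = 1 := by
      rw [← zpow_add₀ ht, ← zpow_one_add₀ ht]
      have : (1 : ℤ) + (-n - 1 + n) = 0 := by ring
      rw [this, zpow_zero]
    linear_combination (-(algebraMap K F c + algebraMap F0 F t0 * r1)) * h1
  obtain ⟨d, rfl⟩ := Int.eq_ofNat_of_zero_le hn
  refine ⟨d, _, w, hu, hw, ?_⟩
  rw [zpow_natCast] at hdec
  rw [← mul_div_assoc, ← hdec, ← h, mul_div_assoc, div_self hw0, mul_one]

/-- The element `t` of the extended ring. -/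
def tElt : extValuationSubring B v0 hLD hgen hres ht0 :=
  ⟨algebraMap F0 F t0, intRing_le_extSubring B v0 ht0 (t_mem_intRing B v0 ht0)⟩

theorem exists_unit_of_isU {u w : F} (hu : IsU B v0 t0 u) (hw : IsU B v0 t0 w) :
    ∃ e : (extValuationSubring B v0 hLD hgen hres ht0)ˣ,
      ((e : extValuationSubring B v0 hLD hgen hres ht0) : F) = u / w := by
  have hu0 := hu.ne_zero B v0 hLD ht0
  have hw0 := hw.ne_zero B v0 hLD ht0
  refine ⟨⟨⟨u / w, hu.div_mem B v0 hLD ht0 hw⟩, ⟨w / u, hw.div_mem B v0 hLD ht0 hu⟩,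
    Subtype.ext ?_, Subtype.ext ?_⟩, rfl⟩
  · show u / w * (w / u) = 1
    field_simp
  · show w / u * (u / w) = 1
    field_simp

theorem exists_eq_pow_mul_unit (y : extValuationSubring B v0 hLD hgen hres ht0) (hy : y ≠ 0) :
    ∃ d : ℕ, ∃ e : (extValuationSubring B v0 hLD hgen hres ht0)ˣ,
      y = tElt B v0 hLD hgen hres ht0 ^ d * e := by
  have hy0 : (y : F) ≠ 0 := fun h => hy (Subtype.ext h)
  obtain ⟨d, u, w, hu, hw, h⟩ := exists_eq_pow_mul B v0 hLD hres ht0 y.2 hy0
  obtain ⟨e, he⟩ := exists_unit_of_isU B v0 hLD hgen hres ht0 hu hw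
  refine ⟨d, e, Subtype.ext ?_⟩
  rw [h, ← he]
  rfl

theorem t_inv_notMem : (algebraMap F0 F t0)⁻¹ ∉ extValuationSubring B v0 hLD hgen hres ht0 := by
  rintro ⟨r, hr, w, ⟨c, hc, r', hr', rfl⟩, h⟩
  have ht := t_ne_zero (F := F) v0 ht0
  apply hc
  apply coe_eq_zero_of_eq_mul B v0 hLD ht0 (r := r - r') (sub_mem hr hr')
  rw [← h]
  field_simp
  ring

theorem isPrincipalIdealRing_ext :
    IsPrincipalIdealRing (extValuationSubring B v0 hLD hgen hres ht0) := by
  classical
  refine ⟨fun I => ?_⟩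
  by_cases hI : I = ⊥
  · rw [hI]; exact bot_isPrincipal
  obtain ⟨x, hxI, hx0⟩ := Submodule.exists_mem_ne_zero_of_ne_bot hI
  have hex : ∃ d : ℕ, tElt B v0 hLD hgen hres ht0 ^ d ∈ I := by
    obtain ⟨d, e, he⟩ := exists_eq_pow_mul_unit B v0 hLD hgen hres ht0 x hx0
    refine ⟨d, ?_⟩
    have : tElt B v0 hLD hgen hres ht0 ^ d = x * (e⁻¹ : (extValuationSubring B v0 hLD hgen hres ht0)ˣ) := by
      rw [he, mul_assoc, Units.mul_inv, mul_one]
    rw [this]
    exact I.mul_mem_right _ hxI
  refine ⟨⟨tElt B v0 hLD hgen hres ht0 ^ Nat.find hex, le_antisymm ?_ ?_⟩⟩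
  · intro y hy
    rcases eq_or_ne y 0 with rfl | hy0
    · exact zero_mem _
    obtain ⟨d, e, he⟩ := exists_eq_pow_mul_unit B v0 hLD hgen hres ht0 y hy0
    have hd : tElt B v0 hLD hgen hres ht0 ^ d ∈ I := by
      have : tElt B v0 hLD hgen hres ht0 ^ d = y * (e⁻¹ : (extValuationSubring B v0 hLD hgen hres ht0)ˣ) := by
        rw [he, mul_assoc, Units.mul_inv, mul_one]
      rw [this]
      exact I.mul_mem_right _ hy
    have hle : Nat.find hex ≤ d := Nat.find_min' hex hd
    show y ∈ Ideal.span {tElt B v0 hLD hgen hres ht0 ^ Nat.find hex}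
    rw [Ideal.mem_span_singleton, he]
    exact Dvd.dvd.mul_right (pow_dvd_pow _ hle) _
  · show Ideal.span {tElt B v0 hLD hgen hres ht0 ^ Nat.find hex} ≤ I
    rw [Ideal.span_singleton_le_iff_mem]
    exact Nat.find_spec hex

/-- **The extension of the place `v0` of `F0 / k` to `F / K`** (for a chosen uniformizer `t0`; the
result does not depend on `t0`, see `eq_extPlace`). -/
def extPlace : Place K F where
  toValuationSubring := extValuationSubring B v0 hLD hgen hres ht0
  algebraMap_mem' := fun a => intRing_le_extSubring B v0 ht0 (coe_mem_intRing B v0 a)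
  ne_top' := fun h => t_inv_notMem B v0 hLD hgen hres ht0 (by rw [h]; exact ValuationSubring.mem_top _)
  isPrincipalIdealRing' := isPrincipalIdealRing_ext B v0 hLD hgen hres ht0

theorem mem_extPlace {x : F} :
    x ∈ (extPlace B v0 hLD hgen hres ht0).toValuationSubring ↔ x ∈ extSubring B v0 ht0 := Iff.rfl

theorem exists_eq_pow_mul_unit' (y : (extPlace B v0 hLD hgen hres ht0).toValuationSubring)
    (hy : (y : F) ≠ 0) :
    ∃ d : ℕ, ∃ e : ((extPlace B v0 hLD hgen hres ht0).toValuationSubring)ˣ,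
      (y : F) = algebraMap F0 F t0 ^ d *
        ((e : (extPlace B v0 hLD hgen hres ht0).toValuationSubring) : F) := by
  obtain ⟨d, e, he⟩ := exists_eq_pow_mul_unit B v0 hLD hgen hres ht0 y
    (fun h => hy (by rw [h]; rfl))
  exact ⟨d, e, congrArg Subtype.val he⟩

theorem ord_extPlace_t : (extPlace B v0 hLD hgen hres ht0).ord (algebraMap F0 F t0) = 1 := by
  obtain ⟨π, hπ⟩ := IsDiscreteValuationRing.exists_irreducible
    (extPlace B v0 hLD hgen hres ht0).toValuationSubring
  have hπ0 : (π : F) ≠ 0 := fun h => hπ.ne_zero (Subtype.ext h)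
  obtain ⟨d, e, he⟩ := exists_eq_pow_mul_unit' B v0 hLD hgen hres ht0 π hπ0
  have ht := t_ne_zero (F := F) v0 ht0
  have h2 := (extPlace B v0 hLD hgen hres ht0).ord_coe_irreducible hπ
  have he0 : ((e : (extPlace B v0 hLD hgen hres ht0).toValuationSubring) : F) ≠ 0 := by
    intro h
    exact e.ne_zero (Subtype.ext h)
  rw [he, ← zpow_natCast, Place.ord_mul _ (zpow_ne_zero _ ht) he0, Place.ord_zpow,
    Place.ord_coe_unit, add_zero] at h2
  have h3 : 0 ≤ (extPlace B v0 hLD hgen hres ht0).ord (algebraMap F0 F t0) :=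
    Place_ord_nonneg_of_mem _ (intRing_le_extSubring B v0 ht0 (t_mem_intRing B v0 ht0))
  exact Int.eq_one_of_mul_eq_one_left h3 h2

/-- **The extended place has the same orders on `F0`.** -/
theorem ord_extPlace (f0 : F0) :
    (extPlace B v0 hLD hgen hres ht0).ord (algebraMap F0 F f0) = v0.ord f0 := by
  set v := extPlace B v0 hLD hgen hres ht0 with hv
  rcases eq_or_ne f0 0 with rfl | hf
  · simp
  have ht00 : t0 ≠ 0 := ne_zero_of_ord_eq_one v0 ht0
  have ht := t_ne_zero (F := F) v0 ht0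
  have htn : t0 ^ v0.ord f0 ≠ 0 := zpow_ne_zero _ ht00
  set g : F0 := f0 * (t0 ^ v0.ord f0)⁻¹ with hg
  have hg0 : g ≠ 0 := mul_ne_zero hf (inv_ne_zero htn)
  have hgo : v0.ord g = 0 := by
    rw [hg, v0.ord_mul hf (inv_ne_zero htn), v0.ord_inv, v0.ord_zpow, ht0, mul_one]
    omega
  have hg1 : g ∈ v0.toValuationSubring := Place_mem_of_ord_nonneg v0 (by omega)
  have hg2 : g⁻¹ ∈ v0.toValuationSubring :=
    Place_mem_of_ord_nonneg v0 (by rw [v0.ord_inv]; omega)
  have hgF : algebraMap F0 F g ≠ 0 := by rwa [Ne, map_eq_zero]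
  have h1 : 0 ≤ v.ord (algebraMap F0 F g) :=
    Place_ord_nonneg_of_mem v (intRing_le_extSubring B v0 ht0 (algebraMap_mem_intRing B v0 hg1))
  have h2 : 0 ≤ v.ord (algebraMap F0 F g⁻¹) :=
    Place_ord_nonneg_of_mem v (intRing_le_extSubring B v0 ht0 (algebraMap_mem_intRing B v0 hg2))
  rw [map_inv₀, v.ord_inv] at h2
  have hf_eq : algebraMap F0 F f0 = algebraMap F0 F g * algebraMap F0 F t0 ^ v0.ord f0 := by
    rw [← map_zpow₀, ← map_mul, hg, inv_mul_cancel_right₀ htn]
  rw [hf_eq, v.ord_mul hgF (zpow_ne_zero _ ht), v.ord_zpow,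
    ord_extPlace_t B v0 hLD hgen hres ht0, mul_one]
  omega

theorem algebraMap_mem_extPlace_iff (f0 : F0) :
    algebraMap F0 F f0 ∈ (extPlace B v0 hLD hgen hres ht0).toValuationSubring ↔
      f0 ∈ v0.toValuationSubring := by
  rcases eq_or_ne f0 0 with rfl | hf
  · simp
  have hfF : algebraMap F0 F f0 ≠ 0 := by rwa [Ne, map_eq_zero]
  rw [Place_mem_iff _ hfF, Place_mem_iff _ hf, ord_extPlace]

theorem comap_extPlace :
    (extPlace B v0 hLD hgen hres ht0).toValuationSubring.comap (algebraMap F0 F) =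
      v0.toValuationSubring := by
  ext f0
  rw [ValuationSubring.mem_comap]
  exact algebraMap_mem_extPlace_iff B v0 hLD hgen hres ht0 f0

/-! ### Uniqueness -/

omit hgen hres ht0 hLD in
/-- An element of `U` is a unit at every place `w` of `F / K` whose valuation ring contains (the
image of) the valuation ring of `v0` and at which `t` is not a unit. -/
theorem ord_eq_zero_of_isU (w : Place K F)
    (hwO : ∀ a ∈ v0.toValuationSubring, algebraMap F0 F a ∈ w.toValuationSubring)
    (hwt : 0 < w.ord (algebraMap F0 F t0)) {u : F} (hu : IsU B v0 t0 u) (hu0 : u ≠ 0) :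
    w.ord u = 0 := by
  obtain ⟨c, hc, r, hr, rfl⟩ := hu
  have hcF : algebraMap K F c ≠ 0 := by rwa [Ne, map_eq_zero]
  have hc0 : w.ord (algebraMap K F c) = 0 := Place_ord_algebraMap w c
  have ht : algebraMap F0 F t0 ≠ 0 := by
    rintro h; rw [h] at hwt; simp at hwt
  rcases eq_or_ne r 0 with rfl | hr0
  · rw [mul_zero, add_zero]; exact hc0
  have hrw : r ∈ w.toValuationSubring := by
    obtain ⟨m, hm, rfl⟩ := hr
    rw [lin_apply]
    exact sum_mem fun i _ => mul_mem (hwO _ (hm i)) (w.algebraMap_mem' _)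
  have hr1 : 0 ≤ w.ord r := Place_ord_nonneg_of_mem w hrw
  have htr : 0 < w.ord (algebraMap F0 F t0 * r) := by
    rw [w.ord_mul ht hr0]; omega
  have h1 := Place_ord_add_ge w (f := algebraMap K F c) (g := algebraMap F0 F t0 * r) hu0
  have h2 : algebraMap K F c + algebraMap F0 F t0 * r + -(algebraMap F0 F t0 * r) ≠ 0 := by
    rwa [add_neg_cancel_right]
  have h3 := Place_ord_add_ge w (f := algebraMap K F c + algebraMap F0 F t0 * r)
    (g := -(algebraMap F0 F t0 * r)) h2
  have h4 : w.ord (-(algebraMap F0 F t0 * r)) = w.ord (algebraMap F0 F t0 * r) := by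
    have hneg : -(algebraMap F0 F t0 * r) = (-1 : F) * (algebraMap F0 F t0 * r) := by ring
    have hm1 : w.ord (-1 : F) = 0 := by
      have := Place_ord_algebraMap w (-1 : K)
      rwa [map_neg, map_one] at this
    rw [hneg, w.ord_mul (by norm_num) (mul_ne_zero ht hr0), hm1, zero_add]
  rw [add_neg_cancel_right, hc0, h4] at h3
  rw [hc0] at h1
  rw [min_eq_left (le_of_lt htr)] at h1
  rcases min_le_iff.1 h3 with h5 | h5
  · omega
  · omega

/-- **Uniqueness of the extension**: a place `w` of `F / K` whose valuation ring contains the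
valuation ring of `v0` and at which the uniformizer `t0` has positive order is `extPlace`. -/
theorem eq_extPlace (w : Place K F)
    (hwO : ∀ a ∈ v0.toValuationSubring, algebraMap F0 F a ∈ w.toValuationSubring)
    (hwt : 0 < w.ord (algebraMap F0 F t0)) : w = extPlace B v0 hLD hgen hres ht0 := by
  have ht := t_ne_zero (F := F) v0 ht0
  have hRw : ∀ r ∈ intRing B v0, r ∈ w.toValuationSubring := by
    rintro r ⟨m, hm, rfl⟩
    rw [lin_apply]
    exact sum_mem fun i _ => mul_mem (hwO _ (hm i)) (w.algebraMap_mem' _)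
  -- the extended ring is contained in the ring of `w`
  have hle : ∀ x ∈ extSubring B v0 ht0, x ∈ w.toValuationSubring := by
    rintro x ⟨r, hr, u, hu, h⟩
    have hu0 := hu.ne_zero B v0 hLD ht0
    have hx : x = r * u⁻¹ := by rw [← h, mul_assoc, mul_inv_cancel₀ hu0, mul_one]
    rw [hx]
    refine mul_mem (hRw r hr) (Place_mem_of_ord_nonneg w ?_)
    rw [w.ord_inv, ord_eq_zero_of_isU B v0 w hwO hwt hu hu0]
    simp
  apply Place.ext
  apply le_antisymm
  · intro y hy
    by_contra hy'
    have hy0 : y ≠ 0 := by rintro rfl; exact hy' (zero_mem _)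
    have hyinv : y⁻¹ ∈ extSubring B v0 ht0 :=
      (mem_or_inv_mem_extSubring B v0 hLD hgen hres ht0 y).resolve_left hy'
    obtain ⟨d, u, u', hu, hu', h⟩ :=
      exists_eq_pow_mul B v0 hLD hres ht0 hyinv (inv_ne_zero hy0)
    have hu0 := hu.ne_zero B v0 hLD ht0
    have hu'0 := hu'.ne_zero B v0 hLD ht0
    have hyo : 0 ≤ w.ord y := Place_ord_nonneg_of_mem w hy
    have h1 : w.ord y⁻¹ = d * w.ord (algebraMap F0 F t0) := by
      rw [h, w.ord_mul (pow_ne_zero _ ht) (div_ne_zero hu0 hu'0), div_eq_mul_inv,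
        w.ord_mul hu0 (inv_ne_zero hu'0), w.ord_inv,
        ord_eq_zero_of_isU B v0 w hwO hwt hu hu0, ord_eq_zero_of_isU B v0 w hwO hwt hu' hu'0,
        ← zpow_natCast, w.ord_zpow]
      ring
    rw [w.ord_inv] at h1
    rcases Nat.eq_zero_or_pos d with hd | hd
    · -- then `y = u' / u` lies in the extended ring
      apply hy'
      have hy_eq : y = u' / u := by
        rw [hd, pow_zero, one_mul] at h
        rw [← inv_inv y, h, inv_div]
      rw [hy_eq]
      exact hu'.div_mem B v0 hLD ht0 hu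
    · have : 0 < (d : ℤ) * w.ord (algebraMap F0 F t0) :=
        mul_pos (by exact_mod_cast hd) hwt
      omega
  · exact hle

/-- Variant of `eq_extPlace`: a place with the same orders on `F0` as `v0` is `extPlace`. -/
theorem eq_extPlace_of_ord (w : Place K F)
    (hw : ∀ f0 : F0, w.ord (algebraMap F0 F f0) = v0.ord f0) :
    w = extPlace B v0 hLD hgen hres ht0 := by
  apply eq_extPlace B v0 hLD hgen hres ht0 w
  · intro a ha
    exact Place_mem_of_ord_nonneg w (by rw [hw]; exact Place_ord_nonneg_of_mem v0 ha)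
  · rw [hw, ht0]; exact one_pos

end Ext

/-! ### Choice-free interface -/

theorem exists_ord_eq_one : ∃ t0 : F0, v0.ord t0 = 1 := by
  obtain ⟨π, hπ⟩ := IsDiscreteValuationRing.exists_irreducible v0.toValuationSubring
  exact ⟨π, v0.ord_coe_irreducible hπ⟩

/-- **The extension of a place `v0` of `F0 / k` (with residue field `k`) to `F = F0·K`.** -/
noncomputable def ext (hLD : LinearIndependent F0 (fun i => algebraMap K F (B i)))
    (hgen : Gen F0 F B) (hres : Function.Surjective (algebraMap k v0.ResidueField)) :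
    Place K F :=
  extPlace B v0 hLD hgen hres (Classical.choose_spec (exists_ord_eq_one v0))

section ExtAPI

variable (hLD : LinearIndependent F0 (fun i => algebraMap K F (B i))) (hgen : Gen F0 F B)
  (hres : Function.Surjective (algebraMap k v0.ResidueField))

/-- `ord_{ext v0} (f0) = ord_{v0} (f0)` for `f0 ∈ F0`. -/
theorem ord_ext (f0 : F0) : (ext B v0 hLD hgen hres).ord (algebraMap F0 F f0) = v0.ord f0 :=
  ord_extPlace B v0 hLD hgen hres _ f0

theorem algebraMap_mem_ext_iff (f0 : F0) :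
    algebraMap F0 F f0 ∈ (ext B v0 hLD hgen hres).toValuationSubring ↔
      f0 ∈ v0.toValuationSubring :=
  algebraMap_mem_extPlace_iff B v0 hLD hgen hres _ f0

theorem comap_ext :
    (ext B v0 hLD hgen hres).toValuationSubring.comap (algebraMap F0 F) =
      v0.toValuationSubring :=
  comap_extPlace B v0 hLD hgen hres _

/-- A place of `F / K` with the same orders on `F0` as `v0` is `ext v0`. -/
theorem eq_ext_of_ord (w : Place K F)
    (hw : ∀ f0 : F0, w.ord (algebraMap F0 F f0) = v0.ord f0) : w = ext B v0 hLD hgen hres :=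
  eq_extPlace_of_ord B v0 hLD hgen hres _ w hw

/-- A place of `F / K` whose valuation ring restricts to that of `v0` is `ext v0`. -/
theorem eq_ext_of_comap (w : Place K F)
    (hw : w.toValuationSubring.comap (algebraMap F0 F) = v0.toValuationSubring) :
    w = ext B v0 hLD hgen hres := by
  have hmem : ∀ a : F0, algebraMap F0 F a ∈ w.toValuationSubring ↔ a ∈ v0.toValuationSubring :=
    fun a => by rw [← hw, ValuationSubring.mem_comap]
  have ht0 := Classical.choose_spec (exists_ord_eq_one v0)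
  have ht00 := ne_zero_of_ord_eq_one v0 ht0
  have htF := t_ne_zero (F := F) v0 ht0
  apply eq_extPlace B v0 hLD hgen hres ht0 w
  · intro a ha
    exact (hmem a).2 ha
  · have h1 : 0 ≤ w.ord (algebraMap F0 F (Classical.choose (exists_ord_eq_one v0))) :=
      Place_ord_nonneg_of_mem w ((hmem _).2 (mem_of_ord_eq_one v0 ht0))
    rcases h1.lt_or_eq with h2 | h2
    · exact h2
    · exfalso
      have h3 : algebraMap F0 F (Classical.choose (exists_ord_eq_one v0))⁻¹ ∈
          w.toValuationSubring := by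
        rw [map_inv₀]
        exact Place_mem_of_ord_nonneg w (by rw [w.ord_inv, ← h2]; simp)
      have h4 := Place_ord_nonneg_of_mem v0 ((hmem _).1 h3)
      rw [v0.ord_inv, ht0] at h4
      omega

theorem eq_ext_iff_comap (w : Place K F) :
    w = ext B v0 hLD hgen hres ↔
      w.toValuationSubring.comap (algebraMap F0 F) = v0.toValuationSubring :=
  ⟨fun h => h ▸ comap_ext B v0 hLD hgen hres, eq_ext_of_comap B v0 hLD hgen hres w⟩

/-- The extension map on places is injective. -/
theorem ext_injective {v0 v0' : Place k F0}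
    (hres : Function.Surjective (algebraMap k v0.ResidueField))
    (hres' : Function.Surjective (algebraMap k v0'.ResidueField))
    (h : ext B v0 hLD hgen hres = ext B v0' hLD hgen hres') : v0 = v0' := by
  apply Place.ext
  rw [← comap_ext B v0 hLD hgen hres, ← comap_ext B v0' hLD hgen hres', h]

omit hLD hgen in
/-- A place of `F / K` which is trivial on `F0` has order `0` on `F0`. -/
theorem ord_eq_zero_of_comap_eq_top (w : Place K F)
    (hw : w.toValuationSubring.comap (algebraMap F0 F) = ⊤) (f0 : F0) :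
    w.ord (algebraMap F0 F f0) = 0 := by
  have hmem : ∀ a : F0, algebraMap F0 F a ∈ w.toValuationSubring := fun a => by
    rw [← ValuationSubring.mem_comap, hw]; exact ValuationSubring.mem_top _
  have h1 := Place_ord_nonneg_of_mem w (hmem f0)
  have h2 := Place_ord_nonneg_of_mem w (hmem f0⁻¹)
  rw [map_inv₀, w.ord_inv] at h2
  omega

omit hLD hgen in
/-- The restriction to `F0` of a place of `F / K` contains `k`. -/
theorem algebraMap_mem_comap (w : Place K F) (a : k) :
    algebraMap k F0 a ∈ w.toValuationSubring.comap (algebraMap F0 F) := by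
  rw [ValuationSubring.mem_comap, ← IsScalarTower.algebraMap_apply k F0 F,
    IsScalarTower.algebraMap_apply k K F]
  exact w.algebraMap_mem' _

/-- **Dichotomy** (given A1 for `F0 / k` and residue fields `= k`): a place of `F / K` is either
trivial on `F0` or the extension of a place of `F0 / k`. -/
theorem ord_eq_zero_or_exists_eq_ext
    (hA1 : ∀ O : ValuationSubring F0, (∀ a : k, algebraMap k F0 a ∈ O) → O ≠ ⊤ →
      ∃ v0 : Place k F0, v0.toValuationSubring = O)
    (hresAll : ∀ v0 : Place k F0, Function.Surjective (algebraMap k v0.ResidueField))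
    (w : Place K F) :
    (∀ f0 : F0, w.ord (algebraMap F0 F f0) = 0) ∨
      ∃ v0 : Place k F0, w = ext B v0 hLD hgen (hresAll v0) := by
  by_cases htop : w.toValuationSubring.comap (algebraMap F0 F) = ⊤
  · exact Or.inl (ord_eq_zero_of_comap_eq_top w htop)
  · obtain ⟨v0, hv0⟩ := hA1 _ (algebraMap_mem_comap w) htop
    exact Or.inr ⟨v0, eq_ext_of_comap B v0 hLD hgen (hresAll v0) w hv0.symm⟩

end ExtAPI

/-- Residue fields are `k` when `k` is algebraically closed and the residue field is finite. -/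
theorem residue_surjective_of_isAlgClosed [IsAlgClosed k] [Module.Finite k v0.ResidueField] :
    Function.Surjective (algebraMap k v0.ResidueField) := by
  have : Algebra.IsIntegral k v0.ResidueField := Algebra.IsIntegral.of_finite k v0.ResidueField
  exact (IsAlgClosed.algebraMap_bijective_of_isIntegral (k := k) (K := v0.ResidueField)).2

/-! ### Bridges from the tensor-product formulation -/

section Bridge

open TensorProduct

variable (k K F0 F) in
/-- The canonical map `K ⊗[k] F0 → F`. -/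
noncomputable def prodMap : K ⊗[k] F0 →ₐ[k] F :=
  Algebra.TensorProduct.productMap (IsScalarTower.toAlgHom k K F) (IsScalarTower.toAlgHom k F0 F)

theorem prodMap_symm [DecidableEq ι] (l : ι →₀ F0) :
    prodMap k K F0 F ((TensorProduct.equivFinsuppOfBasisLeft B).symm l) = lin (F := F) B l := by
  rw [TensorProduct.equivFinsuppOfBasisLeft_symm_apply, lin_apply, map_finsuppSum]
  refine Finsupp.sum_congr fun i _ => ?_
  rw [prodMap, Algebra.TensorProduct.productMap_apply_tmul, IsScalarTower.toAlgHom_apply,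
    IsScalarTower.toAlgHom_apply, mul_comm]

theorem prodMap_eq_lin [DecidableEq ι] (z : K ⊗[k] F0) :
    prodMap k K F0 F z = lin (F := F) B (TensorProduct.equivFinsuppOfBasisLeft B z) := by
  rw [← prodMap_symm, LinearEquiv.symm_apply_apply]

/-- Linear disjointness from injectivity of `K ⊗[k] F0 → F`. -/
theorem linearIndependent_of_injective (hinj : Function.Injective (prodMap k K F0 F)) :
    LinearIndependent F0 (fun i => algebraMap K F (B i)) := by
  classical
  intro l l' h
  have h' : lin (F := F) B l = lin (F := F) B l' := h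
  rw [← prodMap_symm, ← prodMap_symm] at h'
  exact (TensorProduct.equivFinsuppOfBasisLeft B).symm.injective (hinj h')

/-- Generation in tensor form implies `Gen`. -/
theorem gen_of_prodMap
    (hgen : ∀ f : F, ∃ a b : K ⊗[k] F0, prodMap k K F0 F b ≠ 0 ∧
      f = prodMap k K F0 F a / prodMap k K F0 F b) : Gen F0 F B := by
  classical
  intro f
  obtain ⟨a, b, hb, hf⟩ := hgen f
  refine ⟨TensorProduct.equivFinsuppOfBasisLeft B a, TensorProduct.equivFinsuppOfBasisLeft B b,
    ?_, ?_⟩
  · rwa [← prodMap_eq_lin]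
  · rw [← prodMap_eq_lin, ← prodMap_eq_lin]; exact hf

/-- Generation in span form implies `Gen`. -/
theorem gen_of_span
    (hgen : ∀ f : F, ∃ a ∈ Submodule.span F0 (Set.range (algebraMap K F)),
      ∃ b ∈ Submodule.span F0 (Set.range (algebraMap K F)), b ≠ 0 ∧ f = a / b) : Gen F0 F B := by
  have hle : Submodule.span F0 (Set.range (algebraMap K F)) ≤ LinearMap.range (lin (F := F) B) := by
    rw [Submodule.span_le]
    rintro _ ⟨c, rfl⟩
    exact ⟨_, lin_repr B c⟩
  intro f
  obtain ⟨a, ha, b, hb, hb0, hf⟩ := hgen f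
  obtain ⟨ma, rfl⟩ := hle ha
  obtain ⟨mb, rfl⟩ := hle hb
  exact ⟨ma, mb, hb0, hf⟩

end Bridge

end Fermat.Agent.S27.PlaceExt
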